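import Fermat.Agent.RED.Normal.AuxLevel
import Fermat.Agent.RED.X0Red
import Fermat.Agent.RED.Hauptmodul.Level4
import Fermat.Agent.RED.Hauptmodul.Level9

/-!
# Lifting at `j = 0` for `X₀(M)` in characteristic 2 (`9 ∣ M`) and 3 (`4 ∣ M`)
-/

set_option autoImplicit false
set_option linter.unusedSectionVars false
set_option synthInstance.maxHeartbeats 400000
set_option maxHeartbeats 1000000

noncomputable section

open Polynomial IntermediateField ModularCurve AlgebraicCurve

namespace Fermat.Agent.RED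

variable {M ℓ : ℕ} [NeZero M] {A : ValuationSubring (AlgebraicClosure ℚ)}
variable (hℓ : ℓ.Prime) (hM : ¬ℓ ∣ M) (hA : A.LiesOverPrime ℓ)

theorem map_aeval_intPoly {S T : Type*} [CommRing S] [CommRing T] [Algebra ℤ S] [Algebra ℤ T]
    (φ : S →+* T) (y : S) (p : ℤ[X]) : φ (aeval y p) = aeval (φ y) p := by
  rw [aeval_def, aeval_def, hom_eval₂]
  congr 1
  exact RingHom.ext_int _ _

theorem coe_aeval_modularFunctionFieldBar (y : modularFunctionFieldBar M) (p : ℤ[X]) :
    ((aeval y p : modularFunctionFieldBar M) : LaurentSeries (AlgebraicClosure ℚ)) =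
      aeval (y : LaurentSeries (AlgebraicClosure ℚ)) p :=
  map_aeval_intPoly (modularFunctionFieldBar M).val.toRingHom y p

/-- An integral `q`-series `t` of level `d ∣ M` parametrising `j` gives lifting at `j = 0`. -/
theorem x0Red_liftsAt_zero_of_series {d : ℕ} [NeZero d] (hdM : d ∣ M) {tZ : LaurentSeries ℤ}
    (ht : coeffMap (Int.castRingHom ℚ) tZ ∈ modularFunctionFieldFull d)
    {f D g : ℤ[X]} {n : ℕ}
    (hrel : aeval (coeffMap (Int.castRingHom ℚ) tZ) D * jq =
      aeval (coeffMap (Int.castRingHom ℚ) tZ) f ^ 3)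
    (hmonic : (f ^ 3).Monic) (hdeg : D.natDegree < (f ^ 3).natDegree)
    (hid : f ^ 3 - 1728 * D = g ^ 2)
    (hred : (f ^ 3).map (Int.castRingHom (IsLocalRing.ResidueField A)) =
      (Polynomial.X - C 1) ^ n)
    (hD1 : ((D.eval 1 : ℤ) : IsLocalRing.ResidueField A) ≠ 0)
    [IsAlgClosed (IsLocalRing.ResidueField A)]
    (hsep : Algebra.IsSeparable
      (IsLocalRing.ResidueField A)⟮(x0Red hℓ hM hA).red (x0Param hℓ hM hA)⟯
      (modularFunctionFieldFullC (IsLocalRing.ResidueField A) M)) :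
    (x0Red hℓ hM hA).LiftsAt (x0Param hℓ hM hA) 0 := by
  classical
  have hTser : coeffMap A.subtype (coeffMap (Int.castRingHom A) tZ) =
      coeffEmb (AlgebraicClosure ℚ) (coeffMap (Int.castRingHom ℚ) tZ) := by
    rw [coeffEmb, coeffMap_coeffMap, coeffMap_coeffMap]
    exact coeffMap_congr (RingHom.ext_int _ _) _
  have hy : coeffMap A.subtype (coeffMap (Int.castRingHom A) tZ) ∈ modularFunctionFieldBar M := by
    rw [hTser]
    exact coeffEmb_mem_laurentBaseChange _ (full_degeneracy_le hdM ht)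
  obtain ⟨hw, -⟩ := LaurentPair.exists_mem_of_coeffMap_mem (good_modL hℓ hM hA) hy
  refine ConstRed.liftsAt_zero_of_rel (T := ⟨_, hw⟩) (x0Param_param hℓ hM hA) hsep hmonic hdeg
    hid ?_ hred hD1 fun P c => ?_
  · rw [coe_x0Param]
    apply Subtype.ext
    rw [MulMemClass.coe_mul, SubmonoidClass.coe_pow, coe_aeval_modularFunctionFieldBar,
      coe_aeval_modularFunctionFieldBar]
    have h := congrArg (coeffEmb (AlgebraicClosure ℚ)) hrel
    have he : ∀ p : ℤ[X], coeffEmb (AlgebraicClosure ℚ)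
        (aeval (coeffMap (Int.castRingHom ℚ) tZ) p) =
        aeval (coeffMap A.subtype (coeffMap (Int.castRingHom A) tZ)) p := fun p => by
      rw [hTser]
      exact map_aeval_intPoly (coeffEmb (AlgebraicClosure ℚ)) _ p
    rw [map_mul, map_pow, he, he] at h
    exact h
  · rw [coe_x0Param]
    refine (RamBound.ord_jPlace_sub_le M P c).trans (le_of_eq ?_)
    unfold RamBound.ellRam
    split_ifs <;> rfl

/-- Lifting at `j = 0` in characteristic `2`, for `9 ∣ M`. -/
theorem x0Red_liftsAt_zero_two (h2 : ℓ = 2) (h9 : 9 ∣ M)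
    [IsAlgClosed (IsLocalRing.ResidueField A)]
    (hsep : Algebra.IsSeparable
      (IsLocalRing.ResidueField A)⟮(x0Red hℓ hM hA).red (x0Param hℓ hM hA)⟯
      (modularFunctionFieldFullC (IsLocalRing.ResidueField A) M)) :
    (x0Red hℓ hM hA).LiftsAt (x0Param hℓ hM hA) 0 := by
  subst h2
  haveI := Galois.place_charP_residueField hA hℓ
  have htwo : (2 : (IsLocalRing.ResidueField A)[X]) = 0 := by
    rw [← C_ofNat]
    simp [CharTwo.two_eq_zero]
  refine x0Red_liftsAt_zero_of_series hℓ hM hA h9 Hauptmodul.t9_mem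
    (f := (X + 9) * (X ^ 3 + 243 * X ^ 2 + 2187 * X + 6561))
    (D := X ^ 9 * (X ^ 2 + 9 * X + 27))
    (g := X ^ 6 - 486 * X ^ 5 - 24057 * X ^ 4 - 367416 * X ^ 3 - 2657205 * X ^ 2
      - 9565938 * X - 14348907) (n := 12) ?_ ?_ ?_ (by ring) ?_ ?_ hsep
  · simp only [map_mul, map_add, map_pow, aeval_X, map_ofNat, mul_pow]
    exact Hauptmodul.t9_mul_jq
  · exact Monic.pow (by monicity!) 3
  · rw [natDegree_pow]
    have h1 : ((X + 9) * (X ^ 3 + 243 * X ^ 2 + 2187 * X + 6561) : ℤ[X]).natDegree = 4 := by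
      compute_degree!
    have h2 : (X ^ 9 * (X ^ 2 + 9 * X + 27) : ℤ[X]).natDegree ≤ 11 := by compute_degree!
    omega
  · simp only [Polynomial.map_pow, Polynomial.map_mul, Polynomial.map_add, Polynomial.map_X,
      Polynomial.map_ofNat]
    rw [show (12 : ℕ) = 4 * 3 from rfl, pow_mul, C_1]
    congr 1
    linear_combination (128 * X ^ 3 + 2184 * X ^ 2 + 13124 * X + 29524) * htwo
  · rw [show ((X ^ 9 * (X ^ 2 + 9 * X + 27) : ℤ[X]).eval 1 : ℤ) = ((37 : ℕ) : ℤ) by norm_num,
      Int.cast_natCast]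
    intro h
    have := (CharP.cast_eq_zero_iff (IsLocalRing.ResidueField A) 2 37).mp h
    omega

/-- Lifting at `j = 0` in characteristic `3`, for `4 ∣ M`. -/
theorem x0Red_liftsAt_zero_three (h3 : ℓ = 3) (h4 : 4 ∣ M)
    [IsAlgClosed (IsLocalRing.ResidueField A)]
    (hsep : Algebra.IsSeparable
      (IsLocalRing.ResidueField A)⟮(x0Red hℓ hM hA).red (x0Param hℓ hM hA)⟯
      (modularFunctionFieldFullC (IsLocalRing.ResidueField A) M)) :
    (x0Red hℓ hM hA).LiftsAt (x0Param hℓ hM hA) 0 := by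
  subst h3
  haveI := Galois.place_charP_residueField hA hℓ
  have hthree : (3 : (IsLocalRing.ResidueField A)[X]) = 0 := by
    have h := (CharP.cast_eq_zero_iff (IsLocalRing.ResidueField A) 3 3).mpr dvd_rfl
    rw [← C_ofNat, show (3 : IsLocalRing.ResidueField A) = ((3 : ℕ) : IsLocalRing.ResidueField A)
      from Nat.cast_ofNat.symm, h, C_0]
  refine x0Red_liftsAt_zero_of_series hℓ hM hA h4 Hauptmodul.t4_mem
    (f := X ^ 2 + 256 * X + 4096) (D := X ^ 4 * (X + 16))
    (g := (X + 32) * (X ^ 2 - 512 * X - 8192)) (n := 6) ?_ ?_ ?_ (by ring) ?_ ?_ hsep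
  · simp only [map_mul, map_add, map_pow, aeval_X, map_ofNat]
    exact Hauptmodul.t4_mul_jq
  · exact Monic.pow (by monicity!) 3
  · rw [natDegree_pow]
    have h1 : (X ^ 2 + 256 * X + 4096 : ℤ[X]).natDegree = 2 := by compute_degree!
    have h2 : (X ^ 4 * (X + 16) : ℤ[X]).natDegree ≤ 5 := by compute_degree!
    omega
  · simp only [Polynomial.map_pow, Polynomial.map_mul, Polynomial.map_add, Polynomial.map_X,
      Polynomial.map_ofNat]
    rw [show (6 : ℕ) = 2 * 3 from rfl, pow_mul, C_1]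
    congr 1
    linear_combination (86 * X + 1365) * hthree
  · rw [show ((X ^ 4 * (X + 16) : ℤ[X]).eval 1 : ℤ) = ((17 : ℕ) : ℤ) by norm_num,
      Int.cast_natCast]
    intro h
    have := (CharP.cast_eq_zero_iff (IsLocalRing.ResidueField A) 3 17).mp h
    omega

end Fermat.Agent.RED
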