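import Mathlib.RingTheory.Ideal.Norm.RelNorm
import Mathlib.RingTheory.RamificationInertia.Basic
import Mathlib.RingTheory.Nakayama

/-!
# A subring containing all norms is everything

`D ⊆ S` is a finite extension of Dedekind domains over a field `k` with all residue fields equal
to `k`.  A subalgebra `C` of `D` over which `D` is finite and which contains the norms of all
elements of `S` is equal to `D`.
-/

set_option autoImplicit false

namespace Fermat.Agent.RED.Normal

open Ideal

variable {k D S : Type*} [Field k] [CommRing D] [IsDedekindDomain D] [CommRing S]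
  [IsDedekindDomain S] [Algebra k D] [Algebra k S] [Algebra D S] [IsScalarTower k D S]
  [Module.Finite D S] [Module.IsTorsionFree D S]

/-- With equal residue fields the relative norm of a prime is the prime below. -/
theorem relNorm_eq_of_residue
    (hS : ∀ P : Ideal S, P.IsMaximal → ∀ s : S, ∃ a : k, s - algebraMap k S a ∈ P)
    (p : Ideal D) [p.IsMaximal] (hp : p ≠ ⊥) (P : Ideal S) [P.IsPrime] [P.LiesOver p] :
    relNorm D P = p := by
  classical
  let : Fintype (p.primesOver S) := (IsDedekindDomain.primesOver_finite p S).fintype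
  choose s hs using fun Q : p.primesOver S =>
    have := Q.2.1
    have := Q.2.2
    exists_relNorm_eq_pow_of_isPrime Q.1 p
  have hs1 : ∀ Q : p.primesOver S, 1 ≤ s Q := fun Q => by
    have := Q.2.1
    have := Q.2.2
    refine Nat.one_le_iff_ne_zero.mpr fun h0 => Q.2.1.ne_top ?_
    have h1 := relNorm_le_comap (S := S) D Q.1
    rw [hs, h0, pow_zero, one_eq_top, top_le_iff] at h1
    exact comap_eq_top_iff.mp h1
  have hf : ∀ Q : p.primesOver S, Q.1.inertiaDeg D = 1 := fun Q => by
    have := Q.2.1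
    have := Q.2.2
    have : Q.1.IsMaximal := IsMaximal.of_liesOver_isMaximal Q.1 p
    rw [inertiaDeg_eq_of_isMaximal p Q.1]
    let : Field (D ⧸ p) := Quotient.field p
    let : Field (S ⧸ Q.1) := Quotient.field Q.1
    refine finrank_eq_one 1 one_ne_zero fun w => ?_
    obtain ⟨t, rfl⟩ := Ideal.Quotient.mk_surjective w
    obtain ⟨a, ha⟩ := hS Q.1 inferInstance t
    refine ⟨Ideal.Quotient.mk p (algebraMap k D a), ?_⟩
    rw [Algebra.smul_def, mul_one, Ideal.Quotient.algebraMap_mk_of_liesOver,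
      ← IsScalarTower.algebraMap_apply, Ideal.Quotient.eq]
    rw [← neg_sub]
    exact neg_mem ha
  have h := (congr_arg (relNorm D ·) (map_algebraMap_eq_finsetProd_pow (R := S) (p := p) hp)).symm.trans
    (relNorm_algebraMap S p)
  rw [map_prod, ← Finset.prod_set_coe, ← sum_ramification_inertia_eq_finrank p S] at h
  simp only [map_pow, hs, hf, mul_one, ← pow_mul] at h
  rw [Finset.prod_pow_eq_pow_sum] at h
  have h' := ((IsLeftCancelMulZero.mul_left_cancel_of_ne_zero hp).pow_injective ?_) h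
  · have hQ : P ∈ p.primesOver S := ⟨inferInstance, inferInstance⟩
    have := (Finset.sum_eq_sum_iff_of_le (f := fun Q : p.primesOver S => Q.1.ramificationIdx D)
      (g := fun Q => s Q * Q.1.ramificationIdx D) (fun Q _ => Nat.le_mul_of_pos_left _ (hs1 Q))).mp
      h'.symm ⟨P, hQ⟩ (Finset.mem_univ _)
    have he : P.ramificationIdx D ≠ 0 := (ramificationIdx_pos P D).ne'
    rw [hs ⟨P, hQ⟩, (mul_eq_right₀ he).mp this.symm, pow_one]
  · rw [one_eq_top]
    exact IsMaximal.ne_top inferInstance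

/-- At every maximal ideal `Q` of `D` and every `t ∈ Q` some norm generates `Q` together with `t`. -/
theorem exists_intNorm_sup_eq
    (hS : ∀ P : Ideal S, P.IsMaximal → ∀ s : S, ∃ a : k, s - algebraMap k S a ∈ P)
    (Q : Ideal D) [Q.IsMaximal] {t : D} (ht0 : t ≠ 0) (ht : t ∈ Q) :
    ∃ u : S, Algebra.intNorm D S u ∈ Q ∧
      Q ≤ span {Algebra.intNorm D S u} ⊔ span {t} := by
  have hQ0 : Q ≠ ⊥ := fun h => ht0 (by simpa [h] using ht)
  obtain ⟨P, hPm, hPQ⟩ := Ideal.exists_maximal_ideal_liesOver_of_isIntegral (S := S) Q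
  have htS : algebraMap D S t ≠ 0 := by
    simpa using (FaithfulSMul.algebraMap_injective D S).ne ht0
  have htP : algebraMap D S t ∈ P := by
    rw [← mem_comap, ← under_def, ← over_def P Q]; exact ht
  have hI : span {algebraMap D S t ^ 2} ≠ (0 : Ideal S) := by
    simpa using htS
  have hle : span {algebraMap D S t ^ 2} ≤ P := by
    rw [span_singleton_le_iff_mem, sq]; exact P.mul_mem_left _ htP
  obtain ⟨u, hu⟩ := IsDedekindDomain.exists_sup_span_eq hle hI
  have huP : u ∈ P := hu ▸ mem_sup_right (mem_span_singleton_self u)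
  obtain ⟨I, hIu⟩ := Ideal.dvd_iff_le.mpr ((span_singleton_le_iff_mem _).mpr huP)
  obtain ⟨T, hT⟩ := Ideal.dvd_iff_le.mpr hle
  obtain ⟨T₁, hT₁⟩ := Ideal.dvd_iff_le.mpr ((span_singleton_le_iff_mem _).mpr htP)
  have hP0 : P ≠ 0 := fun h => hI (le_bot_iff.mp (hle.trans h.le))
  have hTI : T ⊔ I = ⊤ := by
    rw [← one_eq_top]
    apply mul_left_cancel₀ hP0
    rw [mul_one, Ideal.mul_sup, ← hT, ← hIu, hu]
  have hIt : I ⊔ span {algebraMap D S t} = ⊤ := by
    refine top_le_iff.mp (hTI.ge.trans (sup_le (le_sup_of_le_right ?_) le_sup_left))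
    have h2 : P * T = P * (T₁ * span {algebraMap D S t}) := by
      rw [← hT, ← mul_assoc, ← hT₁, sq, ← span_singleton_mul_span_singleton]
    rw [mul_left_cancel₀ hP0 h2]
    exact (Ideal.mul_mono le_top le_rfl).trans (Ideal.top_mul _).le
  let J := relNorm D I
  have hJ : J ⊔ span {t} = ⊤ := by
    have h1 : I.comap (algebraMap D S) ⊔ span {t} = ⊤ := by
      by_contra hne
      obtain ⟨Q₀, hQ₀, hle₀⟩ := exists_le_maximal _ hne
      obtain ⟨P₀, hIP, hP₀, hP₀Q⟩ :=
        exists_ideal_over_prime_of_isIntegral Q₀ I (le_sup_left.trans hle₀)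
      apply hP₀.ne_top
      rw [← top_le_iff, ← hIt]
      refine sup_le hIP ((span_singleton_le_iff_mem _).mpr ?_)
      have : t ∈ Q₀ := hle₀ (mem_sup_right (mem_span_singleton_self t))
      rwa [← hP₀Q, mem_comap] at this
    refine top_le_iff.mp ((Ideal.pow_sup_eq_top (n := Module.finrank D S) h1).ge.trans
      (sup_le_sup_right ?_ _))
    rw [← relNorm_algebraMap S]
    exact relNorm_mono D map_comap_le
  have hb : span {Algebra.intNorm D S u} = Q * J := by
    rw [← relNorm_singleton, hIu, map_mul, relNorm_eq_of_residue hS Q hQ0 P]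
  refine ⟨u, ?_, ?_⟩
  · refine (span_singleton_le_iff_mem Q).mp ?_
    rw [hb]
    exact (Ideal.mul_mono le_rfl le_top).trans (Ideal.mul_top Q).le
  · calc Q = Q * (J ⊔ span {t}) := by rw [hJ, Ideal.mul_top]
      _ = Q * J ⊔ Q * span {t} := Ideal.mul_sup _ _ _
      _ ≤ span {Algebra.intNorm D S u} ⊔ span {t} := sup_le_sup hb.ge
          ((Ideal.mul_mono le_top le_rfl).trans (Ideal.top_mul _).le)

/-- **Descent.** -/
theorem subalgebra_eq_top_of_intNorm (C : Subalgebra k D) [Module.Finite C D]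
    (hD : ∀ P : Ideal D, P.IsMaximal → ∀ d : D, ∃ a : k, d - algebraMap k D a ∈ P)
    (hS : ∀ P : Ideal S, P.IsMaximal → ∀ s : S, ∃ a : k, s - algebraMap k S a ∈ P)
    (hnorm : ∀ u : S, Algebra.intNorm D S u ∈ C) : C = ⊤ := by
  let N : Submodule C D := LinearMap.range (Algebra.linearMap C D)
  suffices hann : Module.annihilator C (D ⧸ N) = ⊤ by
    rw [Algebra.eq_top_iff]
    intro d
    have h1 := Module.mem_annihilator.mp (hann ▸ Submodule.mem_top : (1 : C) ∈ _)
      (Submodule.Quotient.mk d)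
    rw [one_smul, Submodule.Quotient.mk_eq_zero] at h1
    obtain ⟨c, rfl⟩ := h1
    exact c.2
  by_contra hne
  obtain ⟨m, hm, hle⟩ := exists_le_maximal _ hne
  obtain ⟨Q, hQm, hQ⟩ := Ideal.exists_maximal_ideal_liesOver_of_isIntegral (S := D) m
  have hQle : Q ≤ m.map (algebraMap C D) := by
    rcases eq_or_ne Q ⊥ with h0 | h0
    · rw [h0]; exact bot_le
    obtain ⟨t, htm, ht0⟩ : ∃ t ∈ m, t ≠ 0 := by
      have hm0 : m ≠ ⊥ := fun hb => by
        rw [hb] at hQ
        exact h0 (Ideal.eq_bot_of_liesOver_bot C Q)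
      exact Submodule.exists_mem_ne_zero_of_ne_bot hm0
    have htQ : algebraMap C D t ∈ Q := by
      rw [← mem_comap, ← under_def, ← over_def Q m]; exact htm
    obtain ⟨u, hu, hQu⟩ := exists_intNorm_sup_eq hS Q
      (fun h => ht0 (Subtype.ext h)) htQ
    refine hQu.trans (sup_le ?_ ?_) <;> rw [span_singleton_le_iff_mem]
    · refine mem_map_of_mem (algebraMap C D) (x := ⟨_, hnorm u⟩) ?_
      exact (Ideal.mem_of_liesOver Q m _).mpr hu
    · exact mem_map_of_mem _ htm
  have hsmul : (⊤ : Submodule C (D ⧸ N)) ≤ m • ⊤ := by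
    rintro z -
    obtain ⟨d, rfl⟩ := Submodule.Quotient.mk_surjective N z
    obtain ⟨a, ha⟩ := hD Q hQm d
    have h1 := hQle ha
    rw [← Submodule.restrictScalars_mem C, ← Ideal.smul_top_eq_map] at h1
    have h2 : N.mkQ d = N.mkQ (d - algebraMap k D a) := by
      rw [Submodule.mkQ_apply, Submodule.mkQ_apply, Submodule.Quotient.eq, sub_sub_cancel]
      exact ⟨algebraMap k C a, rfl⟩
    show N.mkQ d ∈ _
    rw [h2]
    refine SetLike.le_def.mp ?_ (Submodule.mem_map_of_mem h1)
    rw [Submodule.map_smul'']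
    exact Submodule.smul_mono le_rfl le_top
  obtain ⟨r, hr, hrz⟩ := Submodule.exists_sub_one_mem_and_smul_eq_zero_of_fg_of_le_smul m
    (⊤ : Submodule C (D ⧸ N)) Module.Finite.fg_top hsmul
  have hrm : r ∈ m := hle (Module.mem_annihilator.mpr fun z => hrz z Submodule.mem_top)
  exact hm.ne_top ((eq_top_iff_one m).mpr (by simpa using m.sub_mem hrm hr))

end Fermat.Agent.RED.Normal
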