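import Fermat.Agent.RED.Normal.Defs
import Mathlib.RingTheory.Norm.Transitivity

/-!
# Norms commute with constant reductions
-/

set_option autoImplicit false

noncomputable section

open Polynomial IntermediateField

namespace Fermat.Agent.RED.ConstRed

variable {L k : Type*} [Field L] [Field k] {A : ValuationSubring L} {π : A →+* k}
variable {F Fb : Type*} [Field F] [Field Fb] [Algebra L F] [Algebra k Fb]
variable (R : ConstRed A π F Fb)

/-- A nonzero family is a constant times an integral family whose reduction is nonzero. -/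
theorem exists_const_mul {ι : Type*} [Finite ι] (f : ι → F) (hf : ∃ i, f i ≠ 0) :
    ∃ (c : L) (u : ι → R.W), c ≠ 0 ∧ (∀ i, f i = algebraMap L F c * (u i : F)) ∧
      ∃ i, R.red (u i) ≠ 0 := by
  classical
  choose c w hc hw hfw using fun i => fun hi : f i ≠ 0 => R.exists_scale hi
  let c' : ι → L := fun i => if hi : f i ≠ 0 then c i hi else 0
  obtain ⟨i₀, hi₀⟩ := hf
  obtain ⟨d, v, hd, hv, i₁, hi₁⟩ :=
    exists_primitive_scale A c' ⟨i₀, by simp [c', hi₀, hc i₀ hi₀]⟩
  let u : ι → R.W := fun i => R.const (v i) * if hi : f i ≠ 0 then w i hi else 1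
  refine ⟨d, u, hd, fun i => ?_, i₁, ?_⟩
  · have h1 := congrArg (algebraMap L F) (hv i)
    by_cases hi : f i ≠ 0
    · simp only [u, c', dif_pos hi, MulMemClass.coe_mul, ConstRed.coe_const, map_mul] at h1 ⊢
      rw [hfw i hi, h1, mul_assoc]
    · simp only [u, c', dif_neg hi, ConstRed.coe_const, map_mul,
        map_zero, mul_one] at h1 ⊢
      rw [not_not] at hi
      rw [hi, ← h1]
  · have hfi : f i₁ ≠ 0 := fun h0 => by
      have h1 := hv i₁
      simp [c', h0, hi₁, hd.symm] at h1
    simp only [u, hi₁, dif_pos hfi, map_one, one_mul]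
    exact hw i₁ hfi

end Fermat.Agent.RED.ConstRed

namespace Fermat.Agent.RED.IsRedExtension

variable {L k : Type*} [Field L] [Field k] {A : ValuationSubring L} {π : A →+* k}
variable {F Fb F' Fb' : Type*} [Field F] [Field Fb] [Field F'] [Field Fb'] [Algebra L F]
  [Algebra k Fb] [Algebra L F'] [Algebra k Fb'] [Algebra F F'] [Algebra Fb Fb']
  [IsScalarTower L F F']
variable {R : ConstRed A π F Fb} {R' : ConstRed A π F' Fb'} (h : IsRedExtension R R')

/-- The inclusion of valuation rings. -/
def mapW : R.W →+* R'.W :=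
  ((algebraMap F F').comp R.W.subtype).codRestrict R'.W.toSubring h.map_mem

omit [IsScalarTower L F F'] in
theorem coe_mapW (w : R.W) : (h.mapW w : F') = algebraMap F F' (w : F) := rfl

omit [IsScalarTower L F F'] in
theorem red_mapW (w : R.W) : R'.red (h.mapW w) = algebraMap Fb Fb' (R.red w) := h.red_map w

include h in
/-- Lifts of a basis of `Fb'` over `Fb` form a basis of `F'` over `F`, integral on `W'`. -/
theorem exists_basis [FiniteDimensional F F'] [FiniteDimensional Fb Fb']
    (hdeg : Module.finrank F F' = Module.finrank Fb Fb') :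
    ∃ (b : Module.Basis (Fin (Module.finrank Fb Fb')) F F')
      (bb : Module.Basis (Fin (Module.finrank Fb Fb')) Fb Fb') (hb : ∀ i, b i ∈ R'.W),
      (∀ i, R'.red ⟨b i, hb i⟩ = bb i) ∧
        ∀ w : R'.W, ∀ i, ∃ r : R.W, (r : F) = b.repr (w : F') i ∧
          R.red r = bb.repr (R'.red w) i := by
  classical
  let bb := Module.finBasis Fb Fb'
  choose e he using fun i => R'.red_surjective (bb i)
  have hcomb : ∀ (f : Fin (Module.finrank Fb Fb') → F), (∃ i, f i ≠ 0) →
      ∃ (c : L) (u : Fin (Module.finrank Fb Fb') → R.W) (z : R'.W), c ≠ 0 ∧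
        (∀ i, f i = algebraMap L F c * (u i : F)) ∧ R'.red z ≠ 0 ∧
        ∑ i, f i • (e i : F') = algebraMap L F' c * (z : F') := by
    intro f hf
    obtain ⟨c, u, hc, hu, i₀, hi₀⟩ := R.exists_const_mul f hf
    refine ⟨c, u, ∑ i, h.mapW (u i) * e i, hc, hu, fun h0 => hi₀ ?_, ?_⟩
    · simp only [map_sum, map_mul, red_mapW, he, ← Algebra.smul_def] at h0
      exact Fintype.linearIndependent_iff.mp bb.linearIndependent _ h0 i₀
    · push_cast
      rw [Finset.mul_sum]
      refine Finset.sum_congr rfl fun i _ => ?_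
      rw [Algebra.smul_def, hu i, map_mul, ← IsScalarTower.algebraMap_apply, coe_mapW, mul_assoc]
  have hind : LinearIndependent F fun i => (e i : F') := by
    rw [Fintype.linearIndependent_iff]
    intro f hf
    by_contra hne
    push Not at hne
    obtain ⟨c, u, z, hc, -, hz, hsum⟩ := hcomb f hne
    rw [hf, eq_comm, mul_eq_zero] at hsum
    exact hsum.elim ((_root_.map_ne_zero (algebraMap L F')).mpr hc) (R'.ne_zero_of_red_ne_zero hz)
  let b : Module.Basis (Fin (Module.finrank Fb Fb')) F F' := .mk hind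
    (hind.span_eq_top_of_card_eq_finrank' (by rw [Fintype.card_fin, hdeg])).ge
  have hbe : ∀ i, b i = e i := fun i => Module.Basis.mk_apply _ _ i
  refine ⟨b, bb, fun i => hbe i ▸ (e i).2, fun i => ?_, ?_⟩
  · simp only [hbe]; exact he i
  intro w
  have hex : ∃ r : Fin (Module.finrank Fb Fb') → R.W, ∀ i, (r i : F) = b.repr (w : F') i := by
    by_cases h0 : ∃ i, b.repr (w : F') i ≠ 0
    · obtain ⟨c, u, z, hc, hu, hz, hsum⟩ := hcomb _ h0
      have hw : (w : F') = algebraMap L F' c * (z : F') := by
        rw [← hsum]; simp only [← hbe]; exact (b.sum_repr _).symm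
      have hcA : c ∈ A := by
        rw [← R'.algebraMap_mem_iff]
        have h1 : algebraMap L F' c = (w : F') * (z : F')⁻¹ := by
          rw [hw, mul_assoc, mul_inv_cancel₀ (R'.ne_zero_of_red_ne_zero hz), mul_one]
        rw [h1]; exact mul_mem w.2 (R'.inv_mem_of_red_ne_zero hz)
      exact ⟨fun i => R.const ⟨c, hcA⟩ * u i, fun i => by simp [hu i]⟩
    · push Not at h0
      exact ⟨0, fun i => by simp [h0 i]⟩
  obtain ⟨r, hr⟩ := hex
  intro i
  refine ⟨r i, hr i, ?_⟩
  have hw : w = ∑ i, h.mapW (r i) * e i := Subtype.ext (by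
    push_cast
    conv_lhs => rw [← b.sum_repr (w : F')]
    exact Finset.sum_congr rfl fun i _ => by rw [Algebra.smul_def, coe_mapW, hr i, hbe i])
  have hwb : R'.red w = ∑ i, R.red (r i) • bb i := by
    rw [hw]; simp only [map_sum, map_mul, red_mapW, he, Algebra.smul_def]
  rw [hwb, bb.repr_sum_self]

include h in
/-- The norm of an element of `W'` reduces to the norm of its reduction. -/
theorem exists_red_norm [FiniteDimensional F F'] [FiniteDimensional Fb Fb']
    (hdeg : Module.finrank F F' = Module.finrank Fb Fb') (U : R'.W) :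
    ∃ w : R.W, (w : F) = Algebra.norm F (U : F') ∧
      R.red w = Algebra.norm Fb (R'.red U) := by
  classical
  obtain ⟨b, bb, hb, hbb, hrepr⟩ := h.exists_basis hdeg
  choose r hr hrr using fun i j => hrepr (U * ⟨b j, hb j⟩) i
  refine ⟨Matrix.det (Matrix.of r), ?_, ?_⟩
  · rw [Algebra.norm_eq_matrix_det b, show ((Matrix.det (Matrix.of r) : R.W) : F) =
      R.W.subtype (Matrix.det (Matrix.of r)) from rfl, RingHom.map_det]
    congr 1
    ext i j
    rw [RingHom.mapMatrix_apply, Matrix.map_apply, Algebra.leftMulMatrix_eq_repr_mul]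
    exact hr i j
  · rw [Algebra.norm_eq_matrix_det bb, RingHom.map_det]
    congr 1
    ext i j
    rw [RingHom.mapMatrix_apply, Matrix.map_apply, Algebra.leftMulMatrix_eq_repr_mul, ← hbb j,
      ← map_mul]
    exact hrr i j

omit [Algebra Fb Fb'] in
/-- Norms preserve the chart rings. -/
theorem norm_mem_coordRing {X : R.W} {U : R'.W}
    (hU : (U : F') ∈ coordRing L (algebraMap F F' (X : F))) :
    Algebra.norm F (U : F') ∈ coordRing L (X : F) := by
  let : Algebra L[X] F := (coordEval L (X : F)).toAlgebra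
  let : Algebra L[X] F' := (coordEval L (algebraMap F F' (X : F))).toAlgebra
  have : IsScalarTower L[X] F F' := IsScalarTower.of_algebraMap_eq fun p =>
    aeval_algebraMap_apply F' (X : F) p
  exact Algebra.isIntegral_norm F (R := L[X]) hU

end Fermat.Agent.RED.IsRedExtension
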