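import Fermat.Agent.RED.Normal.CoordRingFacts
import Fermat.Agent.RED.Normal.NormDescent
import Fermat.Agent.RED.Normal.NormLift

/-!
# Normality descends along finite extensions

At every point of the normalisation below, a norm from the normal chart above generates the
maximal ideal together with a constant, so the reduced chart below is everything.
-/

set_option autoImplicit false

noncomputable section

open Polynomial IntermediateField

namespace Fermat.Agent.RED

open Fermat.Agent.RED.Normal

variable {L k : Type*} [Field L] [Field k] {A : ValuationSubring L} {π : A →+* k}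
variable {F Fb F' Fb' : Type*} [Field F] [Field Fb] [Field F'] [Field Fb'] [Algebra L F]
  [Algebra k Fb] [Algebra L F'] [Algebra k Fb'] [Algebra F F'] [Algebra Fb Fb']
  [IsScalarTower L F F'] [IsScalarTower k Fb Fb']

/-- If the reduced chart of a finite extension is normal, so is the reduced chart below. -/
theorem IsRedExtension.normal [IsAlgClosed k]
    {R : ConstRed A π F Fb} {R' : ConstRed A π F' Fb'} (h : IsRedExtension R R') {X : R.W}
    (hX : R.Param X) (hX' : R'.Param ⟨algebraMap F F' (X : F), h.map_mem X⟩)
    (hsep : Algebra.IsSeparable k⟮R'.red ⟨algebraMap F F' (X : F), h.map_mem X⟩⟯ Fb')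
    (hN : R'.Normal ⟨algebraMap F F' (X : F), h.map_mem X⟩) : R.Normal X := by
  obtain ⟨htr', hfinF, hfinFb, hrank⟩ := hX'
  rw [h.red_map X] at htr' hfinFb hrank hsep
  have := hfinF
  have := hfinFb
  have := hX.finite
  have := hX.finite_red
  set x : Fb := R.red X with hx
  obtain ⟨hft, hrt, hst⟩ := tower_facts (K := k) (E' := Fb') x
  obtain ⟨hFt, hRt, -⟩ := tower_facts (K := L) (E' := F') (X : F)
  have : Algebra.IsSeparable k⟮x⟯ Fb' := hst hsep
  have : Algebra.IsSeparable k⟮x⟯ Fb := Algebra.isSeparable_tower_bot_of_isSeparable k⟮x⟯ Fb Fb'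
  have : FiniteDimensional F F' := Module.Finite.right L⟮(X : F)⟯ F F'
  have : FiniteDimensional Fb Fb' := Module.Finite.right k⟮x⟯ Fb Fb'
  have hdeg : Module.finrank F F' = Module.finrank Fb Fb' := by
    have h1 := Module.finrank_mul_finrank L⟮(X : F)⟯ F F'
    have h2 := Module.finrank_mul_finrank k⟮x⟯ Fb Fb'
    rw [hX.finrank_eq, hRt] at h1
    rw [hrt, ← hrank] at h2
    exact mul_left_cancel₀ Module.finrank_pos.ne' (h1.trans h2.symm)
  -- the two normalisations
  set D := coordRing k x with hD
  set S := coordRing k (algebraMap Fb Fb' x) with hS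
  have hmap : ∀ d : D, algebraMap Fb Fb' (d : Fb) ∈ S := fun d => by
    obtain ⟨p, hp, hroot⟩ := d.2
    refine ⟨p, hp, ?_⟩
    have h1 : coordEval k (algebraMap Fb Fb' x) = (algebraMap Fb Fb').comp (coordEval k x) :=
      RingHom.ext fun q => aeval_algebraMap_apply Fb' x q
    rw [h1, ← Polynomial.hom_eval₂, hroot, map_zero]
  let : Algebra D S := (((algebraMap Fb Fb').comp D.val.toRingHom).codRestrict S.toSubring hmap).toAlgebra
  have : IsScalarTower k D S := IsScalarTower.of_algebraMap_eq fun a =>
    Subtype.ext (IsScalarTower.algebraMap_apply k Fb Fb' a)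
  have : IsScalarTower D Fb Fb' := IsScalarTower.of_algebraMap_eq fun d => rfl
  have : IsScalarTower D S Fb' := IsScalarTower.of_algebraMap_eq fun d => rfl
  obtain ⟨hDd, hDf, hDfin⟩ := coordRing_facts (K := k) (x := x) hX.transcendental
  obtain ⟨hSd, hSf, hSfin⟩ := coordRing_facts (K := k) (x := algebraMap Fb Fb' x) htr'
  let := coordAlgebra (K := k) x
  let := coordAlgebra (K := k) (algebraMap Fb Fb' x)
  have : IsScalarTower k[X] D S := IsScalarTower.of_algebraMap_eq fun p => Subtype.ext (by
    show ((aeval _ p : S) : Fb') = algebraMap Fb Fb' ((aeval _ p : D) : Fb)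
    rw [coe_algebraMap_coordAlgebra, coe_algebraMap_coordAlgebra, aeval_algebraMap_apply])
  have : Module.Finite D S := Module.Finite.of_restrictScalars_finite k[X] D S
  have : Module.IsTorsionFree D S := Module.isTorsionFree_iff_algebraMap_injective.mpr
    fun a b hab => Subtype.ext ((algebraMap Fb Fb').injective (congrArg Subtype.val hab))
  -- the reduced chart as a subalgebra of `D`
  let C : Subalgebra k D :=
    { carrier := {d | (d : Fb) ∈ R.redChart X}
      mul_mem' := fun ha hb => by simpa using mul_mem ha hb
      one_mem' := by simp [one_mem]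
      add_mem' := fun ha hb => by simpa using add_mem ha hb
      zero_mem' := by simp [zero_mem]
      algebraMap_mem' := fun a => by
        simpa using R.aeval_red_mem_redChart X (Polynomial.C a) }
  have hxC : (⟨x, self_mem_coordRing k x⟩ : D) ∈ C := by
    show x ∈ R.redChart X
    simpa using R.aeval_red_mem_redChart X Polynomial.X
  let : Algebra k[X] C := (aeval (⟨_, hxC⟩ : C)).toRingHom.toAlgebra
  have : IsScalarTower k[X] C D := IsScalarTower.of_algebraMap_eq fun p => by
    show aeval _ p = C.val (aeval _ p)
    rw [← aeval_algHom_apply]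
    rfl
  have : Module.Finite C D := Module.Finite.of_restrictScalars_finite k[X] C D
  have hC : C = ⊤ := subalgebra_eq_top_of_intNorm (S := S) C
    (coordRing_residue hX.transcendental) (coordRing_residue htr') fun u => by
      obtain ⟨U, hU, hUu⟩ := hN (u : Fb') (by rw [h.red_map X]; exact u.2)
      obtain ⟨w, hw, hwu⟩ := h.exists_red_norm hdeg U
      refine ⟨w, ?_, ?_⟩
      · show (w : F) ∈ coordRing L (X : F)
        rw [hw]
        exact IsRedExtension.norm_mem_coordRing hU
      · show R.red w = algebraMap D Fb (Algebra.intNorm D S u)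
        rw [Algebra.algebraMap_intNorm (L := Fb'), hwu, hUu]
        rfl
  intro g hg
  have hg' : (⟨g, hg⟩ : D) ∈ C := by rw [hC]; exact Algebra.mem_top
  exact R.mem_redChart.mp hg'

end Fermat.Agent.RED
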