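import Fermat.Agent.RED.Normal.Defs
import Mathlib.FieldTheory.Separable
import Mathlib.RingTheory.Polynomial.ScaleRoots
import Mathlib.Algebra.Polynomial.Lifts

/-!
# A second parameter of a constant reduction, and descent of lifting along it

If `T` is a parameter with `X ∈ L(T)`, `x ∈ k(t̄)`, then lifting for `T` at points over `x = 0`
gives lifting for `X` at `0`.
-/

set_option autoImplicit false

noncomputable section

open Polynomial IntermediateField

namespace Fermat.Agent.RED

section CoordRing

variable {K E : Type*} [Field K] [Field E] [Algebra K E] {x : E}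

/-- `coordRing K x` is integrally closed in the field. -/
theorem mem_coordRing_of_isIntegralElem {R : Type*} [CommRing R] {φ : R →+* E}
    (hφ : ∀ r, φ r ∈ coordRing K x) {y : E} (hy : φ.IsIntegralElem y) : y ∈ coordRing K x := by
  let : Algebra K[X] E := (coordEval K x).toAlgebra
  obtain ⟨p, hp, hroot⟩ := hy
  have hint : IsIntegral (integralClosure K[X] E) y := by
    refine ⟨p.map (φ.codRestrict (integralClosure K[X] E) hφ), hp.map _, ?_⟩
    rw [eval₂_map]
    exact hroot
  exact isIntegral_trans (R := K[X]) y hint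

theorem coordRing_le_of_mem {y : E} (hy : y ∈ coordRing K x) : coordRing K y ≤ coordRing K x := by
  intro f hf
  refine mem_coordRing_of_isIntegralElem (fun p => ?_) hf
  show aeval y p ∈ coordRing K x
  rw [aeval_eq_sum_range]
  exact sum_mem fun i _ => Subalgebra.smul_mem _ (pow_mem hy i) _

/-- Clearing the denominators of a change of coordinate. -/
theorem exists_den_pow_mul_mem_coordRing {d t g : E} (hd : d ∈ coordRing K t)
    (hdx : d * x ∈ coordRing K t) (hg : g ∈ coordRing K x) :
    ∃ n : ℕ, d ^ n * g ∈ coordRing K t := by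
  obtain ⟨p, hp, hroot⟩ := hg
  set M : ℕ := Finset.sup (Finset.range (p.natDegree + 1)) fun i => (p.coeff i).natDegree with hM
  have hclear : ∀ (a : K[X]) (n : ℕ), a.natDegree ≤ n → d ^ n * aeval x a ∈ coordRing K t := by
    intro a n han
    rw [aeval_eq_sum_range, Finset.mul_sum]
    refine sum_mem fun i hi => ?_
    have hin : i ≤ n := (Nat.lt_succ_iff.mp (Finset.mem_range.mp hi)).trans han
    rw [mul_smul_comm]
    refine Subalgebra.smul_mem _ ?_ _
    rw [show d ^ n * x ^ i = d ^ (n - i) * (d * x) ^ i by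
      rw [mul_pow, ← mul_assoc, ← pow_add, Nat.sub_add_cancel hin]]
    exact mul_mem (pow_mem hd _) (pow_mem hdx _)
  refine ⟨M, mem_coordRing_of_isIntegralElem (R := ↥(coordRing K t))
    (φ := (coordRing K t).val.toRingHom) (fun r => r.2) ?_⟩
  set q : E[X] := (p.map (coordEval K x)).scaleRoots (d ^ M) with hq
  have hqmonic : q.Monic := (monic_scaleRoots_iff _).mpr (hp.map _)
  have hqroot : q.eval (d ^ M * g) = 0 := by
    rw [hq, scaleRoots_eval_mul, eval_map, hroot, mul_zero]
  have hqcoeff : ∀ i, q.coeff i ∈ coordRing K t := by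
    intro i
    rw [hq, coeff_scaleRoots, coeff_map, hp.natDegree_map, ← pow_mul, mul_comm]
    rcases lt_trichotomy i p.natDegree with hi | hi | hi
    · obtain ⟨e, he⟩ := Nat.exists_eq_add_of_le
        (show M ≤ M * (p.natDegree - i) from Nat.le_mul_of_pos_right _ (by omega))
      rw [he, pow_add, mul_assoc, mul_left_comm]
      refine mul_mem (pow_mem hd e) (hclear _ _ ?_)
      exact Finset.le_sup (f := fun i => (p.coeff i).natDegree) (Finset.mem_range.mpr (by omega))
    · subst hi
      rw [hp.coeff_natDegree, map_one, Nat.sub_self, mul_zero, pow_zero, one_mul]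
      exact one_mem _
    · rw [coeff_eq_zero_of_natDegree_lt hi, map_zero, mul_zero]
      exact zero_mem _
  have hlifts : q ∈ lifts ((coordRing K t).val.toRingHom : coordRing K t →+* E) :=
    (lifts_iff_coeff_lifts q).mpr fun i => ⟨⟨q.coeff i, hqcoeff i⟩, rfl⟩
  obtain ⟨q', hq'q, -, hq'monic⟩ := lifts_and_natDegree_eq_and_monic hlifts hqmonic
  exact ⟨q', hq'monic, by rw [eval₂_eq_eval_map, hq'q, hqroot]⟩

end CoordRing

private theorem relfinrank_adjoin_simple {K E : Type*} [Field K] [Field E] [Algebra K E]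
    (x t : E) (h : K⟮x⟯ ≤ K⟮t⟯) (ht : IsIntegral K⟮x⟯ t) :
    relfinrank K⟮x⟯ K⟮t⟯ = (minpoly K⟮x⟯ t).natDegree := by
  rw [relfinrank_eq_finrank_of_le h, extendScalars_adjoin h, adjoin.finrank ht]

namespace ConstRed

variable {L k : Type*} [Field L] [Field k] {A : ValuationSubring L} {π : A →+* k}
variable {F Fb : Type*} [Field F] [Field Fb] [Algebra L F] [Algebra k Fb]
variable {R : ConstRed A π F Fb}

/-- A parameter field containing `X` gives again a parameter. -/
theorem Param.of_mem {X T : R.W} (hX : R.Param X) (hT : (X : F) ∈ L⟮(T : F)⟯)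
    (ht : R.red X ∈ k⟮R.red T⟯) : R.Param T := by
  classical
  have hle : L⟮(X : F)⟯ ≤ L⟮(T : F)⟯ := adjoin_simple_le_iff.mpr hT
  have hleb : k⟮R.red X⟯ ≤ k⟮R.red T⟯ := adjoin_simple_le_iff.mpr ht
  have := hX.finite
  have := hX.finite_red
  have htr : Transcendental k (R.red T) := by
    intro halg
    have hfin := adjoin.finiteDimensional halg.isIntegral
    apply hX.transcendental
    have h := (Algebra.IsAlgebraic.of_finite k k⟮R.red T⟯).isAlgebraic ⟨R.red X, ht⟩
    exact h.algebraMap (A := Fb)
  have h1 := relfinrank_mul_finrank_top (E := F) hle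
  have h2 := relfinrank_mul_finrank_top (E := Fb) hleb
  have hfE : FiniteDimensional L⟮(T : F)⟯ F := Module.finite_of_finrank_pos <|
    Nat.pos_of_mul_pos_left (lt_of_lt_of_eq Module.finrank_pos h1.symm)
  have hfEb : FiniteDimensional k⟮R.red T⟯ Fb := Module.finite_of_finrank_pos <|
    Nat.pos_of_mul_pos_left (lt_of_lt_of_eq Module.finrank_pos h2.symm)
  have hge : Module.finrank k⟮R.red T⟯ Fb ≤ Module.finrank L⟮(T : F)⟯ F := by
    let b := Module.finBasis k⟮R.red T⟯ Fb
    choose e he using fun i => R.red_surjective (b i)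
    have hind : LinearIndependent k⟮R.red T⟯ fun i => R.red (e i) := by
      simpa [he] using b.linearIndependent
    simpa using (R.linearIndependent_of_red htr hind).fintype_card_le_finrank
  have hge' : relfinrank k⟮R.red X⟯ k⟮R.red T⟯ ≤ relfinrank L⟮(X : F)⟯ L⟮(T : F)⟯ := by
    have hint : IsIntegral L⟮(X : F)⟯ (T : F) := IsIntegral.of_finite _ _
    rw [relfinrank_adjoin_simple _ _ hleb (IsIntegral.of_finite _ _),
      relfinrank_adjoin_simple _ _ hle hint]
    by_contra hlt
    rw [not_le] at hlt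
    have hpow : LinearIndependent k⟮R.red X⟯
        fun i : Fin (minpoly k⟮R.red X⟯ (R.red T)).natDegree => R.red (T ^ (i : ℕ)) := by
      simpa only [map_pow] using linearIndependent_pow (R.red T)
    have hind := R.linearIndependent_of_red hX.transcendental hpow
    have hsum := minpoly.aeval L⟮(X : F)⟯ (T : F)
    rw [aeval_eq_sum_range' hlt, Finset.sum_range] at hsum
    have h0 := Fintype.linearIndependent_iff.mp hind _
      (by simpa only [SubmonoidClass.coe_pow] using hsum) ⟨_, hlt⟩
    exact one_ne_zero ((minpoly.monic hint).coeff_natDegree.symm.trans h0)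
  refine ⟨htr, hfE, hfEb, le_antisymm ?_ hge⟩
  have hpos : 0 < relfinrank k⟮R.red X⟯ k⟮R.red T⟯ :=
    Nat.pos_of_mul_pos_right (lt_of_lt_of_eq Module.finrank_pos h2.symm)
  rw [hX.finrank_eq, ← h2] at h1
  exact Nat.le_of_mul_le_mul_left ((Nat.mul_le_mul_right _ hge').trans h1.le) hpos

/-- Separability passes to a larger parameter field. -/
theorem isSeparable_of_mem {X T : R.W} (hsep : Algebra.IsSeparable k⟮R.red X⟯ Fb)
    (ht : R.red X ∈ k⟮R.red T⟯) : Algebra.IsSeparable k⟮R.red T⟯ Fb :=
  let Eb : IntermediateField k⟮R.red X⟯ Fb := extendScalars (adjoin_simple_le_iff.mpr ht)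
  (Algebra.isSeparable_tower_top_of_isSeparable k⟮R.red X⟯ Eb Fb : Algebra.IsSeparable Eb Fb)

theorem chartRing_le_of_mem {X T : R.W} (hT : (T : F) ∈ coordRing L (X : F)) :
    R.chartRing T ≤ R.chartRing X := fun _ hw => coordRing_le_of_mem hT hw

theorem redChart_le_of_mem {X T : R.W} (hT : (T : F) ∈ coordRing L (X : F)) :
    R.redChart T ≤ R.redChart X :=
  (Subring.gc_map_comap R.red).monotone_l (chartRing_le_of_mem hT)

/-- If `den(t̄) x = (t̄ - t₀) ^ n` with `den(t₀) ≠ 0`, lifting for `T` at `t₀` gives lifting for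
`X` at `0`. -/
theorem liftsAt_zero_of_aux {X T : R.W} (hTX : (T : F) ∈ coordRing L (X : F))
    (htx : R.red T ∈ coordRing k (R.red X)) {den : k[X]} {t₀ : k} {n : ℕ}
    (hrel : aeval (R.red T) den * R.red X = aeval (R.red T) ((Polynomial.X - C t₀) ^ n))
    (hden : den.eval t₀ ≠ 0) (h : R.LiftsAt T t₀) : R.LiftsAt X 0 := by
  intro g hg
  set x := R.red X
  set t := R.red T
  obtain ⟨m, hm⟩ := exists_den_pow_mul_mem_coordRing (aeval_mem_coordRing k t den)
    (hrel ▸ aeval_mem_coordRing k t _) hg
  obtain ⟨s, hs, hlift⟩ := h _ hm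
  have hmem : aeval t (s * den ^ m) * g ∈ R.redChart X := by
    refine redChart_le_of_mem hTX (R.mem_redChart.mpr ?_)
    obtain ⟨w, hw1, hw2⟩ := hlift
    exact ⟨w, hw1, by rw [hw2, map_mul, map_pow, mul_assoc]⟩
  obtain ⟨u, v, huv⟩ : IsCoprime (s * den ^ m) ((Polynomial.X - C t₀) ^ n) := by
    apply IsCoprime.pow_right
    refine ((irreducible_X_sub_C t₀).coprime_iff_not_dvd.mpr ?_).symm
    rw [dvd_iff_isRoot, IsRoot, eval_mul, eval_pow]
    exact mul_ne_zero hs (pow_ne_zero _ hden)
  set c : Fb := aeval t (v * den)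
  have hc : aeval t u * (aeval t (s * den ^ m)) = 1 - c * x := by
    have := congrArg (aeval t) huv
    rw [map_add, map_mul, map_mul, map_one, map_mul (aeval t) v, ← hrel] at this
    rw [show c = aeval t v * aeval t den from map_mul _ _ _]
    rw [map_mul (aeval t) s]
    linear_combination this
  have htC : ∀ p : k[X], aeval t p ∈ R.redChart X := fun p =>
    redChart_le_of_mem hTX (R.aeval_red_mem_redChart T p)
  have hxC : x ∈ R.redChart X := by simpa using R.aeval_red_mem_redChart X Polynomial.X
  have hI : (1 - c * x) * g ∈ R.redChart X := by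
    rw [← hc, mul_assoc]
    exact mul_mem (htC u) hmem
  have hcint : c ∈ coordRing k x := coordRing_le_of_mem htx (aeval_mem_coordRing k t _)
  obtain ⟨Q, hQ, hQroot⟩ := hcint
  set N := Q.natDegree
  refine ⟨∑ i ∈ Finset.range (N + 1), Q.coeff i * Polynomial.X ^ (N - i), ?_, ?_⟩
  · rw [eval_finsetSum, Finset.sum_range_succ, Finset.sum_eq_zero, zero_add, Nat.sub_self,
      show Q.coeff N = 1 from hQ.coeff_natDegree]
    · simp
    · intro i hi
      rw [eval_mul, eval_pow, eval_X, zero_pow (Nat.sub_ne_zero_of_lt (Finset.mem_range.mp hi)),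
        mul_zero]
  · refine R.mem_redChart.mp ?_
    have h0 : ∑ i ∈ Finset.range (N + 1), aeval x (Q.coeff i) * c ^ i = 0 := by
      rw [← hQroot, eval₂_eq_sum_range]
      rfl
    rw [map_sum, Finset.sum_mul]
    rw [show ∑ i ∈ Finset.range (N + 1), aeval x (Q.coeff i * Polynomial.X ^ (N - i)) * g =
      ∑ i ∈ Finset.range (N + 1), (aeval x (Q.coeff i) * x ^ (N - i) * (1 - (c * x) ^ i)) * g by
      rw [← Finset.sum_mul, ← Finset.sum_mul]
      congr 1
      simp only [map_mul, map_pow, aeval_X, mul_sub, mul_one, Finset.sum_sub_distrib]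
      refine (sub_eq_self.mpr ?_).symm
      calc ∑ i ∈ Finset.range (N + 1), aeval x (Q.coeff i) * x ^ (N - i) * (c * x) ^ i
          = x ^ N * ∑ i ∈ Finset.range (N + 1), aeval x (Q.coeff i) * c ^ i := by
            rw [Finset.mul_sum]
            refine Finset.sum_congr rfl fun i hi => ?_
            have hx : x ^ N = x ^ (N - i) * x ^ i := by
              rw [← pow_add, Nat.sub_add_cancel (Nat.lt_succ_iff.mp (Finset.mem_range.mp hi))]
            rw [hx, mul_pow]
            ring
        _ = 0 := by rw [h0, mul_zero]]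
    refine sum_mem fun i _ => ?_
    rw [show aeval x (Q.coeff i) * x ^ (N - i) * (1 - (c * x) ^ i) * g =
      aeval x (Q.coeff i) * x ^ (N - i) * (∑ j ∈ Finset.range i, (c * x) ^ j) * ((1 - c * x) * g) by
      rw [← geom_sum_mul_neg (c * x) i]; ring]
    exact mul_mem (mul_mem (mul_mem (R.aeval_red_mem_redChart X _) (pow_mem hxC _))
      (sum_mem fun j _ => pow_mem (mul_mem (htC _) hxC) j)) hI

end ConstRed

end Fermat.Agent.RED
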