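import Fermat.Agent.RED.Normal.DualBasis

/-!
# Normality of the special fibre from the ramification in characteristic zero

The codifferent of the generic chart has poles of order less than the ramification index; reducing
this bound shows that the codifferent of the reduced chart is that of its normalisation.
-/

set_option autoImplicit false

noncomputable section

open Polynomial IntermediateField AlgebraicCurve

namespace Fermat.Agent.RED

namespace Normal

variable {K E : Type*} [Field K] [Field E] [Algebra K E] {x : E}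

theorem aeval_sub_mem_ordGE_one (v : Place K E) (hx : x ∈ v.toValuationSubring) (hv : v.deg = 1)
    (s : K[X]) : aeval x s - algebraMap K E (s.eval (pval v x)) ∈ FF.ordGE v 1 := by
  obtain ⟨q, hq⟩ := X_sub_C_dvd_sub_C_eval (p := s) (a := pval v x)
  have h : aeval x s - algebraMap K E (s.eval (pval v x))
      = (x - algebraMap K E (pval v x)) * aeval x q := by
    have := congrArg (aeval x) hq
    simpa using this
  rw [h]
  have h1 : x - algebraMap K E (pval v x) ∈ FF.ordGE v 1 :=
    (FF.mem_ordGE v).mpr ((pval_sub_algebraMap hv hx).imp_right fun h => by omega)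
  simpa using FF.mul_mem_ordGE v h1
    (FF.aeval_mem_ordGE_zero v ((FF.mem_ordGE_zero v).mpr hx) q)

theorem pval_eq_zero_of_mem_ordGE (v : Place K E) (hv : v.deg = 1) {f : E}
    (hf : f ∈ FF.ordGE v 1) : pval v f = 0 := by
  have hmem : f ∈ v.toValuationSubring :=
    (FF.mem_ordGE_zero v).mp (FF.ordGE_antitone v zero_le_one hf)
  exact (pval_eq_zero_iff hv hmem).mpr (((FF.mem_ordGE v).mp hf).imp_right fun h => by omega)

/-- A polynomial whose roots avoid the residue class of `x₀` is a constant times an integral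
polynomial whose reduction does not vanish at `x₀`. -/
theorem exists_map_eq_C_mul {L k : Type*} [Field L] [Field k] [IsAlgClosed L]
    {A : ValuationSubring L} {π : A →+* k} (hπ : Function.Surjective π) (x₀ : k) {s : L[X]}
    (hs : s ≠ 0) (hroot : ∀ b, s.IsRoot b → ¬ ∃ a : A, (a : L) = b ∧ π a = x₀) :
    ∃ (c : L) (P : A[X]), c ≠ 0 ∧ P.map A.subtype = Polynomial.C c * s ∧
      (P.map π).eval x₀ ≠ 0 := by
  have hprod := (IsAlgClosed.splits s).eq_prod_roots
  suffices key : ∀ R : Multiset L, (∀ b ∈ R, ¬ ∃ a : A, (a : L) = b ∧ π a = x₀) →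
      ∃ (c : L) (P : A[X]), c ≠ 0 ∧
        P.map A.subtype = Polynomial.C c * (R.map fun b => X - Polynomial.C b).prod ∧
        (P.map π).eval x₀ ≠ 0 by
    obtain ⟨c, P, hc, hP, hev⟩ := key s.roots fun b hb => hroot b (mem_roots'.mp hb).2
    refine ⟨c * s.leadingCoeff⁻¹, P,
      mul_ne_zero hc (inv_ne_zero (leadingCoeff_ne_zero.mpr hs)), ?_, hev⟩
    rw [hP]
    conv_rhs => arg 2; rw [hprod]
    rw [← mul_assoc, ← Polynomial.C_mul, mul_assoc c,
      inv_mul_cancel₀ (leadingCoeff_ne_zero.mpr hs), mul_one]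
  intro R hR
  induction R using Multiset.induction with
  | empty => exact ⟨1, 1, one_ne_zero, by simp, by simp⟩
  | cons b R ih =>
    obtain ⟨c, P, hc, hP, hev⟩ := ih fun b' hb' => hR b' (Multiset.mem_cons_of_mem hb')
    rcases em (b ∈ A) with hb | hb
    · refine ⟨c, (X - Polynomial.C (⟨b, hb⟩ : A)) * P, hc, ?_, ?_⟩
      · rw [Polynomial.map_mul, Polynomial.map_sub, Polynomial.map_X, Polynomial.map_C, hP,
          Multiset.map_cons, Multiset.prod_cons]
        rw [mul_left_comm]
        rfl
      · rw [Polynomial.map_mul, Polynomial.map_sub, Polynomial.map_X, Polynomial.map_C, eval_mul,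
          eval_sub, eval_X, eval_C]
        exact mul_ne_zero (sub_ne_zero.mpr fun h =>
          hR b (Multiset.mem_cons_self b R) ⟨⟨b, hb⟩, rfl, h.symm⟩) hev
    · have hb0 : b ≠ 0 := fun h => hb (h ▸ A.zero_mem)
      have hbi : b⁻¹ ∈ A := (A.mem_or_inv_mem b).resolve_left hb
      have hπb : π ⟨b⁻¹, hbi⟩ = 0 := by
        haveI := RingHom.ker_isMaximal_of_surjective π hπ
        rw [← RingHom.mem_ker, IsLocalRing.eq_maximalIdeal this, IsLocalRing.mem_maximalIdeal,
          mem_nonunits_iff]
        intro hu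
        obtain ⟨t, ht⟩ := hu.exists_right_inv
        have h2 : b⁻¹ * (t : L) = 1 := congrArg Subtype.val ht
        exact hb (((inv_mul_eq_one₀ hb0).mp h2).symm ▸ t.2)
      refine ⟨b⁻¹ * c, (Polynomial.C (⟨b⁻¹, hbi⟩ : A) * X - 1) * P,
        mul_ne_zero (inv_ne_zero hb0) hc, ?_, ?_⟩
      · rw [Polynomial.map_mul, Polynomial.map_sub, Polynomial.map_mul, Polynomial.map_C,
          Polynomial.map_X, Polynomial.map_one, hP, Multiset.map_cons, Multiset.prod_cons,
          Polynomial.C_mul]
        have h1 : Polynomial.C b⁻¹ * Polynomial.C b = 1 := by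
          rw [← Polynomial.C_mul, inv_mul_cancel₀ hb0, Polynomial.C_1]
        show (Polynomial.C b⁻¹ * X - 1) * _ = _
        linear_combination (Polynomial.C c * (R.map fun b => X - Polynomial.C b).prod) * h1
      · rw [Polynomial.map_mul, Polynomial.map_sub, Polynomial.map_mul, Polynomial.map_C,
          Polynomial.map_one, eval_mul, eval_sub, eval_mul, eval_C, hπb, zero_mul, eval_one,
          zero_sub]
        exact mul_ne_zero (neg_ne_zero.mpr one_ne_zero) hev

end Normal

namespace ConstRed

variable {L k : Type*} [Field L] [Field k] {A : ValuationSubring L} {π : A →+* k}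
variable {F Fb : Type*} [Field F] [Field Fb] [Algebra L F] [Algebra k Fb]
variable {R : ConstRed A π F Fb} {X : R.W} {n : ℕ}

namespace DualPair

variable (d : R.DualPair X n)

/-- The generic codifferent: `(X - a') uᵢ / D` vanishes at every place above an integral `a'`. -/
theorem mem_ordGE_one [CharZero L] [IsAlgClosed L] (hX : R.Param X)
    (hfull : ∀ g ∈ R.redChart X,
      ∃ q : Fin n → k[X], g = ∑ i, aeval (R.red X) (q i) * R.red (d.b i))
    (v : Place L F) (hv : (X : F) ∈ v.toValuationSubring) (a' : A)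
    (ha' : pval v (X : F) = a') (i : Fin n) :
    ((X : F) - algebraMap L F (a' : L)) * (d.u i : F) / (R.evW X d.D : F) ∈ FF.ordGE v 1 := by
  classical
  haveI := hX.finite
  have hxL := R.transcendental_of_red hX.transcendental
  haveI : FF.IsFunctionField L F := ⟨(X : F), hxL, hX.finite⟩
  set t : F := (X : F) - algebraMap L F (a' : L) with ht
  have ht0 : t ≠ 0 := fun h => hxL (by rw [sub_eq_zero.mp h]; exact isAlgebraic_algebraMap _)
  have hDe : (R.evW X d.D : F) = aeval (X : F) (d.D.map A.subtype) := R.coe_evW X _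
  have hD0 : (R.evW X d.D : F) ≠ 0 :=
    R.ne_zero_of_red_ne_zero (R.red_evW_ne_zero hX.transcendental d.D_ne)
  set z : F := t * (d.u i : F) / (R.evW X d.D : F) with hz
  by_contra hcon
  rw [FF.mem_ordGE] at hcon
  push Not at hcon
  obtain ⟨hz0, hzord⟩ := hcon
  let S : Finset (Place L F) := (FF.finite_ord_pos (K := L) t).toFinset
  have hmemS : ∀ w : Place L F, (X : F) ∈ w.toValuationSubring → pval w (X : F) = a' → w ∈ S := by
    intro w hw hwa
    refine (FF.finite_ord_pos (K := L) t).mem_toFinset.mpr ?_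
    have := (pval_sub_algebraMap (Normal.deg_eq_one' w) hw).resolve_left (by rwa [hwa])
    rwa [hwa] at this
  obtain ⟨h0, hh0⟩ := FF.exists_sub_mem_ordGE S (fun w => if w = v then z⁻¹ else 0)
    (fun w => max 0 (1 - w.ord z))
  have hh : ∀ w : Place L F, (X : F) ∈ w.toValuationSubring → pval w (X : F) = a' →
      h0 ∈ FF.ordGE w 0 ∧ z * h0 - (if w = v then 1 else 0) ∈ FF.ordGE w 1 := by
    intro w hw hwa
    have h1 := hh0 w (hmemS w hw hwa)
    have hge : FF.ordGE w (max 0 (1 - w.ord z)) ≤ FF.ordGE w (1 - w.ord z) :=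
      FF.ordGE_antitone w (le_max_right _ _)
    refine ⟨?_, ?_⟩
    · have h2 : (if w = v then z⁻¹ else 0 : F) ∈ FF.ordGE w 0 := by
        split_ifs with hwv
        · refine FF.mem_ordGE_of_le w ?_
          rw [hwv, v.ord_inv]; omega
        · exact zero_mem _
      have := add_mem (FF.ordGE_antitone w (le_max_left _ _) h1) h2
      rwa [sub_add_cancel] at this
    · have h3 : z * (h0 - (if w = v then z⁻¹ else 0)) ∈ FF.ordGE w 1 := by
        rw [FF.mul_mem_ordGE_iff w hz0]; exact hge h1
      convert h3 using 1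
      split_ifs with hwv
      · rw [mul_sub, mul_inv_cancel₀ hz0]
      · rw [sub_zero, sub_zero]
  obtain ⟨s₁, hs₁0, hs₁r, hs₁⟩ := Normal.exists_clearing hxL h0 (fun b => b = (a' : L))
    (fun w hw hwa => (FF.mem_ordGE_zero w).mp (hh w hw hwa).1)
  obtain ⟨s₂, hs₂0, hs₂r, hs₂⟩ := Normal.exists_clearing hxL (z * h0) (fun b => b = (a' : L))
    (fun w hw hwa => by
      have h1 := FF.ordGE_antitone w zero_le_one (hh w hw hwa).2
      have h2 : (if w = v then 1 else 0 : F) ∈ FF.ordGE w 0 := by
        rw [FF.mem_ordGE_zero]; split_ifs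
        · exact one_mem _
        · exact zero_mem _
      have := add_mem h1 h2
      rw [sub_add_cancel] at this
      exact (FF.mem_ordGE_zero w).mp this)
  have hse : (s₁ * s₂).eval (a' : L) ≠ 0 := by
    rw [eval_mul]
    exact mul_ne_zero (fun h => hs₁r _ h rfl) (fun h => hs₂r _ h rfl)
  set s : L[X] := Polynomial.C ((s₁ * s₂).eval (a' : L))⁻¹ * (s₁ * s₂) with hs
  have hsa : s.eval (a' : L) = 1 := by
    rw [hs, eval_mul, eval_C, inv_mul_cancel₀ hse]
  have hhc : aeval (X : F) s * h0 ∈ coordRing L (X : F) := by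
    have h1 := mul_mem (aeval_mem_coordRing L (X : F)
      (Polynomial.C ((s₁ * s₂).eval (a' : L))⁻¹ * s₂)) hs₁
    convert h1 using 1
    simp only [hs, map_mul]; ring
  have hfc : aeval (X : F) s * (z * h0) ∈ coordRing L (X : F) := by
    have h1 := mul_mem (aeval_mem_coordRing L (X : F)
      (Polynomial.C ((s₁ * s₂).eval (a' : L))⁻¹ * s₁)) hs₂
    convert h1 using 1
    simp only [hs, map_mul]; ring
  have hval : ∀ w : Place L F, (X : F) ∈ w.toValuationSubring → pval w (X : F) = a' →
      pval w (aeval (X : F) s * (z * h0)) = if w = v then 1 else 0 := by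
    intro w hw hwa
    have hdeg := Normal.deg_eq_one' w
    have h1 := Normal.aeval_sub_mem_ordGE_one w hw hdeg s
    rw [hwa, hsa, map_one] at h1
    obtain ⟨hh1, hh2⟩ := hh w hw hwa
    have hc : (if w = v then 1 else 0 : F) ∈ w.toValuationSubring := by
      split_ifs
      · exact one_mem _
      · exact zero_mem _
    have hzh : z * h0 ∈ FF.ordGE w 0 := by
      have := add_mem (FF.ordGE_antitone w zero_le_one hh2) ((FF.mem_ordGE_zero w).mpr hc)
      rwa [sub_add_cancel] at this
    have h2 : aeval (X : F) s * (z * h0) - (if w = v then 1 else 0) ∈ FF.ordGE w 1 := by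
      have := add_mem (by simpa using FF.mul_mem_ordGE w h1 hzh) hh2
      convert this using 1
      ring
    have hmem := mem_place_of_mem_coordRing L (X : F) w hw hfc
    have h3 := Normal.pval_eq_zero_of_mem_ordGE w hdeg h2
    rw [pval_sub hdeg hmem hc, sub_eq_zero] at h3
    rw [h3]
    split_ifs
    · exact pval_one hdeg
    · exact pval_zero hdeg
  obtain ⟨p, m, hp, hpa, hm⟩ := Normal.exists_trace_eval hxL hfc (a' : L) fun w hw hwa => by
    rw [hval w hw hwa]; split_ifs <;> simp
  have hm0 : m ≠ 0 := hm.mp ⟨v, hv, ha', by rw [hval v hv ha', if_pos rfl]⟩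
  obtain ⟨D1, hD1, hq⟩ := d.exists_trace_eq_mul hX hfull hhc a'
  obtain ⟨q, hq⟩ := hq i
  have hK : Normal.genEval L (X : F) (d.D.map A.subtype) •
        (aeval (X : F) s * (z * h0)) =
      Normal.genEval L (X : F) (Polynomial.X - Polynomial.C (a' : L)) •
        ((d.u i : F) * (aeval (X : F) s * h0)) := by
    rw [IntermediateField.smul_def, IntermediateField.smul_def, Normal.coe_genEval,
      Normal.coe_genEval, smul_eq_mul, smul_eq_mul, ← hDe, map_sub, aeval_X, aeval_C, hz]
    field_simp
    ring
  have htr := congrArg (fun g : F => ((Algebra.trace L⟮(X : F)⟯ F g : L⟮(X : F)⟯) : F)) hK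
  simp only [map_smul, smul_eq_mul, MulMemClass.coe_mul, Normal.coe_genEval, hp] at htr
  have h5 : aeval (X : F) (D1 * p) =
      aeval (X : F) ((Polynomial.X - Polynomial.C (a' : L)) * q) := by
    apply mul_left_cancel₀ (hDe ▸ hD0)
    simp only [map_mul]
    rw [mul_left_comm, htr, mul_left_comm, hq]
    ring
  have h6 := congrArg (Polynomial.eval (a' : L)) (transcendental_iff_injective.mp hxL h5)
  simp only [eval_mul, eval_sub, eval_X, eval_C, sub_self, zero_mul, hpa, mul_eq_zero,
    Nat.cast_eq_zero] at h6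
  exact hm0 (h6.resolve_left hD1)

end DualPair

/-- If `F/L(X)` has ramification at most `m` at `a` and none at the other `a'` reducing to
`x₀ = π a`, the reduced chart is normal above `x₀`. -/
theorem liftsAt_of_ramification [CharZero L] [IsAlgClosed L] [IsAlgClosed k] (hX : R.Param X)
    (hsep : Algebra.IsSeparable k⟮R.red X⟯ Fb) {a : A} {m : ℕ} (hm : 0 < m)
    (ha : ∀ P : Place L F, P.ord ((X : F) - algebraMap L F (a : L)) ≤ m)
    (hne : ∀ (P : Place L F) (a' : A), a' ≠ a → π a' = π a →
      P.ord ((X : F) - algebraMap L F (a' : L)) ≤ 1) :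
    R.LiftsAt X (π a) := by
  classical
  haveI := hX.finite
  haveI := hX.finite_red
  have hx := hX.transcendental
  have hxL := R.transcendental_of_red hx
  haveI : FF.IsFunctionField L F := ⟨(X : F), hxL, hX.finite⟩
  haveI : FF.IsFunctionField k Fb := ⟨R.red X, hx, hX.finite_red⟩
  obtain ⟨n, d, hfull⟩ := R.exists_full_dualPair hX
  let T : R.W := R.evW X (Polynomial.X - Polynomial.C a)
  have hTred : R.red T ≠ 0 := R.red_evW_ne_zero hx (by
    rw [Polynomial.map_sub, Polynomial.map_X, Polynomial.map_C]; exact X_sub_C_ne_zero _)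
  have hDred : R.red (R.evW X d.D) ≠ 0 := R.red_evW_ne_zero hx d.D_ne
  have hTF : (T : F) = (X : F) - algebraMap L F (a : L) := by
    simp [T, R.coe_evW]
  have hD0 : (R.evW X d.D : F) ≠ 0 := R.ne_zero_of_red_ne_zero hDred
  have hT0 : (T : F) ≠ 0 := R.ne_zero_of_red_ne_zero hTred
  let z : Fin n → R.W := fun i => T * d.u i * ⟨_, R.inv_mem_of_red_ne_zero hDred⟩
  let w : Fin n → R.W := fun i => z i ^ m * ⟨_, R.inv_mem_of_red_ne_zero hTred⟩
  have hzF : ∀ i, (z i : F) = (T : F) * (d.u i : F) / (R.evW X d.D : F) := fun i =>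
    (div_eq_mul_inv _ _).symm
  have hwF : ∀ i, (w i : F) = (z i : F) ^ m / (T : F) := fun i => (div_eq_mul_inv _ _).symm
  have hwz : ∀ i, z i ^ m = T * w i := fun i => Subtype.ext (by
    rw [MulMemClass.coe_mul, hwF, SubmonoidClass.coe_pow, mul_div_cancel₀ _ hT0])
  have hDz : ∀ i, R.evW X d.D * z i = T * d.u i := fun i => Subtype.ext (by
    rw [MulMemClass.coe_mul, hzF, MulMemClass.coe_mul, mul_div_cancel₀ _ hD0])
  let Good : L → Prop := fun b => ∃ a' : A, (a' : L) = b ∧ π a' = π a
  have hregular : ∀ (i : Fin n) (v : Place L F), (X : F) ∈ v.toValuationSubring →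
      Good (pval v (X : F)) →
        (z i : F) ∈ v.toValuationSubring ∧ (w i : F) ∈ v.toValuationSubring := by
    intro i v hv ⟨a', ha', hπa'⟩
    have h1 := d.mem_ordGE_one hX hfull v hv a' ha'.symm i
    have hTmem : (T : F) ∈ v.toValuationSubring := by
      rw [hTF]; exact sub_mem hv (v.algebraMap_mem' _)
    rcases eq_or_ne a' a with rfl | hne'
    · rw [← hTF, ← hzF] at h1
      refine ⟨(FF.mem_ordGE_zero v).mp (FF.ordGE_antitone v zero_le_one h1), ?_⟩
      rw [hwF]
      rcases (FF.mem_ordGE v).mp h1 with h0 | h0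
      · rw [h0, zero_pow hm.ne', zero_div]; exact zero_mem _
      · have hz0 : (z i : F) ≠ 0 := fun h => by rw [h, v.ord_zero] at h0; omega
        refine mem_of_ord_nonneg v ?_
        rw [FF.ord_div v (pow_ne_zero _ hz0) hT0, FF.ord_pow, hTF]
        have := ha v
        nlinarith
    · set t' : F := (X : F) - algebraMap L F (a' : L) with ht'
      have ht'0 : t' ≠ 0 := fun h => hxL (by rw [sub_eq_zero.mp h]; exact isAlgebraic_algebraMap _)
      set y : F := (d.u i : F) / (R.evW X d.D : F) with hy
      have hy0 : y ∈ v.toValuationSubring := by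
        rw [mul_div_assoc, ← hy, FF.mul_mem_ordGE_iff v ht'0] at h1
        refine (FF.mem_ordGE_zero v).mp (FF.ordGE_antitone v ?_ h1)
        have := hne v a' hne' hπa'
        rw [← ht'] at this
        omega
      have hzy : (z i : F) = (T : F) * y := by rw [hzF, hy, mul_div_assoc]
      refine ⟨hzy ▸ mul_mem hTmem hy0, ?_⟩
      have : (w i : F) = (T : F) ^ (m - 1) * y ^ m := by
        rw [hwF, hzy, mul_pow, eq_comm, eq_div_iff hT0, mul_right_comm, ← pow_succ,
          Nat.sub_add_cancel hm]
      exact this ▸ mul_mem (pow_mem hTmem _) (pow_mem hy0 _)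
  choose s₁ hs₁0 hs₁r hs₁ using fun i =>
    Normal.exists_clearing hxL (z i : F) Good fun v hv hG => (hregular i v hv hG).1
  choose s₂ hs₂0 hs₂r hs₂ using fun i =>
    Normal.exists_clearing hxL (w i : F) Good fun v hv hG => (hregular i v hv hG).2
  set s : L[X] := ∏ i, s₁ i * s₂ i with hs
  have hsroot : ∀ b, s.IsRoot b → ¬ Good b := by
    intro b hb
    rw [IsRoot.def, hs, eval_prod, Finset.prod_eq_zero_iff] at hb
    obtain ⟨i, -, hb⟩ := hb
    rw [eval_mul, mul_eq_zero] at hb
    exact hb.elim (hs₁r i b) (hs₂r i b)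
  obtain ⟨c, P, hc, hP, hPev⟩ := Normal.exists_map_eq_C_mul R.surjective_π (π a)
    (Finset.prod_ne_zero_iff.mpr fun i _ => mul_ne_zero (hs₁0 i) (hs₂0 i)) hsroot
  have hPF : (R.evW X P : F) = algebraMap L F c * aeval (X : F) s := by
    rw [R.coe_evW, hP, map_mul, aeval_C]
  have hZ : ∀ i, R.evW X P * z i ∈ R.chartRing X := by
    intro i
    rw [mem_chartRing, MulMemClass.coe_mul, hPF, hs, ← Finset.mul_prod_erase _ _ (Finset.mem_univ i)]
    simp only [map_mul]
    rw [show ∀ c' A' B' C' Z' : F, c' * (A' * B' * C') * Z' = c' * B' * C' * (A' * Z') from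
      fun _ _ _ _ _ => by ring]
    exact mul_mem (mul_mem (mul_mem ((coordRing L (X : F)).algebraMap_mem c)
      (aeval_mem_coordRing L _ _)) (aeval_mem_coordRing L _ _)) (hs₁ i)
  have hW : ∀ i, R.evW X P ^ m * w i ∈ R.chartRing X := by
    intro i
    obtain ⟨m', rfl⟩ := Nat.exists_eq_add_of_le hm
    rw [mem_chartRing, MulMemClass.coe_mul, SubmonoidClass.coe_pow, Nat.add_comm, pow_succ]
    nth_rewrite 2 [hPF]
    rw [hs, ← Finset.mul_prod_erase _ _ (Finset.mem_univ i)]
    simp only [map_mul]
    rw [show ∀ p c' A' B' C' W' : F, p * (c' * (A' * B' * C')) * W'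
      = p * c' * A' * C' * (B' * W') from fun _ _ _ _ _ _ => by ring]
    refine mul_mem (mul_mem (mul_mem (mul_mem (pow_mem ?_ _)
      ((coordRing L (X : F)).algebraMap_mem c)) (aeval_mem_coordRing L _ _))
      (aeval_mem_coordRing L _ _)) (hs₂ i)
    rw [R.coe_evW]; exact aeval_mem_coordRing L _ _
  intro g hg
  refine ⟨P.map π, hPev, ?_⟩
  have hq : ∀ i, ∃ q : k[X],
      aeval (R.red X) (P.map π) *
        ((Algebra.trace k⟮R.red X⟯ Fb (R.red (d.u i) * g) : k⟮R.red X⟯) : Fb) =
      aeval (R.red X) (d.D.map π) * aeval (R.red X) q := by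
    intro i
    have hZb := R.red_mem_coordRing_of_mem_chartRing hX (hZ i)
    have hWb := R.red_mem_coordRing_of_mem_chartRing hX (hW i)
    have hf : R.red (R.evW X P * z i) * g ∈ coordRing k (R.red X) := mul_mem hZb hg
    obtain ⟨p, hp⟩ := Normal.exists_poly_trace hx hf
    have hrel : R.red (R.evW X P * z i) ^ m =
        (R.red X - algebraMap k Fb (π a)) * R.red (R.evW X P ^ m * w i) := by
      rw [← map_pow, mul_pow, hwz, mul_left_comm, map_mul]
      congr 1
      simp [T, map_sub]
    have hp0 : p.eval (π a) = 0 := by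
      refine Normal.trace_eval_eq_zero hx hf (π a) (fun v hv hva => ?_) hp
      have hdeg := Normal.deg_eq_one' v
      have hgm := mem_place_of_mem_coordRing k (R.red X) v hv hg
      have hZm := mem_place_of_mem_coordRing k (R.red X) v hv hZb
      rw [pval_mul hdeg hZm hgm]
      suffices pval v (R.red (R.evW X P * z i)) = 0 by rw [this, zero_mul]
      have hWm := mem_place_of_mem_coordRing k (R.red X) v hv hWb
      have hxm : R.red X - algebraMap k Fb (π a) ∈ v.toValuationSubring :=
        sub_mem hv (v.algebraMap_mem' _)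
      rw [pval_eq_zero_iff hdeg hZm]
      by_contra hcon
      push Not at hcon
      have hord : v.ord (R.red (R.evW X P * z i)) = 0 :=
        le_antisymm hcon.2 (ord_nonneg_of_mem v hZm)
      have h2 : pval v (R.red (R.evW X P * z i) ^ m) = 0 := by
        rw [hrel, pval_mul hdeg hxm hWm, pval_sub hdeg hv (v.algebraMap_mem' _), hva,
          pval_algebraMap hdeg, sub_self, zero_mul]
      rw [pval_eq_zero_iff hdeg (pow_mem hZm m), ord_pow' v hcon.1, hord, mul_zero] at h2
      rcases h2 with h2 | h2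
      · exact hcon.1 (eq_zero_of_pow_eq_zero h2)
      · exact lt_irrefl 0 h2
    obtain ⟨q, hq⟩ := dvd_iff_isRoot.mpr hp0
    refine ⟨q, ?_⟩
    have hK : Normal.genEval k (R.red X) (d.D.map π) • (R.red (R.evW X P * z i) * g) =
        Normal.genEval k (R.red X) (P.map π * (Polynomial.X - Polynomial.C (π a))) •
          (R.red (d.u i) * g) := by
      rw [IntermediateField.smul_def, IntermediateField.smul_def, Normal.coe_genEval,
        Normal.coe_genEval, smul_eq_mul, smul_eq_mul, map_mul R.red, map_mul (aeval (R.red X)),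
        ← R.red_evW, ← R.red_evW]
      have h3 : R.red (R.evW X d.D) * R.red (z i) = R.red T * R.red (d.u i) := by
        rw [← map_mul, ← map_mul, hDz]
      have hTb : R.red T = aeval (R.red X) (Polynomial.X - Polynomial.C (π a)) := by
        simp [T, map_sub]
      rw [hTb] at h3
      linear_combination (R.red (R.evW X P) * g) * h3
    have htr := congrArg
      (fun y : Fb => ((Algebra.trace k⟮R.red X⟯ Fb y : k⟮R.red X⟯) : Fb)) hK
    simp only [map_smul, smul_eq_mul, MulMemClass.coe_mul, Normal.coe_genEval, hp, hq] at htr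
    have hxa : aeval (R.red X) (Polynomial.X - Polynomial.C (π a)) ≠ 0 := fun h =>
      X_sub_C_ne_zero _ (transcendental_iff.mp hx _ h)
    apply mul_left_cancel₀ hxa
    simp only [map_mul] at htr
    linear_combination -htr
  choose q hq using hq
  have hD : aeval (R.red X) (d.D.map π) ≠ 0 := fun h => d.D_ne (transcendental_iff.mp hx _ h)
  have key : aeval (R.red X) (P.map π) * g = ∑ i, aeval (R.red X) (q i) * R.red (d.b i) := by
    apply mul_left_cancel₀ hD
    rw [mul_left_comm, d.expand_red g, Finset.mul_sum, Finset.mul_sum]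
    exact Finset.sum_congr rfl fun i _ => by rw [← mul_assoc, hq i, mul_assoc]
  rw [key]
  refine R.mem_redChart.mp (sum_mem fun i _ => mul_mem (R.aeval_red_mem_redChart X _) ?_)
  exact R.mem_redChart.mpr ⟨d.b i, d.b_mem i, rfl⟩

end ConstRed

end Fermat.Agent.RED
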