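import Fermat.Agent.RED.PlaceValue
import Fermat.Agent.RED.CoordDataFF

/-!
# Traces of functions integral over `K[x]`
-/

set_option autoImplicit false

noncomputable section

open Polynomial IntermediateField AlgebraicCurve

namespace Fermat.Agent.RED.Normal

variable {K E : Type*} [Field K] [Field E] [Algebra K E] {x : E}

/-- An element of `K(x)` integral over `K[x]` is a polynomial in `x`. -/
theorem exists_poly_of_mem_coordRing (hx : Transcendental K x) (r : K⟮x⟯)
    (hr : (r : E) ∈ coordRing K x) : ∃ p : K[X], (r : E) = aeval x p := by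
  have hinj : Function.Injective (coordEval K x) := transcendental_iff_injective.mp hx
  let φ : RatFunc K →+* E := RatFunc.liftRingHom (coordEval K x)
    (nonZeroDivisors_le_comap_nonZeroDivisors_of_injective _ hinj)
  obtain ⟨p, q, hpq⟩ := (mem_adjoin_simple_iff (F := K) (r : E)).mp r.2
  rcases eq_or_ne q 0 with rfl | hq
  · exact ⟨0, by simp [hpq]⟩
  let u : RatFunc K := algebraMap K[X] (RatFunc K) p / algebraMap K[X] (RatFunc K) q
  have hu : φ u = (r : E) := by
    rw [hpq]
    exact RatFunc.liftRingHom_apply_div _ _ p q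
  have hcomp : φ.comp (algebraMap K[X] (RatFunc K)) = coordEval K x := by
    refine RingHom.ext fun s => ?_
    rw [RingHom.comp_apply, show algebraMap K[X] (RatFunc K) s
      = algebraMap K[X] (RatFunc K) s / algebraMap K[X] (RatFunc K) 1 by simp]
    exact (RatFunc.liftRingHom_apply_div _ _ s 1).trans (by simp)
  have hint : (algebraMap K[X] (RatFunc K)).IsIntegralElem u := by
    refine RingHom.IsIntegralElem.of_map (g := φ) φ.injective ?_
    rw [hcomp, hu]
    exact hr
  obtain ⟨s, hs⟩ := IsIntegrallyClosed.isIntegral_iff.mp (show IsIntegral K[X] u from hint)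
  exact ⟨s, by rw [← hu, ← hs, ← RingHom.comp_apply, hcomp]; rfl⟩

/-- The evaluation `K[X] → K(x)`. -/
abbrev genEval (K : Type*) {E : Type*} [Field K] [Field E] [Algebra K E] (x : E) :
    K[X] →+* K⟮x⟯ :=
  (aeval (R := K) (AdjoinSimple.gen K x)).toRingHom

theorem coe_genEval (p : K[X]) : ((genEval K x p : K⟮x⟯) : E) = aeval x p := by
  show algebraMap K⟮x⟯ E (aeval (AdjoinSimple.gen K x) p) = _
  rw [← aeval_algebraMap_apply, AdjoinSimple.algebraMap_gen]

theorem genEval_C (c : K) : genEval K x (Polynomial.C c) = algebraMap K K⟮x⟯ c := by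
  simp [genEval]

theorem genEval_injective (hx : Transcendental K x) : Function.Injective (genEval K x) := by
  intro p q h
  apply transcendental_iff_injective.mp hx
  rw [← coe_genEval, ← coe_genEval, h]

section Finite

variable [FiniteDimensional K⟮x⟯ E]

theorem trace_mem_coordRing {f : E} (hf : f ∈ coordRing K x) :
    ((Algebra.trace K⟮x⟯ E f : K⟮x⟯) : E) ∈ coordRing K x := by
  letI : Algebra K[X] K⟮x⟯ := (aeval (R := K) (AdjoinSimple.gen K x)).toRingHom.toAlgebra
  letI : Algebra K[X] E := (coordEval K x).toAlgebra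
  haveI : IsScalarTower K[X] K⟮x⟯ E := IsScalarTower.of_algebraMap_eq fun p => by
    show aeval x p = algebraMap K⟮x⟯ E (aeval (AdjoinSimple.gen K x) p)
    rw [← aeval_algebraMap_apply, AdjoinSimple.algebraMap_gen]
  have h : IsIntegral K[X] (Algebra.trace K⟮x⟯ E f) :=
    Algebra.isIntegral_trace (R := K[X]) (show IsIntegral K[X] f from hf)
  exact h.map (IsScalarTower.toAlgHom K[X] K⟮x⟯ E)

theorem norm_mem_coordRing {f : E} (hf : f ∈ coordRing K x) :
    ((Algebra.norm K⟮x⟯ f : K⟮x⟯) : E) ∈ coordRing K x := by
  letI : Algebra K[X] K⟮x⟯ := (aeval (R := K) (AdjoinSimple.gen K x)).toRingHom.toAlgebra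
  letI : Algebra K[X] E := (coordEval K x).toAlgebra
  haveI : IsScalarTower K[X] K⟮x⟯ E := IsScalarTower.of_algebraMap_eq fun p => by
    show aeval x p = algebraMap K⟮x⟯ E (aeval (AdjoinSimple.gen K x) p)
    rw [← aeval_algebraMap_apply, AdjoinSimple.algebraMap_gen]
  have h : IsIntegral K[X] (Algebra.norm K⟮x⟯ f) :=
    Algebra.isIntegral_norm (R := K[X]) K⟮x⟯ (show IsIntegral K[X] f from hf)
  exact h.map (IsScalarTower.toAlgHom K[X] K⟮x⟯ E)

theorem exists_poly_trace (hx : Transcendental K x) {f : E} (hf : f ∈ coordRing K x) :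
    ∃ p : K[X], ((Algebra.trace K⟮x⟯ E f : K⟮x⟯) : E) = aeval x p :=
  exists_poly_of_mem_coordRing hx _ (trace_mem_coordRing hf)

theorem exists_poly_norm (hx : Transcendental K x) {f : E} (hf : f ∈ coordRing K x) :
    ∃ p : K[X], ((Algebra.norm K⟮x⟯ f : K⟮x⟯) : E) = aeval x p :=
  exists_poly_of_mem_coordRing hx _ (norm_mem_coordRing hf)

/-- The characteristic polynomial of an element integral over `K[x]` has polynomial
coefficients, with the trace as minus the next coefficient and norms as values. -/
theorem exists_charpoly [Infinite K] (hx : Transcendental K x) {f : E}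
    (hf : f ∈ coordRing K x) :
    ∃ χ : K[X][X], χ.Monic ∧ eval₂ (coordEval K x) f χ = 0 ∧
      ((Algebra.trace K⟮x⟯ E f : K⟮x⟯) : E) = aeval x (-χ.nextCoeff) ∧
      ∀ c : K, ((Algebra.norm K⟮x⟯ (algebraMap K E c - f) : K⟮x⟯) : E)
        = aeval x (χ.eval (Polynomial.C c)) := by
  classical
  let b := Module.finBasis K⟮x⟯ E
  set n := Module.finrank K⟮x⟯ E
  set M := Algebra.leftMulMatrix b f
  set χK := M.charpoly
  have hnorm : ∀ c : K, χK.eval (algebraMap K K⟮x⟯ c)
      = Algebra.norm K⟮x⟯ (algebraMap K E c - f) := by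
    intro c
    rw [Matrix.eval_charpoly, Algebra.norm_eq_matrix_det b, map_sub,
      IsScalarTower.algebraMap_apply K K⟮x⟯ E c, AlgHom.commutes,
      Matrix.algebraMap_eq_diagonal]
    simp [M, Matrix.scalar_apply, Pi.algebraMap_def]
  obtain ⟨S, hS⟩ := Infinite.exists_subset_card_eq K (n + 1)
  choose q hq using fun c : K =>
    exists_poly_norm hx (f := algebraMap K E c - f) (sub_mem (coordRing K x |>.algebraMap_mem c) hf)
  have hnode : Set.InjOn (fun c : K => algebraMap K K⟮x⟯ c) S :=
    (algebraMap K K⟮x⟯).injective.injOn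
  have hdeg : χK.degree < (S.card : WithBot ℕ) := by
    rw [M.charpoly_degree_eq_dim, Fintype.card_fin, hS]
    exact_mod_cast Nat.lt_succ_self n
  have hχK := Lagrange.eq_interpolate hnode hdeg
  let χ : K[X][X] := ∑ c ∈ S, Polynomial.C (q c) *
    (Lagrange.basis S id c).map (Polynomial.C : K →+* K[X])
  have hmap : χ.map (genEval K x) = χK := by
    rw [hχK, Lagrange.interpolate_apply]
    simp only [χ, Polynomial.map_sum, Polynomial.map_mul, Polynomial.map_C, Polynomial.map_map]
    refine Finset.sum_congr rfl fun c hc => ?_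
    congr 1
    · congr 1
      rw [hnorm]
      exact Subtype.ext ((coe_genEval _).trans (hq c).symm)
    · rw [show (genEval K x).comp (Polynomial.C : K →+* K[X]) = algebraMap K K⟮x⟯ from
        RingHom.ext genEval_C]
      simp only [Lagrange.basis, Polynomial.map_prod, Lagrange.basisDivisor, Polynomial.map_mul,
        Polynomial.map_sub, Polynomial.map_C, Polynomial.map_X, id_eq, map_inv₀, map_sub]
  have hinj := genEval_injective (K := K) hx
  have hmon : χ.Monic := by
    apply Polynomial.monic_of_injective hinj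
    rw [hmap]; exact M.charpoly_monic
  have hcomp : (algebraMap K⟮x⟯ E).comp (genEval K x) = coordEval K x :=
    RingHom.ext fun p => coe_genEval p
  refine ⟨χ, hmon, ?_, ?_, fun c => ?_⟩
  · have h : aeval f χK = 0 := by
      apply Algebra.leftMulMatrix_injective b
      rw [← Polynomial.aeval_algHom_apply, map_zero]
      exact Matrix.aeval_self_charpoly M
    rw [← hmap, aeval_def, eval₂_map, hcomp] at h
    exact h
  · rw [Algebra.trace_eq_matrix_trace b, Matrix.trace_eq_neg_charpoly_nextCoeff, ← coe_genEval]
    congr 1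
    rw [map_neg, ← Polynomial.nextCoeff_map hinj, hmap]
  · rw [← hnorm, ← hmap, ← genEval_C c, Polynomial.eval_map, Polynomial.eval₂_at_apply,
      coe_genEval]

variable [IsAlgClosed K] [FF.IsFunctionField K E]

omit [FiniteDimensional K⟮x⟯ E] in
theorem deg_eq_one' (v : Place K E) : v.deg = 1 := v.deg_eq_one_of_isAlgClosed_of_finite

omit [FiniteDimensional K⟮x⟯ E] in
/-- A function regular over every `Good` point becomes integral after multiplying by a polynomial
without `Good` roots. -/
theorem exists_clearing (hx : Transcendental K x) (f : E) (Good : K → Prop)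
    (hreg : ∀ v : Place K E, x ∈ v.toValuationSubring → Good (pval v x) →
      f ∈ v.toValuationSubring) :
    ∃ s : K[X], s ≠ 0 ∧ (∀ b, s.IsRoot b → ¬ Good b) ∧ aeval x s * f ∈ coordRing K x := by
  classical
  rcases eq_or_ne f 0 with rfl | hf0
  · exact ⟨1, one_ne_zero, fun b hb => absurd hb (by simp), by simp⟩
  let bad : Finset (Place K E) := (FF.finite_ord_ne_zero (K := K) f).toFinset.filter
    fun v => x ∈ v.toValuationSubring ∧ v.ord f < 0
  refine ⟨∏ v ∈ bad, (X - C (pval v x)) ^ (-v.ord f).toNat,
    Finset.prod_ne_zero_iff.mpr fun v _ => pow_ne_zero _ (X_sub_C_ne_zero _), ?_, ?_⟩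
  · intro b hb hGood
    rw [IsRoot.def, eval_prod, Finset.prod_eq_zero_iff] at hb
    obtain ⟨v, hv, hvb⟩ := hb
    rw [eval_pow, eval_sub, eval_X, eval_C] at hvb
    have hbv : b = pval v x := sub_eq_zero.mp (eq_zero_of_pow_eq_zero hvb)
    have hv' := (Finset.mem_filter.mp hv).2
    have := ord_nonneg_of_mem v (hreg v hv'.1 (hbv ▸ hGood))
    omega
  · refine (coordData_of_functionField hx rfl).mem_coordRing_of_forall _ fun w hw => ?_
    have hfac : ∀ v : Place K E, aeval x ((X - C (pval v x)) ^ (-v.ord f).toNat)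
        = (x - algebraMap K E (pval v x)) ^ (-v.ord f).toNat := fun v => by simp
    rw [map_prod]
    by_cases hwf : 0 ≤ w.ord f
    · refine mul_mem (prod_mem fun v _ => ?_) (mem_of_ord_nonneg w hwf)
      rw [hfac]
      exact pow_mem (sub_mem hw (w.algebraMap_mem' _)) _
    · have hwbad : w ∈ bad := Finset.mem_filter.mpr
        ⟨(FF.finite_ord_ne_zero (K := K) f).mem_toFinset.mpr (by
          show w.ord f ≠ 0
          omega), hw, by omega⟩
      rw [← Finset.mul_prod_erase bad _ hwbad, mul_right_comm]
      refine mul_mem ?_ (prod_mem fun v _ => ?_)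
      · have hne : x - algebraMap K E (pval w x) ≠ 0 :=
          fun h => hx (by rw [sub_eq_zero.mp h]; exact isAlgebraic_algebraMap _)
        have hpos := (pval_sub_algebraMap (deg_eq_one' w) hw).resolve_left hne
        refine mem_of_ord_nonneg w ?_
        rw [hfac, w.ord_mul (pow_ne_zero _ hne) hf0, ord_pow' w hne]
        have h1 : ((-w.ord f).toNat : ℤ) = -w.ord f := Int.toNat_of_nonneg (by omega)
        nlinarith
      · rw [hfac]
        exact pow_mem (sub_mem hw (w.algebraMap_mem' _)) _

/-- If every value of `f` above `a` is `0` or `1`, then its trace at `a` is a natural number,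
nonzero iff some value is `1`. -/
theorem exists_trace_eval (hx : Transcendental K x) {f : E} (hf : f ∈ coordRing K x) (a : K)
    (hval : ∀ v : Place K E, x ∈ v.toValuationSubring → pval v x = a →
      pval v f = 0 ∨ pval v f = 1) :
    ∃ (p : K[X]) (m : ℕ), ((Algebra.trace K⟮x⟯ E f : K⟮x⟯) : E) = aeval x p ∧
      p.eval a = (m : K) ∧
      ((∃ v : Place K E, x ∈ v.toValuationSubring ∧ pval v x = a ∧ pval v f = 1) ↔ m ≠ 0) := by
  classical
  obtain ⟨χ, hmon, hroot, htr, hnorm⟩ := exists_charpoly hx hf
  set χ0 : K[X] := χ.map (evalRingHom a) with hχ0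
  have hmon0 : χ0.Monic := hmon.map _
  have heval : ∀ c, χ0.eval c = (χ.eval (C c)).eval a := fun c => by
    have h := Polynomial.eval₂_at_apply (p := χ) (evalRingHom a) (C c)
    simp only [coe_evalRingHom, eval_C] at h
    rw [hχ0, eval_map, h]
  have hroots : ∀ c ∈ χ0.roots,
      ∃ v : Place K E, x ∈ v.toValuationSubring ∧ pval v x = a ∧ pval v f = c := by
    intro c hc
    by_contra hcc
    push Not at hcc
    have hcz : (χ.eval (C c)).eval a = 0 := by
      rw [← heval]; exact (mem_roots hmon0.ne_zero).mp hc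
    have hreg : ∀ v : Place K E, x ∈ v.toValuationSubring → pval v x = a →
        (algebraMap K E c - f)⁻¹ ∈ v.toValuationSubring ∧ algebraMap K E c - f ≠ 0 := by
      intro v hv hva
      have hfv : f ∈ v.toValuationSubring := mem_place_of_mem_coordRing K x v hv hf
      have hmem : algebraMap K E c - f ∈ v.toValuationSubring :=
        sub_mem (v.algebraMap_mem' c) hfv
      have hne : pval v (algebraMap K E c - f) ≠ 0 := by
        rw [pval_sub (deg_eq_one' v) (v.algebraMap_mem' c) hfv, pval_algebraMap (deg_eq_one' v)]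
        exact sub_ne_zero.mpr fun h => hcc v hv hva h.symm
      obtain ⟨hne0, hord⟩ := (pval_ne_zero_iff (deg_eq_one' v) hmem).mp hne
      exact ⟨mem_of_ord_nonneg v (by rw [v.ord_inv, hord]; simp), hne0⟩
    by_cases hcf : algebraMap K E c - f = 0
    · obtain ⟨v, hv, hva⟩ : ∃ v : Place K E, x ∈ v.toValuationSubring ∧ pval v x = a := by
        obtain ⟨D, hD, hdeg⟩ :=
          (coordData_of_functionField (K := K) hx (rfl : Module.finrank K⟮x⟯ E = _)).exists_zeros a
        have hn : 0 < Module.finrank K⟮x⟯ E := Module.finrank_pos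
        obtain ⟨v, hv⟩ : ∃ v, D v ≠ 0 := by
          by_contra hall
          push Not at hall
          have : D = 0 := Finsupp.ext hall
          rw [this, map_zero] at hdeg
          omega
        have hpos : 0 < v.ord (x - algebraMap K E a) := by
          have := hD v
          omega
        have hmem := mem_of_ord_nonneg v hpos.le
        have hxv : x ∈ v.toValuationSubring := by
          simpa using add_mem hmem (v.algebraMap_mem' a)
        refine ⟨v, hxv, ?_⟩
        have h0 := (pval_eq_zero_iff (deg_eq_one' v) hmem).mpr (Or.inr hpos)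
        rwa [pval_sub (deg_eq_one' v) hxv (v.algebraMap_mem' a),
          pval_algebraMap (deg_eq_one' v), sub_eq_zero] at h0
      exact (hreg v hv hva).2 hcf
    obtain ⟨s, hs0, hsroot, hsint⟩ := exists_clearing hx (algebraMap K E c - f)⁻¹ (fun b => b = a)
      (fun v hv hva => (hreg v hv hva).1)
    have hsa : s.eval a ≠ 0 := fun h => hsroot a h rfl
    obtain ⟨pg, hpg⟩ := exists_poly_norm hx hsint
    have hmul : (Algebra.norm K⟮x⟯ (aeval x s * (algebraMap K E c - f)⁻¹)) *
        Algebra.norm K⟮x⟯ (algebraMap K E c - f) =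
          genEval K x s ^ Module.finrank K⟮x⟯ E := by
      rw [← map_mul, inv_mul_cancel_right₀ hcf, ← coe_genEval]
      exact Algebra.norm_algebraMap _
    have h2 := congrArg (fun r : K⟮x⟯ => (r : E)) hmul
    simp only [MulMemClass.coe_mul, SubmonoidClass.coe_pow, coe_genEval, hpg, hnorm c] at h2
    rw [← map_mul, ← map_pow] at h2
    have h3 := congrArg (Polynomial.eval a) (transcendental_iff_injective.mp hx h2)
    rw [eval_mul, eval_pow, hcz, mul_zero] at h3
    exact pow_ne_zero _ hsa h3.symm
  refine ⟨-χ.nextCoeff, χ0.roots.count 1, htr, ?_, ?_⟩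
  · have hsplit : χ0.Splits := IsAlgClosed.splits χ0
    have hsum : χ0.roots.sum = (χ0.roots.count 1 : K) := by
      have : ∀ R : Multiset K, (∀ c ∈ R, c = 0 ∨ c = 1) → R.sum = (R.count 1 : K) := by
        intro R hR
        induction R using Multiset.induction with
        | empty => simp
        | cons c R ih =>
          have ih' := ih fun d hd => hR d (Multiset.mem_cons_of_mem hd)
          rcases hR c (Multiset.mem_cons_self c R) with rfl | rfl
          · simp [ih']
          · simp [ih', add_comm]
      refine this _ fun c hc => ?_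
      obtain ⟨v, hv, hva, rfl⟩ := hroots c hc
      exact hval v hv hva
    have hn := hsplit.nextCoeff_eq_neg_sum_roots_of_monic hmon0
    have hn' : χ0.nextCoeff = χ.nextCoeff.eval a := by
      rw [hχ0, nextCoeff, nextCoeff, hmon.natDegree_map]
      split_ifs with h
      · simp
      · simp
    rw [eval_neg, ← hn', hn, neg_neg, hsum]
  · refine ⟨?_, fun hcount => hroots 1 (Multiset.count_ne_zero.mp hcount)⟩
    rintro ⟨v, hv, hva, hfv⟩ hcount
    apply Multiset.count_eq_zero.mp hcount
    rw [mem_roots hmon0.ne_zero, IsRoot.def]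
    have hfmem : f ∈ v.toValuationSubring := mem_place_of_mem_coordRing K x v hv hf
    let e : K[X] →+* v.toValuationSubring :=
      eval₂RingHom (algebraMap K v.toValuationSubring) ⟨x, hv⟩
    have hcompe : v.toValuationSubring.subtype.comp e = coordEval K x :=
      Polynomial.ringHom_ext (fun b => by simp [e]) (by simp [e])
    have hz : eval₂ e (⟨f, hfmem⟩ : v.toValuationSubring) χ = 0 := by
      apply Subtype.val_injective
      have := Polynomial.hom_eval₂ χ e v.toValuationSubring.subtype ⟨f, hfmem⟩
      rw [hcompe] at this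
      exact this.trans hroot
    have hev : (placeVal v (deg_eq_one' v)).comp e = evalRingHom a := by
      refine Polynomial.ringHom_ext (fun b => ?_) ?_
      · simp [e, placeVal_algebraMap]
      · have : pval v x = placeVal v (deg_eq_one' v) ⟨x, hv⟩ := pval_eq (deg_eq_one' v) hv
        simp [e, ← this, hva]
    have h1 := congrArg (placeVal v (deg_eq_one' v)) hz
    rw [Polynomial.hom_eval₂, hev, map_zero, ← pval_eq (deg_eq_one' v) hfmem, hfv] at h1
    rw [hχ0, eval_map]
    exact h1

/-- A function vanishing at every place above `a` has trace vanishing at `a`. -/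
theorem trace_eval_eq_zero (hx : Transcendental K x) {f : E} (hf : f ∈ coordRing K x) (a : K)
    (hval : ∀ v : Place K E, x ∈ v.toValuationSubring → pval v x = a → pval v f = 0)
    {p : K[X]} (hp : ((Algebra.trace K⟮x⟯ E f : K⟮x⟯) : E) = aeval x p) :
    p.eval a = 0 := by
  obtain ⟨q, m, hq, hqa, hm⟩ :=
    exists_trace_eval hx hf a fun v hv hva => Or.inl (hval v hv hva)
  have hm0 : m = 0 := by
    by_contra h
    obtain ⟨v, hv, hva, hfv⟩ := hm.mpr h
    rw [hval v hv hva] at hfv
    exact zero_ne_one hfv
  have hpq : p = q := transcendental_iff_injective.mp hx (hp.symm.trans hq)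
  rw [hpq, hqa, hm0, Nat.cast_zero]

end Finite

end Fermat.Agent.RED.Normal
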