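import Fermat.Agent.RED.ConstRed

/-!
# Constant reductions commute with traces
-/

set_option autoImplicit false

noncomputable section

open Polynomial IntermediateField

namespace Fermat.Agent.RED

namespace ConstRed

variable {L k : Type*} [Field L] [Field k] {A : ValuationSubring L} {π : A →+* k}
variable {F Fb : Type*} [Field F] [Field Fb] [Algebra L F] [Algebra k Fb]
variable (R : ConstRed A π F Fb) {X : R.W}

/-- A polynomial value in `W` has integral coefficients. -/
theorem exists_map_eq_of_aeval_mem (hx : Transcendental k (R.red X)) {p : L[X]}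
    (hp : aeval (X : F) p ∈ R.W) : ∃ P : A[X], P.map A.subtype = p := by
  rcases eq_or_ne p 0 with rfl | hp0
  · exact ⟨0, Polynomial.map_zero _⟩
  obtain ⟨c, P, hc, hpP, i, hP⟩ := exists_primitive_polynomials π (fun _ : Unit => p) ⟨(), hp0⟩
  have hpP' : p = Polynomial.C c * (P i).map A.subtype := hpP i
  have hu : R.red (R.evW X (P i)) ≠ 0 := R.red_evW_ne_zero hx hP
  have hcA : c ∈ A := by
    rw [← R.algebraMap_mem_iff]
    have h : aeval (X : F) p = algebraMap L F c * (R.evW X (P i) : F) := by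
      rw [hpP', map_mul, aeval_C, R.coe_evW]
    have h2 : algebraMap L F c = aeval (X : F) p * (R.evW X (P i) : F)⁻¹ := by
      rw [h, mul_assoc, mul_inv_cancel₀ (R.ne_zero_of_red_ne_zero hu), mul_one]
    rw [h2]
    exact mul_mem hp (R.inv_mem_of_red_ne_zero hu)
  exact ⟨Polynomial.C ⟨c, hcA⟩ * P i, by rw [Polynomial.map_mul, Polynomial.map_C, hpP']; rfl⟩

variable (X) in
/-- The Gauss valuation subring of `L(X)`. -/
def baseRing : ValuationSubring L⟮(X : F)⟯ := R.W.comap (algebraMap L⟮(X : F)⟯ F)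

theorem mem_baseRing {r : L⟮(X : F)⟯} : r ∈ R.baseRing X ↔ (r : F) ∈ R.W := Iff.rfl

variable (X) in
/-- The inclusion of the base ring in `W`. -/
def baseIncl : R.baseRing X →+* R.W where
  toFun r := ⟨((r : L⟮(X : F)⟯) : F), r.2⟩
  map_one' := rfl
  map_mul' _ _ := rfl
  map_zero' := rfl
  map_add' _ _ := rfl

@[simp] theorem coe_baseIncl (r : R.baseRing X) :
    (R.baseIncl X r : F) = ((r : L⟮(X : F)⟯) : F) := rfl

theorem red_mem_adjoin (hx : Transcendental k (R.red X)) (r : R.baseRing X) :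
    R.red (R.baseIncl X r) ∈ k⟮R.red X⟯ := by
  set w := R.baseIncl X r with hw
  obtain ⟨p, q, hpq⟩ :=
    (mem_adjoin_simple_iff (F := L) ((r : L⟮(X : F)⟯) : F)).mp (r : L⟮(X : F)⟯).2
  rcases eq_or_ne p 0 with rfl | hp
  · have : w = 0 := Subtype.ext (by simp [hw, hpq])
    rw [this, map_zero]; exact zero_mem _
  rcases eq_or_ne q 0 with rfl | hq
  · have : w = 0 := Subtype.ext (by simp [hw, hpq])
    rw [this, map_zero]; exact zero_mem _
  obtain ⟨c, P, hc, hpP, i, hP⟩ := exists_primitive_polynomials π (fun _ : Unit => p) ⟨(), hp⟩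
  obtain ⟨d, Q, hd, hqQ, j, hQ⟩ := exists_primitive_polynomials π (fun _ : Unit => q) ⟨(), hq⟩
  have hpP' : p = Polynomial.C c * (P i).map A.subtype := hpP i
  have hqQ' : q = Polynomial.C d * (Q j).map A.subtype := hqQ j
  have huP : R.red (R.evW X (P i)) ≠ 0 := R.red_evW_ne_zero hx hP
  have huQ : R.red (R.evW X (Q j)) ≠ 0 := R.red_evW_ne_zero hx hQ
  have heq : (w : F) * (R.evW X (Q j) : F)
      = algebraMap L F (c / d) * (R.evW X (P i) : F) := by
    have hd' : algebraMap L F d ≠ 0 := (_root_.map_ne_zero _).mpr hd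
    have hQ' : (R.evW X (Q j) : F) ≠ 0 := R.ne_zero_of_red_ne_zero huQ
    rw [hw, coe_baseIncl, hpq, hpP', hqQ', map_mul, map_mul, aeval_C, aeval_C, ← R.coe_evW,
      ← R.coe_evW, map_div₀]
    field_simp
  have hcd : c / d ∈ A := by
    rw [← R.algebraMap_mem_iff]
    have h : algebraMap L F (c / d)
        = ((w : F) * (R.evW X (Q j) : F)) * (R.evW X (P i) : F)⁻¹ := by
      rw [heq, mul_assoc, mul_inv_cancel₀ (R.ne_zero_of_red_ne_zero huP), mul_one]
    rw [h]
    exact mul_mem (mul_mem w.2 (R.evW X (Q j)).2) (R.inv_mem_of_red_ne_zero huP)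
  have h2 : w * R.evW X (Q j) = R.const ⟨c / d, hcd⟩ * R.evW X (P i) := Subtype.ext heq
  have h3 := congrArg R.red h2
  rw [map_mul, map_mul, R.red_const] at h3
  rw [(eq_div_iff huQ).mpr h3]
  refine div_mem (mul_mem (k⟮R.red X⟯.algebraMap_mem _) ?_) ?_
  all_goals
    rw [R.red_evW]
    exact algebra_adjoin_le_adjoin k _
      ((Algebra.adjoin_singleton_eq_range_aeval k (R.red X)).ge ⟨_, rfl⟩)

/-- The reduction of the Gauss ring of `L(X)` into `k(x)`. -/
def baseRed (hx : Transcendental k (R.red X)) : R.baseRing X →+* k⟮R.red X⟯ :=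
  (R.red.comp (R.baseIncl X)).codRestrict _ (R.red_mem_adjoin hx)

theorem coe_baseRed (hx : Transcendental k (R.red X)) (r : R.baseRing X) :
    ((R.baseRed hx r : k⟮R.red X⟯) : Fb) = R.red (R.baseIncl X r) := rfl

section Basis

variable (hx : Transcendental k (R.red X)) {ι : Type*} [Fintype ι]
  (b : Module.Basis ι L⟮(X : F)⟯ F) (bb : Module.Basis ι k⟮R.red X⟯ Fb) (e : ι → R.W)
  (hb : ∀ i, b i = (e i : F)) (hbb : ∀ i, bb i = R.red (e i))

include hx hb hbb

/-- Coordinates of integral elements in a lifted basis are integral. -/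
theorem repr_mem (w : R.W) (i : ι) : b.repr (w : F) i ∈ R.baseRing X := by
  classical
  by_contra hi
  set r : ι → L⟮(X : F)⟯ := fun i => b.repr (w : F) i with hr
  have hs : ∀ i, ∃ (c : L) (u : R.W), ((r i : L⟮(X : F)⟯) : F) = algebraMap L F c * (u : F) ∧
      (c ≠ 0 → R.red u ≠ 0) := by
    intro i
    rcases eq_or_ne ((r i : L⟮(X : F)⟯) : F) 0 with h0 | h0
    · exact ⟨0, 1, by simp [h0], fun h => absurd rfl h⟩
    · obtain ⟨c, u, -, hu, hru⟩ := R.exists_scale h0
      exact ⟨c, u, hru, fun _ => hu⟩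
  choose c u hru hu using hs
  have hnz : ∃ i, c i ≠ 0 := ⟨i, fun h => hi (by
    show ((r i : L⟮(X : F)⟯) : F) ∈ R.W
    rw [hru, h, map_zero, zero_mul]; exact zero_mem _)⟩
  obtain ⟨d, v, hd, hcv, i₀, hi₀⟩ := exists_primitive_scale A c hnz
  have hdA : d ∉ A := fun hdA => hi (by
    show ((r i : L⟮(X : F)⟯) : F) ∈ R.W
    rw [hru, hcv, map_mul]
    exact mul_mem (mul_mem (R.algebraMap_mem_iff.mpr hdA) (R.algebraMap_mem (v i))) (u i).2)
  have hdi : d⁻¹ ∈ A := (A.mem_or_inv_mem d).resolve_left hdA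
  have hπd : π ⟨d⁻¹, hdi⟩ = 0 := by
    haveI := RingHom.ker_isMaximal_of_surjective π R.surjective_π
    rw [← RingHom.mem_ker, IsLocalRing.eq_maximalIdeal this, IsLocalRing.mem_maximalIdeal,
      mem_nonunits_iff]
    intro hun
    obtain ⟨t, ht⟩ := hun.exists_right_inv
    have h2 : d⁻¹ * (t : L) = 1 := congrArg Subtype.val ht
    exact hdA (((inv_mul_eq_one₀ hd).mp h2).symm ▸ t.2)
  let s : ι → R.baseRing X := fun i => ⟨algebraMap L L⟮(X : F)⟯ d⁻¹ * r i, by
    show algebraMap L F d⁻¹ * ((r i : L⟮(X : F)⟯) : F) ∈ R.W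
    rw [hru, hcv, map_mul, ← mul_assoc, ← mul_assoc, ← map_mul, inv_mul_cancel₀ hd, map_one,
      one_mul]
    exact mul_mem (R.algebraMap_mem (v i)) (u i).2⟩
  have hsum : R.const ⟨d⁻¹, hdi⟩ * w = ∑ i, R.baseIncl X (s i) * e i := by
    apply Subtype.ext
    push_cast
    have h1 : algebraMap L F d⁻¹ * (w : F) = ∑ i, algebraMap L F d⁻¹ * (r i • b i) := by
      rw [← Finset.mul_sum, b.sum_repr]
    refine h1.trans (Finset.sum_congr rfl fun i _ => ?_)
    rw [Algebra.smul_def, hb, ← mul_assoc]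
    rfl
  have h2 := congrArg R.red hsum
  rw [map_mul, R.red_const, hπd, map_zero, zero_mul, map_sum] at h2
  have h3 := Fintype.linearIndependent_iff.mp bb.linearIndependent (fun i => R.baseRed hx (s i)) (by
    rw [h2]
    exact Finset.sum_congr rfl fun i _ => by rw [hbb, map_mul, Algebra.smul_def]; rfl) i₀
  apply hu i₀ (by rw [hcv, hi₀]; simpa using hd)
  have h4 := congrArg (fun z : k⟮R.red X⟯ => (z : Fb)) h3
  rw [coe_baseRed] at h4
  have h5 : R.baseIncl X (s i₀) = u i₀ := by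
    apply Subtype.ext
    show algebraMap L F d⁻¹ * ((r i₀ : L⟮(X : F)⟯) : F) = _
    rw [hru, hcv, hi₀, ← mul_assoc, ← map_mul]
    simp [inv_mul_cancel₀ hd]
  rw [h5] at h4
  exact h4

theorem repr_red (w : R.W) (i : ι) :
    bb.repr (R.red w) i = R.baseRed hx ⟨b.repr (w : F) i, R.repr_mem hx b bb e hb hbb w i⟩ := by
  have hw : w = ∑ i, R.baseIncl X ⟨b.repr (w : F) i, R.repr_mem hx b bb e hb hbb w i⟩ * e i := by
    apply Subtype.ext
    push_cast
    conv_lhs => rw [← b.sum_repr (w : F)]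
    exact Finset.sum_congr rfl fun i _ => by rw [Algebra.smul_def, hb]; rfl
  have h := congrArg R.red hw
  rw [map_sum] at h
  have h2 : R.red w = ∑ i,
      R.baseRed hx ⟨b.repr (w : F) i, R.repr_mem hx b bb e hb hbb w i⟩ • bb i :=
    h.trans (Finset.sum_congr rfl fun i _ => by rw [hbb, map_mul, Algebra.smul_def]; rfl)
  rw [h2, bb.repr_sum_self]

theorem trace_mem' (w : R.W) :
    ∃ h : Algebra.trace L⟮(X : F)⟯ F (w : F) ∈ R.baseRing X,
      R.baseRed hx ⟨_, h⟩ = Algebra.trace k⟮R.red X⟯ Fb (R.red w) := by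
  classical
  let M : Matrix ι ι (R.baseRing X) := fun i j =>
    ⟨b.repr ((w * e j : R.W) : F) i, R.repr_mem hx b bb e hb hbb _ i⟩
  have hM : M.map (R.baseRing X).subtype = Algebra.leftMulMatrix b (w : F) := by
    ext i j
    rw [Algebra.leftMulMatrix_eq_repr_mul, hb]
    rfl
  have hMb : M.map (R.baseRed hx) = Algebra.leftMulMatrix bb (R.red w) := by
    ext i j : 2
    rw [Algebra.leftMulMatrix_eq_repr_mul, hbb, ← map_mul, R.repr_red hx b bb e hb hbb]
    rfl
  have h1 : (R.baseRing X).subtype M.trace = Algebra.trace L⟮(X : F)⟯ F (w : F) := by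
    rw [Algebra.trace_eq_matrix_trace b, ← hM, AddMonoidHom.map_trace]
  refine ⟨h1 ▸ M.trace.2, ?_⟩
  rw [Algebra.trace_eq_matrix_trace bb, ← hMb, ← AddMonoidHom.map_trace]
  exact congrArg (R.baseRed hx) (Subtype.ext h1.symm)

end Basis

theorem Param.exists_bases (hX : R.Param X) :
    ∃ (n : ℕ) (b : Module.Basis (Fin n) L⟮(X : F)⟯ F) (bb : Module.Basis (Fin n) k⟮R.red X⟯ Fb)
      (e : Fin n → R.W), (∀ i, b i = (e i : F)) ∧ ∀ i, bb i = R.red (e i) := by
  haveI := hX.finite
  haveI := hX.finite_red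
  let bb := Module.finBasis k⟮R.red X⟯ Fb
  choose e he using fun i => R.red_surjective (bb i)
  have hind : LinearIndependent L⟮(X : F)⟯ fun i => (e i : F) :=
    R.linearIndependent_of_red hX.transcendental (by simp only [he]; exact bb.linearIndependent)
  haveI : Nonempty (Fin (Module.finrank k⟮R.red X⟯ Fb)) :=
    Fin.pos_iff_nonempty.mp Module.finrank_pos
  refine ⟨_, basisOfLinearIndependentOfCardEqFinrank hind
    (by rw [Fintype.card_fin, hX.finrank_eq]), bb, e, fun i => by simp, fun i => (he i).symm⟩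

/-- Traces of integral elements are integral and commute with reduction. -/
theorem Param.exists_trace (hX : R.Param X) (w : R.W) :
    ∃ h : ((Algebra.trace L⟮(X : F)⟯ F (w : F) : L⟮(X : F)⟯) : F) ∈ R.W,
      R.red ⟨_, h⟩ = ((Algebra.trace k⟮R.red X⟯ Fb (R.red w) : k⟮R.red X⟯) : Fb) := by
  obtain ⟨n, b, bb, e, hb, hbb⟩ := Param.exists_bases R hX
  obtain ⟨h1, h2⟩ := R.trace_mem' hX.transcendental b bb e hb hbb w
  exact ⟨h1, congrArg (fun z : k⟮R.red X⟯ => (z : Fb)) h2⟩

/-- If the trace of an integral element is a polynomial, it has integral coefficients and reduces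
to the trace of the reduction. -/
theorem Param.exists_trace_poly (hX : R.Param X) (w : R.W) {p : L[X]}
    (hp : ((Algebra.trace L⟮(X : F)⟯ F (w : F) : L⟮(X : F)⟯) : F) = aeval (X : F) p) :
    ∃ P : A[X], P.map A.subtype = p ∧
      ((Algebra.trace k⟮R.red X⟯ Fb (R.red w) : k⟮R.red X⟯) : Fb)
        = aeval (R.red X) (P.map π) := by
  obtain ⟨h, hred⟩ := Param.exists_trace R hX w
  obtain ⟨P, hP⟩ := R.exists_map_eq_of_aeval_mem hX.transcendental (hp ▸ h)
  refine ⟨P, hP, ?_⟩
  rw [← hred, ← R.red_evW]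
  exact congrArg R.red (Subtype.ext (by rw [R.coe_evW, hP]; exact hp))

end ConstRed

end Fermat.Agent.RED
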