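import Fermat.Agent.RED.Normal.Defs
import Fermat.Agent.RED.Normal.TraceRed
import Fermat.Agent.RED.Normal.CoordTrace
import Fermat.Agent.RED.ConstRedDatum

/-!
# A basis of the chart with reductions a basis of the reduced chart, and its trace dual
-/

set_option autoImplicit false

noncomputable section

open Polynomial IntermediateField AlgebraicCurve

namespace Fermat.Agent.RED

namespace ConstRed

variable {L k : Type*} [Field L] [Field k] {A : ValuationSubring L} {π : A →+* k}
variable {F Fb : Type*} [Field F] [Field Fb] [Algebra L F] [Algebra k Fb]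
variable (R : ConstRed A π F Fb) {X : R.W}

/-- The value of an integral polynomial in `k(x)`. -/
theorem coe_genEval_map (P : A[X]) :
    ((Normal.genEval k (R.red X) (P.map π) : k⟮R.red X⟯) : Fb) = R.red (R.evW X P) := by
  rw [Normal.coe_genEval, R.red_evW]

theorem red_mem_coordRing_of_mem_chartRing (hX : R.Param X) {w : R.W} (hw : w ∈ R.chartRing X) :
    R.red w ∈ coordRing k (R.red X) :=
  mem_coordRing_of_reduces (R.reduces_coe X) (R.mem_intRing hX hw w.2) (R.reduces_coe w)

theorem redChart_le_coordRing (hX : R.Param X) :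
    R.redChart X ≤ (coordRing k (R.red X)).toSubring := by
  rintro _ ⟨w, hw, rfl⟩
  exact R.red_mem_coordRing_of_mem_chartRing hX hw

/-- A family in the chart, with reductions a basis, and its trace dual scaled by `D`. -/
structure DualPair (X : R.W) (n : ℕ) where
  b : Fin n → R.W
  u : Fin n → R.W
  D : A[X]
  b_mem : ∀ i, b i ∈ R.chartRing X
  u_mem : ∀ i, u i ∈ R.chartRing X
  D_ne : D.map π ≠ 0
  independent : ∀ p : Fin n → k[X],
    ∑ i, aeval (R.red X) (p i) * R.red (b i) = 0 → ∀ i, p i = 0
  expand : ∀ w : F, aeval (X : F) (D.map A.subtype) * w =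
    ∑ i, ((Algebra.trace L⟮(X : F)⟯ F ((u i : F) * w) : L⟮(X : F)⟯) : F) * (b i : F)
  expand_red : ∀ g : Fb, aeval (R.red X) (D.map π) * g =
    ∑ i, ((Algebra.trace k⟮R.red X⟯ Fb (R.red (u i) * g) : k⟮R.red X⟯) : Fb) * R.red (b i)

section OfBasis

variable [CharZero L] [IsAlgClosed L] [IsAlgClosed k]

omit [CharZero L] [IsAlgClosed L] [IsAlgClosed k] in
theorem independent_of_linearIndependent (hx : Transcendental k (R.red X)) {n : ℕ}
    {g : Fin n → Fb} (hg : LinearIndependent k⟮R.red X⟯ g) (p : Fin n → k[X])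
    (hp : ∑ i, aeval (R.red X) (p i) * g i = 0) : ∀ i, p i = 0 := by
  intro i
  have h2 := Fintype.linearIndependent_iff.mp hg (fun i => Normal.genEval k (R.red X) (p i)) (by
    rw [← hp]
    exact Finset.sum_congr rfl fun i _ => by
      rw [IntermediateField.smul_def, Normal.coe_genEval, smul_eq_mul]) i
  exact Normal.genEval_injective hx (h2.trans (map_zero _).symm)

omit [CharZero L] [IsAlgClosed L] [IsAlgClosed k] in
/-- A family of chart elements with reductions a basis has a scaled trace dual in the chart. -/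
theorem exists_dualPair (hX : R.Param X) [Algebra.IsSeparable k⟮R.red X⟯ Fb] {n : ℕ}
    (b : Fin n → R.W) (hbm : ∀ i, b i ∈ R.chartRing X)
    (hb : LinearIndependent k⟮R.red X⟯ fun i => R.red (b i))
    (hn : n = Module.finrank k⟮R.red X⟯ Fb) :
    ∃ d : R.DualPair X n, d.b = b := by
  classical
  haveI := hX.finite
  haveI := hX.finite_red
  have hx := hX.transcendental
  have hxL := R.transcendental_of_red hx
  haveI : Nonempty (Fin n) := by
    rw [hn]; exact Fin.pos_iff_nonempty.mp Module.finrank_pos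
  let bF := basisOfLinearIndependentOfCardEqFinrank (R.linearIndependent_of_red hx hb)
    (by rw [Fintype.card_fin, hn, hX.finrank_eq])
  have hbF : ∀ i, bF i = (b i : F) := fun i => by simp [bF]
  let bb := basisOfLinearIndependentOfCardEqFinrank hb (by rw [Fintype.card_fin, hn])
  have hbb : ∀ i, bb i = R.red (b i) := fun i => by simp [bb]
  have hP : ∀ i j, ∃ P : A[X],
      ((Algebra.trace L⟮(X : F)⟯ F ((b i : F) * b j) : L⟮(X : F)⟯) : F)
          = aeval (X : F) (P.map A.subtype) ∧
      ((Algebra.trace k⟮R.red X⟯ Fb (R.red (b i) * R.red (b j)) : k⟮R.red X⟯) : Fb)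
        = aeval (R.red X) (P.map π) := by
    intro i j
    obtain ⟨p, hp⟩ := Normal.exists_poly_trace hxL
      (show (((b i * b j : R.W) : F)) ∈ coordRing L (X : F) from mul_mem (hbm i) (hbm j))
    obtain ⟨P, rfl, hred⟩ := Param.exists_trace_poly R hX (b i * b j) hp
    exact ⟨P, hp, by rwa [map_mul] at hred⟩
  choose P hP hPb using hP
  let T : Matrix (Fin n) (Fin n) A[X] := fun i j => P i j
  let ev : A[X] →+* L⟮(X : F)⟯ :=
    (Normal.genEval L (X : F)).comp (Polynomial.mapRingHom A.subtype)
  let evk : A[X] →+* k⟮R.red X⟯ :=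
    (Normal.genEval k (R.red X)).comp (Polynomial.mapRingHom π)
  have hev : ∀ Q : A[X], ((ev Q : L⟮(X : F)⟯) : F) = aeval (X : F) (Q.map A.subtype) := fun Q =>
    Normal.coe_genEval _
  have hevk : ∀ Q : A[X], ((evk Q : k⟮R.red X⟯) : Fb) = aeval (R.red X) (Q.map π) := fun Q =>
    Normal.coe_genEval _
  have hevT : ∀ i j, ev (T i j) = Algebra.trace L⟮(X : F)⟯ F ((b i : F) * b j) := fun i j =>
    Subtype.ext ((hev _).trans (hP i j).symm)
  have hevkT : ∀ i j,
      evk (T i j) = Algebra.trace k⟮R.red X⟯ Fb (R.red (b i) * R.red (b j)) := fun i j =>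
    Subtype.ext ((hevk _).trans (hPb i j).symm)
  have hDne : T.det.map π ≠ 0 := by
    intro h0
    apply det_traceForm_ne_zero bb
    have h1 : (Algebra.traceForm k⟮R.red X⟯ Fb).toMatrix bb = evk.mapMatrix T := by
      ext i j : 2
      rw [BilinForm.toMatrix_apply, RingHom.mapMatrix_apply, Matrix.map_apply, hevkT,
        Algebra.traceForm_apply, hbb, hbb]
    rw [h1, ← RingHom.map_det]
    show Normal.genEval k (R.red X) (T.det.map π) = 0
    rw [h0, map_zero]
  let u : Fin n → R.W := fun i => ∑ j, R.evW X (T.adjugate i j) * b j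
  have hum : ∀ i, u i ∈ R.chartRing X := fun i =>
    sum_mem fun j _ => mul_mem (R.evW_mem_chartRing X _) (hbm j)
  have hu : ∀ i, (u i : F) = ∑ j, ev (T.adjugate i j) • (b j : F) := fun i => by
    simp only [u]
    push_cast
    exact Finset.sum_congr rfl fun j _ => by
      rw [IntermediateField.smul_def, smul_eq_mul, hev, R.coe_evW]
  have huk : ∀ i, R.red (u i) = ∑ j, evk (T.adjugate i j) • R.red (b j) := fun i => by
    simp only [u, map_sum, map_mul]
    exact Finset.sum_congr rfl fun j _ => by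
      rw [IntermediateField.smul_def, smul_eq_mul, hevk, R.red_evW]
  have hdual : ∀ i l, Algebra.trace L⟮(X : F)⟯ F ((u i : F) * b l)
      = if i = l then ev T.det else 0 := by
    intro i l
    rw [hu, Finset.sum_mul, map_sum]
    simp only [smul_mul_assoc, map_smul, smul_eq_mul, ← hevT]
    have h1 := congrArg ev (congrFun (congrFun T.adjugate_mul i) l)
    rw [Matrix.mul_apply, map_sum] at h1
    simp only [map_mul] at h1
    rw [h1, Matrix.smul_apply, Matrix.one_apply, smul_eq_mul]
    split_ifs <;> simp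
  have hdualk : ∀ i l, Algebra.trace k⟮R.red X⟯ Fb (R.red (u i) * R.red (b l))
      = if i = l then evk T.det else 0 := by
    intro i l
    rw [huk, Finset.sum_mul, map_sum]
    simp only [smul_mul_assoc, map_smul, smul_eq_mul, ← hevkT]
    have h1 := congrArg evk (congrFun (congrFun T.adjugate_mul i) l)
    rw [Matrix.mul_apply, map_sum] at h1
    simp only [map_mul] at h1
    rw [h1, Matrix.smul_apply, Matrix.one_apply, smul_eq_mul]
    split_ifs <;> simp
  refine ⟨⟨b, u, T.det, hbm, hum, hDne, R.independent_of_linearIndependent hx hb,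
    fun w => ?_, fun g => ?_⟩, rfl⟩
  · have htr : ∀ i, Algebra.trace L⟮(X : F)⟯ F ((u i : F) * w) = ev T.det * bF.repr w i := by
      intro i
      conv_lhs => rw [← bF.sum_repr w, Finset.mul_sum, map_sum]
      simp only [mul_smul_comm, map_smul, smul_eq_mul, hbF, hdual, mul_ite, mul_zero,
        Finset.sum_ite_eq, Finset.mem_univ, if_true]
      exact mul_comm _ _
    conv_lhs => rw [← bF.sum_repr w, Finset.mul_sum]
    refine Finset.sum_congr rfl fun i _ => ?_
    rw [htr, MulMemClass.coe_mul, hev, IntermediateField.smul_def, smul_eq_mul, hbF, mul_assoc]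
  · have htr : ∀ i, Algebra.trace k⟮R.red X⟯ Fb (R.red (u i) * g) = evk T.det * bb.repr g i := by
      intro i
      conv_lhs => rw [← bb.sum_repr g, Finset.mul_sum, map_sum]
      simp only [mul_smul_comm, map_smul, smul_eq_mul, hbb, hdualk, mul_ite, mul_zero,
        Finset.sum_ite_eq, Finset.mem_univ, if_true]
      exact mul_comm _ _
    conv_lhs => rw [← bb.sum_repr g, Finset.mul_sum]
    refine Finset.sum_congr rfl fun i _ => ?_
    rw [htr, MulMemClass.coe_mul, hevk, IntermediateField.smul_def, smul_eq_mul, hbb, mul_assoc]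

/-- There is a chart family with reductions a basis of the special field. -/
theorem exists_chart_family (hX : R.Param X) :
    ∃ (n : ℕ) (b : Fin n → R.W), n = Module.finrank k⟮R.red X⟯ Fb ∧
      (∀ i, b i ∈ R.chartRing X) ∧ LinearIndependent k⟮R.red X⟯ fun i => R.red (b i) := by
  haveI := hX.finite
  have hxL := R.transcendental_of_red hX.transcendental
  haveI : FF.IsFunctionField L F := ⟨(X : F), hxL, hX.finite⟩
  haveI := hX.finite_red
  let bk := Module.finBasis k⟮R.red X⟯ Fb
  choose e he using fun i => R.red_surjective (bk i)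
  have hclear : ∀ i, ∃ P : A[X], P.map π ≠ 0 ∧ R.evW X P * e i ∈ R.chartRing X := by
    intro i
    obtain ⟨s, hs0, -, hs⟩ :=
      Normal.exists_clearing hxL (e i : F) (fun _ => False) (fun _ _ h => h.elim)
    obtain ⟨c, P, hc, hsP, j, hP⟩ :=
      exists_primitive_polynomials π (fun _ : Unit => s) ⟨(), hs0⟩
    refine ⟨P j, hP, ?_⟩
    rw [mem_chartRing, MulMemClass.coe_mul, R.coe_evW]
    have h1 : s = Polynomial.C c * (P j).map A.subtype := hsP j
    have h := mul_mem ((coordRing L (X : F)).algebraMap_mem c⁻¹) hs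
    rw [h1, map_mul, aeval_C] at h
    convert h using 1
    rw [← mul_assoc, ← mul_assoc, ← map_mul, inv_mul_cancel₀ hc, map_one, one_mul]
  choose P hP hmem using hclear
  refine ⟨_, fun i => R.evW X (P i) * e i, rfl, hmem, ?_⟩
  have hne : ∀ i, R.red (R.evW X (P i)) ≠ 0 := fun i =>
    R.red_evW_ne_zero hX.transcendental (hP i)
  let c : Fin (Module.finrank k⟮R.red X⟯ Fb) → (k⟮R.red X⟯)ˣ := fun i =>
    Units.mk0 (Normal.genEval k (R.red X) ((P i).map π)) fun h => hne i (by
      rw [← R.coe_genEval_map (P i), h]; rfl)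
  have := bk.linearIndependent.units_smul c
  convert this using 2 with i
  show R.red (R.evW X (P i) * e i) = (c i : k⟮R.red X⟯) • bk i
  rw [map_mul, he, IntermediateField.smul_def, smul_eq_mul]
  exact congrArg (· * bk i) (R.coe_genEval_map (P i)).symm

/-- A dual pair whose family reduces to a basis of the reduced chart over `k[x]`. -/
theorem exists_full_dualPair (hX : R.Param X) [Algebra.IsSeparable k⟮R.red X⟯ Fb] :
    ∃ (n : ℕ) (d : R.DualPair X n), ∀ g ∈ R.redChart X,
      ∃ q : Fin n → k[X], g = ∑ i, aeval (R.red X) (q i) * R.red (d.b i) := by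
  classical
  haveI := hX.finite
  haveI := hX.finite_red
  have hx := hX.transcendental
  have hxL := R.transcendental_of_red hx
  obtain ⟨n, b₀, hn, hb₀m, hb₀⟩ := R.exists_chart_family hX
  obtain ⟨d₀, hd₀⟩ := R.exists_dualPair hX b₀ hb₀m hb₀ hn
  have hD : aeval (R.red X) (d₀.D.map π) ≠ 0 := fun h =>
    d₀.D_ne (transcendental_iff.mp hx _ h)
  let M : Submodule k[X] (Fin n → k[X]) :=
    { carrier := {p | ∃ g ∈ R.redChart X,
        aeval (R.red X) (d₀.D.map π) * g = ∑ i, aeval (R.red X) (p i) * R.red (d₀.b i)}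
      zero_mem' := ⟨0, zero_mem _, by simp⟩
      add_mem' := by
        rintro p q ⟨g, hg, hpg⟩ ⟨g', hg', hqg⟩
        exact ⟨g + g', add_mem hg hg', by
          simp [mul_add, hpg, hqg, add_mul, Finset.sum_add_distrib]⟩
      smul_mem' := by
        rintro c p ⟨g, hg, hpg⟩
        refine ⟨aeval (R.red X) c * g, mul_mem (R.aeval_red_mem_redChart X c) hg, ?_⟩
        rw [mul_left_comm, hpg, Finset.mul_sum]
        simp [mul_assoc] }
  obtain ⟨m, bs⟩ := Submodule.basisOfPid (Pi.basisFun k[X] (Fin n)) M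
  have hmn : m ≤ n := by
    have := (bs.linearIndependent.map' M.subtype (Submodule.ker_subtype M)).fintype_card_le_finrank
    simpa using this
  choose g hgm hg using fun l => (bs l).2
  have hspan : ∀ z ∈ R.redChart X,
      ∃ c : Fin m → k[X], z = ∑ l, aeval (R.red X) (c l) * g l := by
    intro z hz
    have hp : ∀ i, ∃ p : k[X],
        ((Algebra.trace k⟮R.red X⟯ Fb (R.red (d₀.u i) * z) : k⟮R.red X⟯) : Fb)
          = aeval (R.red X) p := by
      intro i
      obtain ⟨w, hw, rfl⟩ := hz
      obtain ⟨q, hq⟩ := Normal.exists_poly_trace hxL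
        (show ((d₀.u i * w : R.W) : F) ∈ coordRing L (X : F) from mul_mem (d₀.u_mem i) hw)
      obtain ⟨Q, -, hQ⟩ := Param.exists_trace_poly R hX _ hq
      exact ⟨Q.map π, by rwa [map_mul] at hQ⟩
    choose p hp using hp
    have hzM : p ∈ M := ⟨z, hz, by rw [d₀.expand_red z]; simp only [hp]⟩
    refine ⟨fun l => bs.repr ⟨p, hzM⟩ l, mul_left_cancel₀ hD ?_⟩
    have hsum : ∀ i, p i = ∑ l, bs.repr ⟨p, hzM⟩ l * ((bs l : M) : Fin n → k[X]) i := by
      intro i
      have h := congrFun (congrArg Subtype.val (bs.sum_repr ⟨p, hzM⟩)) i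
      simp only [Submodule.coe_sum, Submodule.coe_smul, Finset.sum_apply, Pi.smul_apply,
        smul_eq_mul] at h
      exact h.symm
    rw [d₀.expand_red z, Finset.mul_sum]
    simp only [hp, hsum, map_sum, map_mul, Finset.sum_mul]
    rw [Finset.sum_comm]
    refine Finset.sum_congr rfl fun l _ => ?_
    rw [mul_left_comm, hg l, Finset.mul_sum]
    exact Finset.sum_congr rfl fun i _ => mul_assoc _ _ _
  have htop : ⊤ ≤ Submodule.span k⟮R.red X⟯ (Set.range g) := by
    have hb0top : Submodule.span k⟮R.red X⟯ (Set.range fun i => R.red (b₀ i)) = ⊤ := by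
      haveI : Nonempty (Fin n) := by rw [hn]; exact Fin.pos_iff_nonempty.mp Module.finrank_pos
      exact hb₀.span_eq_top_of_card_eq_finrank (by rw [Fintype.card_fin, hn])
    rw [← hb0top, Submodule.span_le]
    rintro _ ⟨i, rfl⟩
    obtain ⟨c, hc⟩ := hspan (R.red (b₀ i)) ⟨b₀ i, hb₀m i, rfl⟩
    show R.red (b₀ i) ∈ Submodule.span k⟮R.red X⟯ (Set.range g)
    rw [hc]
    refine Submodule.sum_mem _ fun l _ => ?_
    rw [← Normal.coe_genEval (K := k) (c l)]
    exact Submodule.smul_mem _ (Normal.genEval k (R.red X) (c l))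
      (Submodule.subset_span ⟨l, rfl⟩)
  have hnm : n ≤ m := by
    have h1 := finrank_range_le_card (R := k⟮R.red X⟯) g
    rw [Set.finrank, top_le_iff.mp htop, finrank_top, Fintype.card_fin, ← hn] at h1
    exact h1
  have hgind : LinearIndependent k⟮R.red X⟯ g :=
    linearIndependent_of_top_le_span_of_card_eq_finrank htop
      (by rw [Fintype.card_fin, le_antisymm hmn hnm, hn])
  choose b hbm hb using fun l => hgm l
  obtain ⟨d, hd⟩ := R.exists_dualPair hX b hbm (by simp only [hb]; exact hgind)
    (by rw [le_antisymm hmn hnm, hn])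
  refine ⟨m, d, fun z hz => ?_⟩
  obtain ⟨c, hc⟩ := hspan z hz
  exact ⟨c, by rw [hd]; simpa only [hb] using hc⟩

end OfBasis

namespace DualPair

variable {R} {n : ℕ} (d : R.DualPair X n)

/-- If `(X - a')` times a chart element lies in the span, the coefficients vanish at `a'`. -/
theorem eval_eq_zero_of_mul_eq (hX : R.Param X)
    (hfull : ∀ g ∈ R.redChart X,
      ∃ q : Fin n → k[X], g = ∑ i, aeval (R.red X) (q i) * R.red (d.b i))
    {w : R.W} (hw : w ∈ R.chartRing X) (a' : A) (P : Fin n → A[X])
    (h : R.evW X (Polynomial.X - Polynomial.C a') * w = ∑ i, R.evW X (P i) * d.b i) :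
    ∀ i, (P i).eval a' = 0 := by
  classical
  have hx := hX.transcendental
  by_contra hne
  push Not at hne
  obtain ⟨i₁, hi₁⟩ := hne
  obtain ⟨γ, v, hγ, hv, i₀, hi₀⟩ := exists_primitive_scale A (fun i => (((P i).eval a' : A) : L))
    ⟨i₁, fun h0 => hi₁ (Subtype.ext h0)⟩
  choose Q hQ using fun i => X_sub_C_dvd_sub_C_eval (p := P i) (a := a')
  have hu : R.red (R.evW X (Polynomial.X - Polynomial.C a')) ≠ 0 :=
    R.red_evW_ne_zero hx (by
      rw [Polynomial.map_sub, Polynomial.map_X, Polynomial.map_C]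
      exact X_sub_C_ne_zero _)
  set w'' : R.W := w - ∑ i, R.evW X (Q i) * d.b i with hw''
  have hw''m : w'' ∈ R.chartRing X :=
    sub_mem hw (sum_mem fun i _ => mul_mem (R.evW_mem_chartRing X _) (d.b_mem i))
  have h2 : R.evW X (Polynomial.X - Polynomial.C a') * w'' =
      ∑ i, R.const ((P i).eval a') * d.b i := by
    rw [hw'', mul_sub, h, Finset.mul_sum, ← Finset.sum_sub_distrib]
    refine Finset.sum_congr rfl fun i _ => ?_
    rw [← mul_assoc, ← map_mul, ← hQ i, map_sub, R.evW_C, sub_mul, sub_sub_cancel]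
  have hXne := R.ne_zero_of_red_ne_zero hu
  let w' : R.W := ⟨((∑ i, R.const (v i) * d.b i : R.W) : F) *
      (R.evW X (Polynomial.X - Polynomial.C a') : F)⁻¹,
    mul_mem (SetLike.coe_mem _) (R.inv_mem_of_red_ne_zero hu)⟩
  have h3 : R.evW X (Polynomial.X - Polynomial.C a') * w' = ∑ i, R.const (v i) * d.b i := by
    apply Subtype.ext
    show _ * (_ * _⁻¹) = _
    rw [mul_comm, mul_assoc, inv_mul_cancel₀ hXne, mul_one]
  have hγw : (w' : F) = algebraMap L F γ⁻¹ * (w'' : F) := by
    apply mul_left_cancel₀ hXne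
    rw [← MulMemClass.coe_mul, h3, mul_left_comm, ← MulMemClass.coe_mul, h2]
    simp only [AddSubmonoidClass.coe_finsetSum, MulMemClass.coe_mul, coe_const, Finset.mul_sum]
    refine Finset.sum_congr rfl fun i _ => ?_
    rw [← mul_assoc, ← map_mul, hv i, ← mul_assoc γ⁻¹, inv_mul_cancel₀ hγ, one_mul]
  have hw'm : w' ∈ R.chartRing X := by
    rw [mem_chartRing, hγw]
    exact mul_mem ((coordRing L (X : F)).algebraMap_mem _) hw''m
  obtain ⟨q, hq⟩ := hfull (R.red w') ⟨w', hw'm, rfl⟩
  have h4 := congrArg R.red h3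
  simp only [map_mul, map_sum, R.red_const, R.red_evW, Polynomial.map_sub, Polynomial.map_X,
    Polynomial.map_C, hq, Finset.mul_sum] at h4
  have h5 := d.independent (fun i => (Polynomial.X - Polynomial.C (π a')) * q i
    - Polynomial.C (π (v i))) (by
      simp only [map_sub, map_mul, aeval_C, sub_mul, Finset.sum_sub_distrib]
      rw [sub_eq_zero]
      simp only [← map_mul, ← map_sub]
      refine Eq.trans ?_ h4
      simp [mul_assoc, sub_mul]) i₀
  have h6 := congrArg (Polynomial.eval (π a')) h5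
  simp [hi₀] at h6

/-- Near an integral point the chart family generates: traces against the dual are divisible
by `D` up to a polynomial not vanishing there. -/
theorem exists_trace_eq_mul (hX : R.Param X)
    (hfull : ∀ g ∈ R.redChart X,
      ∃ q : Fin n → k[X], g = ∑ i, aeval (R.red X) (q i) * R.red (d.b i))
    {h : F} (hh : h ∈ coordRing L (X : F)) (a' : A) :
    ∃ D1 : L[X], D1.eval (a' : L) ≠ 0 ∧ ∀ i, ∃ q : L[X],
      aeval (X : F) D1 * ((Algebra.trace L⟮(X : F)⟯ F ((d.u i : F) * h) : L⟮(X : F)⟯) : F)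
        = aeval (X : F) (d.D.map A.subtype) * aeval (X : F) q := by
  classical
  haveI := hX.finite
  have hxL := R.transcendental_of_red hX.transcendental
  have hD0 : d.D ≠ 0 := fun h0 => d.D_ne (by rw [h0, Polynomial.map_zero])
  obtain ⟨D1, hD1, hD1a⟩ := Polynomial.exists_eq_pow_rootMultiplicity_mul_and_not_dvd d.D hD0 a'
  have hD1a' : (D1.map A.subtype).eval (a' : L) ≠ 0 := by
    rw [show ((a' : L)) = A.subtype a' from rfl, eval_map_apply]
    exact fun h0 => hD1a (dvd_iff_isRoot.mpr (Subtype.ext h0))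
  refine ⟨D1.map A.subtype, hD1a', ?_⟩
  rcases eq_or_ne h 0 with rfl | hh0
  · exact fun i => ⟨0, by simp⟩
  obtain ⟨γ, h', hγ, hh'red, hhh'⟩ := R.exists_scale hh0
  have hh'm : h' ∈ R.chartRing X := by
    rw [mem_chartRing]
    have := mul_mem ((coordRing L (X : F)).algebraMap_mem γ⁻¹) hh
    rwa [hhh', ← mul_assoc, ← map_mul, inv_mul_cancel₀ hγ, map_one, one_mul] at this
  have hT : ∀ i, ∃ T : A[X],
      ((Algebra.trace L⟮(X : F)⟯ F ((d.u i : F) * (h' : F)) : L⟮(X : F)⟯) : F)
        = aeval (X : F) (T.map A.subtype) := by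
    intro i
    obtain ⟨p, hp⟩ := Normal.exists_poly_trace hxL
      (show ((d.u i * h' : R.W) : F) ∈ coordRing L (X : F) from mul_mem (d.u_mem i) hh'm)
    obtain ⟨T, rfl, -⟩ := Param.exists_trace_poly R hX _ hp
    exact ⟨T, hp⟩
  choose T hT using hT
  have hexp : R.evW X d.D * h' = ∑ i, R.evW X (T i) * d.b i := by
    apply Subtype.ext
    push_cast
    simp only [R.coe_evW]
    rw [d.expand (h' : F)]
    simp only [hT]
  have hdiv : ∀ r : ℕ, ∀ T : Fin n → A[X],
      R.evW X ((Polynomial.X - Polynomial.C a') ^ r * D1) * h' = ∑ i, R.evW X (T i) * d.b i →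
      ∀ i, (Polynomial.X - Polynomial.C a') ^ r ∣ T i := by
    intro r
    induction r with
    | zero => exact fun T _ i => ⟨T i, by simp⟩
    | succ r ih =>
      intro T hT' i
      have h0 := d.eval_eq_zero_of_mul_eq hX hfull
        (w := R.evW X ((Polynomial.X - Polynomial.C a') ^ r * D1) * h')
        (mul_mem (R.evW_mem_chartRing X _) hh'm) a' T (by
          rw [← mul_assoc, ← map_mul, ← hT', pow_succ']; ring_nf)
      choose U hU using fun i => dvd_iff_isRoot.mpr (h0 i)
      have hX0 : R.evW X (Polynomial.X - Polynomial.C a') ≠ 0 := fun h0' => by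
        have := R.red_evW_ne_zero hX.transcendental (P := Polynomial.X - Polynomial.C a') (by
          rw [Polynomial.map_sub, Polynomial.map_X, Polynomial.map_C]
          exact X_sub_C_ne_zero _)
        exact this (by rw [h0', map_zero])
      have h1 : R.evW X ((Polynomial.X - Polynomial.C a') ^ r * D1) * h'
          = ∑ i, R.evW X (U i) * d.b i := by
        apply mul_left_cancel₀ hX0
        rw [← mul_assoc, ← map_mul, ← mul_assoc, ← pow_succ', hT', Finset.mul_sum]
        exact Finset.sum_congr rfl fun i _ => by rw [← mul_assoc, ← map_mul, ← hU i]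
      rw [hU i, pow_succ']
      exact mul_dvd_mul_left _ (ih U h1 i)
  intro i
  obtain ⟨U, hU⟩ := hdiv _ T (by rw [← hD1]; exact hexp) i
  refine ⟨Polynomial.C γ * U.map A.subtype, ?_⟩
  rw [hhh', mul_left_comm, show ∀ z : F, algebraMap L F γ * z = γ • z from fun z =>
    (Algebra.smul_def γ z).symm, LinearMap.map_smul_of_tower, IntermediateField.coe_smul, hT i, hU]
  conv_rhs => rw [hD1]
  simp only [Polynomial.map_mul, map_mul, aeval_C, Algebra.smul_def]
  ring

end DualPair

end ConstRed

end Fermat.Agent.RED
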