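import Fermat.Agent.RED.Normal.AuxParam
import Fermat.Agent.RED.Normal.Tame

/-!
# Lifting at `j = 0` in characteristics 2 and 3 from an auxiliary parameter

If `D(T) * X = f(T) ^ 3` with `f ^ 3 - 1728 * D = g ^ 2`, `f ^ 3` reducing to `(T - 1) ^ n` and
`D(1)` a unit, the bounds `3, 2, 1` on the ramification over `X = 0, 1728` and the other values
leave no ramification of the parameter `T` over the values reducing to `1`.
-/

set_option autoImplicit false

noncomputable section

open Polynomial IntermediateField AlgebraicCurve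

namespace Fermat.Agent.RED

open scoped Classical in
/-- If the roots of `f ^ 3 - r D` have full multiplicity, `T` is unramified over the preimages of
`r`. -/
theorem ord_param_le_one {L F : Type*} [Field L] [Field F] [Algebra L F] {X T : F}
    (hX : Transcendental L X) {f D g : L[X]} (hid : f ^ 3 - C 1728 * D = g ^ 2)
    (hrel : aeval T D * X = aeval T f ^ 3)
    (hram : ∀ (P : Place L F) (c : L),
      P.ord (X - algebraMap L F c) ≤ if c = 0 then 3 else if c = 1728 then 2 else 1)
    {a : L} (hDa : D.eval a ≠ 0) (P : Place L F) : P.ord (T - algebraMap L F a) ≤ 1 := by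
  by_contra hcon
  push Not at hcon
  set Y := T - algebraMap L F a with hY
  have hY0 : Y ≠ 0 := fun h => by rw [h, Place.ord_zero] at hcon; omega
  have hTmem : T ∈ P.toValuationSubring := by
    simpa [hY] using add_mem (mem_of_ord_nonneg P (le_of_lt (lt_trans zero_lt_one hcon)))
      (P.algebraMap_mem' a)
  have hmem : ∀ p : L[X], aeval T p ∈ P.toValuationSubring := fun p =>
    mem_place_of_mem_coordRing L T P hTmem (aeval_mem_coordRing L T p)
  obtain ⟨s, hs⟩ := dvd_iff_isRoot.mpr (show (D - C (D.eval a)).IsRoot a by simp)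
  have hDT : aeval T D = algebraMap L F (D.eval a) + Y * aeval T s := by
    have := congrArg (aeval T) hs
    simp only [map_sub, map_mul, aeval_C, aeval_X] at this
    rw [← this, add_sub_cancel]
  have hnotmem : aeval T D ∉ FF.ordGE P 1 := fun h => by
    have hs1 : Y * aeval T s ∈ FF.ordGE P 1 := by
      rcases eq_or_ne (aeval T s) 0 with hs0 | hs0
      · rw [hs0, mul_zero]; exact zero_mem _
      · refine FF.mem_ordGE_of_le P ?_
        rw [P.ord_mul hY0 hs0]
        have := ord_nonneg_of_mem P (hmem s)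
        omega
    have h1 : algebraMap L F (D.eval a) ∈ FF.ordGE P 1 := by
      rw [eq_sub_of_add_eq hDT.symm]
      exact sub_mem h hs1
    have := FF.le_ord_of_mem_ordGE P h1 (by simpa using hDa)
    rw [FF.ord_algebraMap] at this
    omega
  have hDne : aeval T D ≠ 0 := fun h => hnotmem (h ▸ zero_mem _)
  have hD : P.ord (aeval T D) = 0 := by
    refine le_antisymm ?_ (ord_nonneg_of_mem P (hmem D))
    by_contra h
    push Not at h
    exact hnotmem (FF.mem_ordGE_of_le P h)
  set r := f.eval a ^ 3 / D.eval a with hr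
  set p := f ^ 3 - C r * D with hp
  have hXr : X - algebraMap L F r = aeval T p / aeval T D := by
    rw [eq_div_iff hDne, hp, map_sub, map_mul, map_pow, aeval_C, ← hrel]
    ring
  obtain ⟨μ, q, hμ, hq⟩ : ∃ (μ : ℕ) (q : L[X]),
      (μ : ℤ) = (if r = 0 then 3 else if r = 1728 then 2 else 1) ∧
        p = (Polynomial.X - C a) ^ μ * q := by
    by_cases h0 : r = 0
    · have hfa : f.IsRoot a := by
        rw [hr, div_eq_zero_iff] at h0
        exact eq_zero_of_pow_eq_zero (h0.resolve_right hDa)
      obtain ⟨e, he⟩ := dvd_iff_isRoot.mpr hfa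
      exact ⟨3, e ^ 3, by simp [h0], by rw [hp, h0, C_0, zero_mul, sub_zero, he, mul_pow]⟩
    by_cases h1 : r = 1728
    · have hga : g.IsRoot a := by
        refine eq_zero_of_pow_eq_zero (n := 2) ?_
        rw [← eval_pow, ← hid, eval_sub, eval_mul, eval_C, eval_pow, ← h1, hr,
          div_mul_cancel₀ _ hDa, sub_self]
      obtain ⟨e, he⟩ := dvd_iff_isRoot.mpr hga
      exact ⟨2, e ^ 2, by rw [if_neg h0, if_pos h1]; rfl,
        by rw [hp, h1, hid, he, mul_pow]⟩
    obtain ⟨e, he⟩ := dvd_iff_isRoot.mpr (show p.IsRoot a by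
      rw [hp, IsRoot, eval_sub, eval_mul, eval_C, eval_pow, hr, div_mul_cancel₀ _ hDa, sub_self])
    exact ⟨1, e, by rw [if_neg h0, if_neg h1]; rfl, by rw [he, pow_one]⟩
  have hXr0 : X - algebraMap L F r ≠ 0 := fun h => hX (by
    rw [sub_eq_zero.mp h]; exact isAlgebraic_algebraMap r)
  have hpT : aeval T p = Y ^ μ * aeval T q := by simp [hq, hY]
  have hq0 : aeval T q ≠ 0 := fun h => hXr0 (by rw [hXr, hpT, h, mul_zero, zero_div])
  have h1 := hram P r
  rw [hXr, hpT, FF.ord_div P (mul_ne_zero (pow_ne_zero _ hY0) hq0) hDne,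
    P.ord_mul (pow_ne_zero _ hY0) hq0, hD, sub_zero, FF.ord_pow, ← hμ] at h1
  have hμpos : (1 : ℤ) ≤ μ := by rw [hμ]; split_ifs <;> norm_num
  have := ord_nonneg_of_mem P (hmem q)
  nlinarith

theorem aeval_map_intCast {R S : Type*} [CommRing R] [CommRing S] [Algebra R S] (p : ℤ[X]) (t : S) :
    aeval t (p.map (Int.castRingHom R)) = aeval t p := by
  rw [aeval_def, eval₂_map, aeval_def]
  congr 1
  exact RingHom.ext_int _ _

theorem mem_coordRing_of_rel {K E : Type*} [Field K] [Field E] [Algebra K E] {x t : E} {f D : ℤ[X]}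
    (hmonic : (f ^ 3).Monic) (hdeg : D.natDegree < (f ^ 3).natDegree)
    (hrel : aeval t D * x = aeval t f ^ 3) : t ∈ coordRing K x := by
  let S := coordRing K x
  let q : (↥S)[X] := (f ^ 3).map (Int.castRingHom S) -
    C (⟨x, self_mem_coordRing K x⟩ : S) * D.map (Int.castRingHom S)
  refine mem_coordRing_of_isIntegralElem (R := ↥S) (φ := S.val.toRingHom) (fun r => r.2)
    ⟨q, (hmonic.map _).sub_of_left ?_, ?_⟩
  · rw [hmonic.degree_map]
    refine (degree_mul_le _ _).trans_lt (lt_of_le_of_lt
      ((add_le_add degree_C_le degree_map_le).trans (zero_add _).le) ?_)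
    rw [degree_eq_natDegree hmonic.ne_zero]
    exact degree_le_natDegree.trans_lt (by exact_mod_cast hdeg)
  · rw [eval₂_sub, eval₂_mul, eval₂_C, eval₂_map, eval₂_map, eval₂_pow]
    have h : ∀ p : ℤ[X], p.eval₂ (S.val.toRingHom.comp (Int.castRingHom S)) t = aeval t p :=
      fun p => by rw [aeval_def]; congr 1
    rw [h, h, ← hrel]
    show aeval t D * x - x * aeval t D = 0
    ring

namespace ConstRed

variable {L k : Type*} [Field L] [Field k] {A : ValuationSubring L} {π : A →+* k}
variable {F Fb : Type*} [Field F] [Field Fb] [Algebra L F] [Algebra k Fb]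
variable {R : ConstRed A π F Fb}

open scoped Classical in
/-- Lifting at `x = 0` from a parameter `T` with `D(T) X = f(T) ^ 3`. -/
theorem liftsAt_zero_of_rel [CharZero L] [IsAlgClosed L] [IsAlgClosed k] {X T : R.W}
    (hX : R.Param X) (hsep : Algebra.IsSeparable k⟮R.red X⟯ Fb) {f D g : ℤ[X]} {n : ℕ}
    (hmonic : (f ^ 3).Monic) (hdeg : D.natDegree < (f ^ 3).natDegree)
    (hid : f ^ 3 - 1728 * D = g ^ 2)
    (hrel : aeval (T : F) D * (X : F) = aeval (T : F) f ^ 3)
    (hred : (f ^ 3).map (Int.castRingHom k) = (Polynomial.X - C 1) ^ n)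
    (hD1 : ((D.eval 1 : ℤ) : k) ≠ 0)
    (hram : ∀ (P : Place L F) (c : L),
      P.ord ((X : F) - algebraMap L F c) ≤ if c = 0 then 3 else if c = 1728 then 2 else 1) :
    R.LiftsAt X 0 := by
  have hcoe : ∀ p : ℤ[X], aeval (T : F) p = ((aeval T p : R.W) : F) := fun p =>
    aeval_algHom_apply R.W.subtype.toIntAlgHom T p
  have hW : aeval T D * X = aeval T f ^ 3 := Subtype.ext (by
    rw [MulMemClass.coe_mul, SubmonoidClass.coe_pow, ← hcoe, ← hcoe, hrel])
  have hredT : ∀ p : ℤ[X], R.red (aeval T p) = aeval (R.red T) p := fun p =>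
    (aeval_algHom_apply R.red.toIntAlgHom T p).symm
  have hrelb : aeval (R.red T) D * R.red X = aeval (R.red T) f ^ 3 := by
    have := congrArg R.red hW
    rwa [map_mul, map_pow, hredT, hredT] at this
  have hden : (D.map (Int.castRingHom k)).eval 1 ≠ 0 := by
    rwa [eval_one_map]
  have hrelb' : aeval (R.red T) (D.map (Int.castRingHom k)) * R.red X =
      aeval (R.red T) ((Polynomial.X - C (1 : k)) ^ n) := by
    rw [← hred, aeval_map_intCast, aeval_map_intCast, map_pow, hrelb]
  have hDT : aeval (R.red T) D ≠ 0 := by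
    intro h0
    rw [h0, zero_mul, eq_comm] at hrelb
    have h1 : aeval (R.red T) ((Polynomial.X - C (1 : k)) ^ n) = 0 := by
      rw [← hred, aeval_map_intCast, map_pow, hrelb]
    rw [map_pow, map_sub, aeval_X, aeval_C, map_one] at h1
    rw [sub_eq_zero.mp (eq_zero_of_pow_eq_zero h1), ← aeval_map_intCast (R := k),
      ← map_one (algebraMap k Fb), aeval_algebraMap_apply, map_eq_zero] at h0
    exact hden (by simpa using h0)
  have hDT' : aeval (T : F) D ≠ 0 := fun h0 => hDT (by
    rw [← hredT, show aeval T D = 0 from Subtype.ext (by rw [← hcoe, h0]; rfl), map_zero])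
  have hmemT : (X : F) ∈ L⟮(T : F)⟯ := by
    rw [show (X : F) = aeval (T : F) f ^ 3 / aeval (T : F) D by
      rw [eq_div_iff hDT', ← hrel, mul_comm]]
    have h : ∀ p : ℤ[X], aeval (T : F) p ∈ L⟮(T : F)⟯ := fun p => by
      rw [← aeval_map_intCast (R := L)]
      exact IntermediateField.algebra_adjoin_le_adjoin L _ (aeval_mem_adjoin_singleton L _)
    exact div_mem (pow_mem (h f) 3) (h D)
  have hmemt : R.red X ∈ k⟮R.red T⟯ := by
    rw [show R.red X = aeval (R.red T) f ^ 3 / aeval (R.red T) D by
      rw [eq_div_iff hDT, ← hrelb, mul_comm]]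
    have h : ∀ p : ℤ[X], aeval (R.red T) p ∈ k⟮R.red T⟯ := fun p => by
      rw [← aeval_map_intCast (R := k)]
      exact IntermediateField.algebra_adjoin_le_adjoin k _ (aeval_mem_adjoin_singleton k _)
    exact div_mem (pow_mem (h f) 3) (h D)
  have hTparam : R.Param T := hX.of_mem hmemT hmemt
  have hid' : (f.map (Int.castRingHom L)) ^ 3 - C 1728 * D.map (Int.castRingHom L) =
      (g.map (Int.castRingHom L)) ^ 2 := by
    rw [← Polynomial.map_pow, ← Polynomial.map_pow, ← hid, Polynomial.map_sub, Polynomial.map_mul,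
      Polynomial.map_ofNat, C_ofNat]
  have hle : ∀ (P : Place L F) (a : A), π a = 1 →
      P.ord ((T : F) - algebraMap L F (a : L)) ≤ 1 := by
    intro P a ha
    refine ord_param_le_one (R.transcendental_of_red hX.transcendental) hid'
      (by rw [aeval_map_intCast, aeval_map_intCast, hrel]) hram (fun h0 => hden ?_) P
    have h1 : (D.map (Int.castRingHom A)).eval a = 0 := Subtype.ext (by
      rw [ZeroMemClass.coe_zero, ← h0, ← A.subtype_apply, ← eval₂_at_apply, eval₂_map,
        eval_map]
      congr 1)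
    have h2 := congrArg π h1
    rw [map_zero, ← eval₂_at_apply, eval₂_map, ha] at h2
    rw [eval_map, ← h2]
    congr 1
    exact RingHom.ext_int _ _
  refine liftsAt_zero_of_aux (mem_coordRing_of_rel hmonic hdeg hrel)
    (mem_coordRing_of_rel hmonic hdeg hrelb) hrelb' hden ?_
  have h := R.liftsAt_of_ramification hTparam (isSeparable_of_mem hsep hmemt) (a := 1) (m := 1)
    one_pos (fun P => by simpa using hle P 1 (map_one π))
    (fun P a' _ ha' => hle P a' (ha'.trans (map_one π)))
  rwa [map_one] at h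

end ConstRed

end Fermat.Agent.RED
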