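import Fermat.Agent.RED.Normal.AuxLevelX0
import Fermat.Agent.RED.X0Lift

/-!
# Normality at the auxiliary levels `9N` (residue characteristic 2) and `4N` (3)
-/

set_option autoImplicit false
set_option linter.unusedSectionVars false
set_option synthInstance.maxHeartbeats 400000
set_option maxHeartbeats 1000000

noncomputable section

open ModularCurve

namespace Fermat.Agent.RED

variable {ℓ : ℕ} {A : ValuationSubring (AlgebraicClosure ℚ)}

/-- Some multiple of `N` prime to `ℓ` has a normal finite chart. -/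
theorem exists_multiple_normal_x0Param (N : ℕ) [NeZero N] (hℓ : ℓ.Prime) (hN : ¬ℓ ∣ N)
    (hA : A.LiesOverPrime ℓ) :
    ∃ (M : ℕ) (_ : NeZero M) (hM : ¬ℓ ∣ M), N ∣ M ∧
      (x0Red hℓ hM hA).Normal (x0Param hℓ hM hA) := by
  have := Galois.place_residueField_isAlgClosed A
  rcases lt_trichotomy ℓ 3 with h | h | h
  · obtain rfl : ℓ = 2 := by have := hℓ.two_le; omega
    have hM : ¬2 ∣ N * 9 := fun h => hN ((Nat.Coprime.dvd_of_dvd_mul_right (by norm_num) h))
    haveI : NeZero (N * 9) := ⟨Nat.mul_ne_zero (NeZero.ne N) (by norm_num)⟩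
    exact ⟨N * 9, inferInstance, hM, dvd_mul_right _ _, normal_x0Param hℓ hM hA fun _ =>
      x0Red_liftsAt_zero_two hℓ hM hA rfl (dvd_mul_left _ _) (isSeparable_x0Param hℓ hM hA)⟩
  · subst h
    have hM : ¬3 ∣ N * 4 := fun h => hN ((Nat.Coprime.dvd_of_dvd_mul_right (by norm_num) h))
    haveI : NeZero (N * 4) := ⟨Nat.mul_ne_zero (NeZero.ne N) (by norm_num)⟩
    exact ⟨N * 4, inferInstance, hM, dvd_mul_right _ _, normal_x0Param hℓ hM hA fun _ =>
      x0Red_liftsAt_zero_three hℓ hM hA rfl (dvd_mul_left _ _) (isSeparable_x0Param hℓ hM hA)⟩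
  · have h5 : 5 ≤ ℓ := by
      rcases Nat.lt_or_ge ℓ 5 with h4 | h4
      · obtain rfl : ℓ = 4 := by omega
        exact absurd hℓ (by decide)
      · exact h4
    exact ⟨N, inferInstance, hN, dvd_rfl, normal_x0Param hℓ hN hA
      (x0SmallLift_of_five_le hℓ hN hA h5)⟩

end Fermat.Agent.RED
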