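import Mathlib.RingTheory.DedekindDomain.Dvr
import Mathlib.RingTheory.Norm.Transitivity
import Mathlib.RingTheory.DiscreteValuationRing.TFAE
import Mathlib.RingTheory.Ideal.GoingUp
import Mathlib.FieldTheory.IsAlgClosed.Basic
import Mathlib.LinearAlgebra.Matrix.Charpoly.Coeff
import Mathlib.LinearAlgebra.Basis.VectorSpace

/-!
# A Dedekind criterion by norms with a simple root

`B` is a finite free `k[X]`-domain.  If at every `k`-point of `B` some element vanishes whose norm
has a simple root below that point, then `B` is a Dedekind domain.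
-/

set_option autoImplicit false

namespace Fermat.Agent.RED.Normal

open Polynomial

variable {k : Type*} [Field k]

theorem sq_dvd_det_of_two_kernel {ι : Type*} [Fintype ι] [DecidableEq ι]
    (M : Matrix ι ι k[X]) (j₀ : k) (v : Fin 2 → ι → k) (hv : LinearIndependent k v)
    (hker : ∀ s, (M.map (evalRingHom j₀)).mulVec (v s) = 0) :
    (X - C j₀) ^ 2 ∣ M.det := by
  classical
  let e0 := Module.Basis.sumExtend hv
  have : Fintype (Module.Basis.sumExtendIndex hv) := by
    have : Finite (Fin 2 ⊕ Module.Basis.sumExtendIndex hv) := Module.Finite.finite_basis e0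
    have : Finite (Module.Basis.sumExtendIndex hv) :=
      Finite.of_injective _ (Sum.inr_injective (α := Fin 2))
    exact Fintype.ofFinite _
  let σ : ι ≃ Fin 2 ⊕ Module.Basis.sumExtendIndex hv := (Pi.basisFun k ι).indexEquiv e0
  let e := e0.reindex σ.symm
  have he : ∀ s, e (σ.symm (Sum.inl s)) = v s := fun s => by
    rw [show e = e0.reindex σ.symm from rfl, Module.Basis.reindex_apply]
    simp [e0, Module.Basis.sumExtend]; rfl
  let P : Matrix ι ι k := (Pi.basisFun k ι).toMatrix e
  have hPdet : IsUnit P.det := by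
    rw [← Matrix.isUnit_iff_isUnit_det]
    have := (Pi.basisFun k ι).invertibleToMatrix e
    exact isUnit_of_invertible P
  let MP := M * P.map C
  have hcol : ∀ (s : Fin 2) (i : ι), (X - C j₀) ∣ MP i (σ.symm (Sum.inl s)) := by
    intro s i
    rw [dvd_iff_isRoot, IsRoot.def]
    have := congrFun (hker s) i
    simp only [MP, Matrix.mul_apply, Polynomial.eval_finsetSum, Matrix.map_apply, eval_mul,
      eval_C]
    simpa [Matrix.mulVec, dotProduct, P, Module.Basis.toMatrix_apply, he] using this
  choose w hw using hcol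
  let M' : Matrix ι ι k[X] := fun i l =>
    Sum.elim (fun s => w s i) (fun _ => MP i l) (σ l)
  let d : ι → k[X] := fun l => Sum.elim (fun _ => X - C j₀) (fun _ => 1) (σ l)
  have hMP : MP = M' * Matrix.diagonal d := by
    ext i l : 2
    rw [Matrix.mul_diagonal]
    rcases hl : σ l with s | t
    · have : l = σ.symm (Sum.inl s) := σ.eq_symm_apply.mpr hl
      simp [M', d, this, hw, mul_comm]
    · simp [M', d, hl]
  have hd : Matrix.det (Matrix.diagonal d) = (X - C j₀) ^ 2 := by
    rw [Matrix.det_diagonal, ← σ.symm.prod_comp]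
    simp [d, Fintype.prod_sum_type]
  have hdet : M.det * (P.map C).det = M'.det * (X - C j₀) ^ 2 := by
    rw [← Matrix.det_mul, ← hd, ← Matrix.det_mul, ← hMP]
  have hPC : IsUnit (P.map (C : k →+* k[X])).det := by
    rw [← RingHom.mapMatrix_apply, ← RingHom.map_det]
    exact hPdet.map C
  exact hPC.dvd_mul_right.mp ⟨M'.det, by rw [hdet, mul_comm]⟩

variable {B : Type*} [CommRing B] [Algebra k[X] B] [Module.Free k[X] B] [Module.Finite k[X] B]

theorem dvd_algebraMap_norm (b : B) :
    b ∣ algebraMap k[X] B (Algebra.norm k[X] b) := by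
  classical
  nontriviality B
  let e := Module.Free.chooseBasis k[X] B
  let M := Algebra.leftMulMatrix e b
  have h : Polynomial.aeval b M.charpoly = 0 := by
    apply Algebra.leftMulMatrix_injective e
    rw [← Polynomial.aeval_algHom_apply, Matrix.aeval_self_charpoly, map_zero]
  rw [← M.charpoly.divX_mul_X_add, map_add, map_mul, aeval_X, aeval_C,
    add_eq_zero_iff_eq_neg'] at h
  have h0 : b ∣ algebraMap k[X] B (M.charpoly.coeff 0) := by
    rw [h]
    exact (dvd_mul_left b _).neg_right
  have hc : Algebra.norm k[X] b = (-1) ^ Fintype.card (Module.Free.ChooseBasisIndex k[X] B) *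
      M.charpoly.coeff 0 := by
    rw [Algebra.norm_eq_matrix_det e, Matrix.det_eq_sign_charpoly_coeff]
  rw [hc, map_mul]
  exact h0.mul_left _

variable [IsAlgClosed k] [IsDomain B]

omit [Module.Free k[X] B] [IsDomain B] in
theorem exists_point (m : Ideal B) [m.IsMaximal] :
    ∃ χ : B →+* k, RingHom.ker χ = m ∧ ∀ a : k, χ (algebraMap k[X] B (C a)) = a := by
  have : Algebra.IsIntegral k[X] B := Algebra.IsIntegral.of_finite k[X] B
  let q : B →+* B ⧸ m := Ideal.Quotient.mk m
  let : Field (B ⧸ m) := Ideal.Quotient.field m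
  let : Algebra k (B ⧸ m) := ((q.comp (algebraMap k[X] B)).comp C).toAlgebra
  have hP : (m.comap (algebraMap k[X] B)).IsMaximal :=
    Ideal.isMaximal_comap_of_isIntegral_of_isMaximal m
  obtain ⟨p, hp⟩ := (IsPrincipalIdealRing.principal (m.comap (algebraMap k[X] B))).principal
  have hp0 : p ≠ 0 := by
    rintro rfl
    refine Polynomial.not_isField k (Ring.isField_iff_maximal_bot.mpr ?_)
    simpa [hp] using hP
  have hpu : ¬ IsUnit p := fun h => hP.ne_top (by rw [hp]; exact Ideal.span_singleton_eq_top.mpr h)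
  obtain ⟨j₀, hj⟩ := IsAlgClosed.exists_root p (by
    intro hd; exact hpu (isUnit_iff_degree_eq_zero.mpr hd))
  have hXj : q (algebraMap k[X] B (X - C j₀)) = 0 := by
    have hassoc : Associated p (X - C j₀) :=
      ((Polynomial.irreducible_X_sub_C j₀).associated_of_dvd
        ((Ideal.span_singleton_prime hp0).mp (by rw [Ideal.span, ← hp]; exact hP.isPrime)).irreducible
        (dvd_iff_isRoot.mpr hj)).symm
    exact Ideal.Quotient.eq_zero_iff_mem.mpr (show X - C j₀ ∈ m.comap (algebraMap k[X] B) by
      rw [hp]; exact Ideal.mem_span_singleton.mpr hassoc.dvd)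
  have hev : ∀ f : k[X], q (algebraMap k[X] B f) = algebraMap k (B ⧸ m) (f.eval j₀) := by
    intro f
    obtain ⟨g, hg⟩ := (Polynomial.X_sub_C_dvd_sub_C_eval (p := f) (a := j₀))
    rw [sub_eq_iff_eq_add.mp hg, map_add, map_add, map_mul, map_mul, hXj, zero_mul, zero_add]
    simp [RingHom.algebraMap_toAlgebra, q]
  have : Algebra.IsIntegral k (B ⧸ m) := ⟨fun x => by
    obtain ⟨b, rfl⟩ := Ideal.Quotient.mk_surjective x
    obtain ⟨f, hf, hfb⟩ := Algebra.IsIntegral.isIntegral (R := k[X]) b
    refine ⟨f.map (evalRingHom j₀), hf.map _, ?_⟩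
    rw [eval₂_map, show (algebraMap k (B ⧸ m)).comp (evalRingHom j₀) = q.comp (algebraMap k[X] B)
      from RingHom.ext fun g => (hev g).symm, ← Polynomial.hom_eval₂, hfb, map_zero]⟩
  let ψ := RingEquiv.ofBijective (algebraMap k (B ⧸ m))
    IsAlgClosed.algebraMap_bijective_of_isIntegral
  refine ⟨ψ.symm.toRingHom.comp q, ?_, fun a => ?_⟩
  · ext x; simp [RingHom.mem_ker, q, Ideal.Quotient.eq_zero_iff_mem]
  · apply ψ.injective
    simp only [RingHom.comp_apply, RingEquiv.toRingHom_eq_coe, RingEquiv.coe_toRingHom,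
      RingEquiv.apply_symm_apply]
    exact (hev (C a)).trans (by simp [ψ])

omit [IsAlgClosed k] [IsDomain B] in
/-- An element vanishing at a point whose norm has a simple root below it generates the point
together with the base parameter. -/
theorem ker_le_span_pair (χ : B →+* k) (hχ : ∀ a, χ (algebraMap k[X] B (C a)) = a) (b : B)
    (hb : χ b = 0)
    (hn : (Algebra.norm k[X] b).rootMultiplicity (χ (algebraMap k[X] B X)) = 1) :
    RingHom.ker χ ≤
      Ideal.span {b, algebraMap k[X] B (X - C (χ (algebraMap k[X] B X)))} := by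
  classical
  set j₀ := χ (algebraMap k[X] B X) with hj₀
  set J := Ideal.span {b, algebraMap k[X] B (X - C j₀)} with hJ
  have hev : ∀ f : k[X], χ (algebraMap k[X] B f) = f.eval j₀ := by
    intro f
    induction f using Polynomial.induction_on' with
    | add p q hp hq => simp [hp, hq]
    | monomial n a => simp [← C_mul_X_pow_eq_monomial, hχ, hj₀]
  have hJle : J ≤ RingHom.ker χ := by
    rw [hJ, Ideal.span_le]
    rintro x (rfl | rfl) <;> simp [RingHom.mem_ker, hb, hev]
  let e := Module.Free.chooseBasis k[X] B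
  let ι := Module.Free.ChooseBasisIndex k[X] B
  let coord : B →+ ι → k :=
    { toFun := fun y i => (e.repr y i).eval j₀
      map_zero' := by ext; simp
      map_add' := fun x y => by ext; simp }
  let M := Algebra.leftMulMatrix e b
  let M₀ : Matrix ι ι k := M.map (evalRingHom j₀)
  have hcoord_mul : ∀ y, coord (b * y) = M₀.mulVec (coord y) := by
    intro y
    ext i
    show (e.repr (b * y) i).eval j₀ = _
    rw [← Algebra.leftMulMatrix_mulVec_repr]
    simp [Matrix.mulVec, dotProduct, M₀, M, coord, eval_finsetSum]; rfl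
  have hmemJ : ∀ y, coord y = 0 → y ∈ J := by
    intro y hy
    rw [← e.sum_repr y]
    refine J.sum_mem fun i _ => ?_
    obtain ⟨g, hg⟩ := dvd_iff_isRoot.mpr (congrFun hy i)
    rw [Algebra.smul_def, hg, map_mul]
    exact J.mul_mem_right _ (J.mul_mem_right _ (Ideal.subset_span (by simp)))
  let lift' : (ι → k) → B := fun w => ∑ i, C (w i) • e i
  have hlift : ∀ w, coord (lift' w) = w := by
    intro w; ext i
    simp [coord, lift', map_sum, map_smul, Finsupp.single_apply, apply_ite (eval j₀)]
  have hker : Module.finrank k (LinearMap.ker M₀.mulVecLin) ≤ 1 := by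
    by_contra hlt
    rw [not_le, Nat.lt_iff_add_one_le, one_add_one_eq_two] at hlt
    obtain ⟨v, hv⟩ := (exists_linearIndependent_of_le_finrank hlt : ∃ f : Fin 2 → _, LinearIndependent k f)
    have h2 := sq_dvd_det_of_two_kernel M j₀ (fun s => (v s : ι → k))
      (hv.map' (LinearMap.ker M₀.mulVecLin).subtype (Submodule.ker_subtype _))
      (fun s => LinearMap.mem_ker.mp (v s).2)
    rw [← Algebra.norm_eq_matrix_det e] at h2
    have hne : Algebra.norm k[X] b ≠ 0 := fun h0 => by simp [h0] at hn
    have := (le_rootMultiplicity_iff hne).mpr h2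
    omega
  set one₀ := coord 1
  have hone : one₀ ∉ LinearMap.range M₀.mulVecLin := by
    rintro ⟨w, hw⟩
    have h1 : (1 : B) - b * lift' w ∈ J := hmemJ _ (by
      rw [map_sub, hcoord_mul, hlift]; exact sub_eq_zero.mpr hw.symm)
    have h2 := hJle h1
    simp [RingHom.mem_ker, hb] at h2
  have htop : LinearMap.range M₀.mulVecLin ⊔ Submodule.span k {one₀} = ⊤ := by
    apply Submodule.eq_top_of_finrank_eq
    have hlt : LinearMap.range M₀.mulVecLin <
        LinearMap.range M₀.mulVecLin ⊔ Submodule.span k {one₀} :=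
      lt_of_le_not_ge le_sup_left fun h => hone (h (Submodule.mem_sup_right
        (Submodule.mem_span_singleton_self _)))
    have h1 := Submodule.finrank_lt_finrank_of_lt hlt
    have h2 := M₀.mulVecLin.finrank_range_add_finrank_ker
    have h3 := Submodule.finrank_le (LinearMap.range M₀.mulVecLin ⊔ Submodule.span k {one₀})
    omega
  intro y hy
  have hyt : coord y ∈ LinearMap.range M₀.mulVecLin ⊔ Submodule.span k {one₀} := by
    rw [htop]; trivial
  obtain ⟨_, ⟨w, rfl⟩, _, hs, hsum⟩ := Submodule.mem_sup.mp hyt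
  obtain ⟨a, rfl⟩ := Submodule.mem_span_singleton.mp hs
  have h1 : y - b * lift' w - algebraMap k[X] B (C a) ∈ J := hmemJ _ (by
    rw [map_sub, map_sub, hcoord_mul, hlift, ← hsum]
    have : coord (algebraMap k[X] B (C a)) = a • one₀ := by
      ext i; simp [coord, one₀, Algebra.algebraMap_eq_smul_one]
    rw [this, Matrix.mulVecLin_apply]; abel)
  have ha : a = 0 := by
    have := hJle h1
    simpa [RingHom.mem_ker, hb, hχ, RingHom.mem_ker.mp hy] using this
  rw [ha, map_zero, map_zero, sub_zero] at h1
  simpa using J.add_mem h1 (J.mul_mem_right (lift' w) (Ideal.subset_span (by simp) : b ∈ J))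

/-- The Dedekind criterion. -/
theorem isDedekindDomain_of_simple_norm
    (h : ∀ χ : B →+* k, (∀ a, χ (algebraMap k[X] B (C a)) = a) →
      ∃ b, χ b = 0 ∧
        (Algebra.norm k[X] b).rootMultiplicity (χ (algebraMap k[X] B X)) = 1) :
    IsDedekindDomain B := by
  have : Algebra.IsIntegral k[X] B := Algebra.IsIntegral.of_finite k[X] B
  have : IsNoetherianRing B := IsNoetherianRing.of_finite k[X] B
  suffices IsDedekindDomainDvr B from inferInstance
  refine IsDedekindDomainDvr.mk fun P hP hPp => ?_
  have := hPp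
  have : P.IsMaximal := Ideal.isMaximal_of_isIntegral_of_isMaximal_comap (R := k[X]) P
    ((Ideal.IsPrime.under _ P).isMaximal (fun hbot => hP (Ideal.eq_bot_of_comap_eq_bot hbot)))
  obtain ⟨χ, hχk, hχ⟩ := exists_point (k := k) P
  obtain ⟨b, hb, hn⟩ := h χ hχ
  set j₀ := χ (algebraMap k[X] B X) with hj₀
  have hle := ker_le_span_pair χ hχ b hb hn
  rw [hχk] at hle
  have hev : ∀ f : k[X], χ (algebraMap k[X] B f) = f.eval j₀ := by
    intro f
    induction f using Polynomial.induction_on' with
    | add p q hp hq => simp [hp, hq]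
    | monomial n a => simp [← C_mul_X_pow_eq_monomial, hχ, hj₀]
  have hne : Algebra.norm k[X] b ≠ 0 := fun h0 => by simp [h0] at hn
  obtain ⟨u, hu, hun⟩ := Polynomial.exists_eq_pow_rootMultiplicity_mul_and_not_dvd
    (Algebra.norm k[X] b) hne j₀
  rw [hn, pow_one] at hu
  let S := Localization.AtPrime P
  have hbmem : algebraMap B S b ∈ IsLocalRing.maximalIdeal S :=
    (IsLocalization.AtPrime.to_map_mem_maximal_iff S P b).mpr
      (hχk ▸ RingHom.mem_ker.mpr hb)
  have huu : IsUnit (algebraMap B S (algebraMap k[X] B u)) :=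
    (IsLocalization.AtPrime.isUnit_to_map_iff S P _).mpr (fun hmem => hun (dvd_iff_isRoot.mpr (by
      have : χ (algebraMap k[X] B u) = 0 := RingHom.mem_ker.mp (hχk.symm ▸ hmem)
      rwa [hev] at this)))
  have hXdvd : algebraMap B S b ∣ algebraMap B S (algebraMap k[X] B (X - C j₀)) := by
    have h1 := _root_.map_dvd (algebraMap B S) (dvd_algebraMap_norm (k := k) b)
    rw [hu, map_mul, map_mul] at h1
    exact huu.dvd_mul_right.mp h1
  have hmax : IsLocalRing.maximalIdeal S = Ideal.span {algebraMap B S b} := by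
    refine le_antisymm ?_ ((Ideal.span_singleton_le_iff_mem _).mpr hbmem)
    rw [← Localization.AtPrime.map_eq_maximalIdeal, Ideal.map_le_iff_le_comap]
    refine hle.trans (Ideal.span_le.mpr ?_)
    rintro x (rfl | rfl)
    · exact Ideal.mem_span_singleton_self _
    · exact Ideal.mem_span_singleton.mpr hXdvd
  have : IsDomain S := IsLocalization.isDomain_localization P.primeCompl_le_nonZeroDivisors
  have : IsNoetherianRing S := IsLocalization.isNoetherianRing P.primeCompl S inferInstance
  have hpr : (IsLocalRing.maximalIdeal S).IsPrincipal := ⟨⟨_, hmax⟩⟩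
  exact ((IsDiscreteValuationRing.TFAE S
    (IsLocalization.AtPrime.not_isField B hP S)).out 4 0).mp hpr

end Fermat.Agent.RED.Normal
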