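import Fermat.Agent.RED.CoordData
import Fermat.Agent.RED.Normal.DetSimpleRoot
import Mathlib.RingTheory.DedekindDomain.IntegralClosure
import Mathlib.FieldTheory.IntermediateField.Adjoin.Algebra

/-!
# The ring of functions integral over `K[x]`
-/

set_option autoImplicit false

noncomputable section

open Polynomial IntermediateField

namespace Fermat.Agent.RED.Normal

variable {K E : Type*} [Field K] [Field E] [Algebra K E] {x : E}

/-- `K[X] → K(x)`, `X ↦ x`. -/
abbrev genAlgebra (x : E) : Algebra K[X] K⟮x⟯ :=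
  (aeval (⟨x, mem_adjoin_simple_self K x⟩ : K⟮x⟯)).toRingHom.toAlgebra

theorem isFractionRing_genAlgebra (hx : Transcendental K x) :
    letI := genAlgebra (K := K) x
    IsFractionRing K[X] K⟮x⟯ := by
  let := genAlgebra (K := K) x
  have hval : ∀ p : K[X], ((algebraMap K[X] K⟮x⟯ p : K⟮x⟯) : E) = aeval x p := fun p => by
    show K⟮x⟯.val (aeval _ p) = _
    rw [← aeval_algHom_apply]
    rfl
  have : FaithfulSMul K[X] K⟮x⟯ := (faithfulSMul_iff_algebraMap_injective _ _).mpr fun p q h => by
    have := congrArg (fun z : K⟮x⟯ => (z : E)) h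
    simp only [hval] at this
    exact transcendental_iff_injective.mp hx this
  refine .of_field _ _ fun ⟨y, hy⟩ => ?_
  obtain ⟨r, s, hrs⟩ := (mem_adjoin_simple_iff (F := K) y).mp hy
  exact ⟨r, s, Subtype.ext (by rw [IntermediateField.coe_div, hval, hval]; exact hrs)⟩

/-- `K[X] → K[x] ⊆` the integral closure. -/
abbrev coordAlgebra (x : E) : Algebra K[X] (coordRing K x) :=
  (aeval (⟨x, self_mem_coordRing K x⟩ : coordRing K x)).toRingHom.toAlgebra

theorem coe_algebraMap_coordAlgebra (p : K[X]) :
    ((aeval (⟨x, self_mem_coordRing K x⟩ : coordRing K x) p : coordRing K x) : E) = aeval x p :=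
  (aeval_algHom_apply (coordRing K x).val _ p).symm

theorem coordAlgebra_isScalarTower :
    letI := coordAlgebra (K := K) x
    IsScalarTower K K[X] (coordRing K x) := by
  let := coordAlgebra (K := K) x
  exact IsScalarTower.of_algebraMap_eq fun a => ((aeval _).commutes a).symm

/-- Basic facts about the ring of functions integral over `K[x]`. -/
theorem coordRing_facts (hx : Transcendental K x) [FiniteDimensional K⟮x⟯ E]
    [Algebra.IsSeparable K⟮x⟯ E] :
    letI := coordAlgebra (K := K) x
    IsDedekindDomain (coordRing K x) ∧ IsFractionRing (coordRing K x) E ∧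
      Module.Finite K[X] (coordRing K x) := by
  let := coordAlgebra (K := K) x
  let := genAlgebra (K := K) x
  have := isFractionRing_genAlgebra hx
  let : Algebra K[X] E := (coordEval K x).toAlgebra
  have : IsScalarTower K[X] K⟮x⟯ E := IsScalarTower.of_algebraMap_eq fun p =>
    (aeval_algHom_apply K⟮x⟯.val (⟨x, mem_adjoin_simple_self K x⟩ : K⟮x⟯) p)
  have : IsScalarTower K[X] (coordRing K x) E := IsScalarTower.of_algebraMap_eq fun p =>
    (coe_algebraMap_coordAlgebra p).symm
  have : IsIntegralClosure (coordRing K x) K[X] E :=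
    ⟨Subtype.val_injective, fun {f} => ⟨fun hf => ⟨⟨f, hf⟩, rfl⟩, by rintro ⟨y, rfl⟩; exact y.2⟩⟩
  exact ⟨IsIntegralClosure.isDedekindDomain K[X] K⟮x⟯ E (coordRing K x),
    IsIntegralClosure.isFractionRing_of_finite_extension K[X] K⟮x⟯ E (coordRing K x),
    IsIntegralClosure.finite K[X] K⟮x⟯ E (coordRing K x)⟩

/-- Every residue field is `K`. -/
theorem coordRing_residue [IsAlgClosed K] (hx : Transcendental K x) [FiniteDimensional K⟮x⟯ E]
    [Algebra.IsSeparable K⟮x⟯ E] (P : Ideal (coordRing K x)) (hP : P.IsMaximal)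
    (d : coordRing K x) : ∃ a : K, d - algebraMap K (coordRing K x) a ∈ P := by
  let := coordAlgebra (K := K) x
  have := (coordRing_facts hx).2.2
  have := coordAlgebra_isScalarTower (K := K) (x := x)
  obtain ⟨χ, hχ, hC⟩ := exists_point (k := K) P
  refine ⟨χ d, hχ ▸ ?_⟩
  rw [RingHom.mem_ker, map_sub, IsScalarTower.algebraMap_apply K K[X] (coordRing K x),
    Polynomial.algebraMap_eq, hC, sub_self]

section Tower

variable {E' : Type*} [Field E'] [Algebra K E'] [Algebra E E'] [IsScalarTower K E E']

/-- `K(x)` seen in a larger field. -/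
theorem exists_adjoin_equiv (x : E) :
    ∃ e : K⟮x⟯ ≃+* K⟮algebraMap E E' x⟯, ∀ z, (e z : E') = algebraMap K⟮x⟯ E' z := by
  have h : K⟮x⟯.map (IsScalarTower.toAlgHom K E E') = K⟮algebraMap E E' x⟯ := by
    rw [adjoin_map, Set.image_singleton]; rfl
  refine ⟨((K⟮x⟯.equivMap (IsScalarTower.toAlgHom K E E')).trans (equivOfEq h)).toRingEquiv,
    fun z => ?_⟩
  rfl

/-- The base change of the finiteness and separability hypotheses. -/
theorem tower_facts (x : E) [FiniteDimensional K⟮algebraMap E E' x⟯ E'] :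
    FiniteDimensional K⟮x⟯ E' ∧
      Module.finrank K⟮x⟯ E' = Module.finrank K⟮algebraMap E E' x⟯ E' ∧
      (Algebra.IsSeparable K⟮algebraMap E E' x⟯ E' → Algebra.IsSeparable K⟮x⟯ E') := by
  obtain ⟨e, he⟩ := exists_adjoin_equiv (K := K) (E' := E') x
  refine ⟨Module.Finite.of_equiv_equiv e.symm (RingEquiv.refl E') ?_,
    Algebra.finrank_eq_of_equiv_equiv e (RingEquiv.refl E') ?_,
    fun hsep => Algebra.IsSeparable.of_equiv_equiv e.symm (RingEquiv.refl E') ?_⟩
  all_goals ext z
  · simp only [RingHom.comp_apply, RingEquiv.coe_toRingHom]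
    rw [← he, e.apply_symm_apply]; rfl
  · exact he z
  · simp only [RingHom.comp_apply, RingEquiv.coe_toRingHom]
    rw [← he, e.apply_symm_apply]; rfl

end Tower

end Fermat.Agent.RED.Normal
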