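import Fermat.Agent.RED.ConstRed
import Fermat.Agent.RED.CoordData
import Mathlib.FieldTheory.IsAlgClosed.Basic

/-!
# The lifting property of a chart of a constant reduction
-/

set_option autoImplicit false

noncomputable section

open Polynomial

namespace Fermat.Agent.RED

namespace ConstRed

variable {L k : Type*} [Field L] [Field k] {A : ValuationSubring L} {π : A →+* k}
variable {F Fb : Type*} [Field F] [Field Fb] [Algebra L F] [Algebra k Fb]
variable (R : ConstRed A π F Fb)

/-- The elements of `W` integral over `L[X]`: the chart ring over `A`. -/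
def chartRing (X : R.W) : Subring R.W := (coordRing L (X : F)).toSubring.comap R.W.subtype

theorem mem_chartRing {X w : R.W} : w ∈ R.chartRing X ↔ (w : F) ∈ coordRing L (X : F) := Iff.rfl

/-- The reduction of the chart ring. -/
def redChart (X : R.W) : Subring Fb := (R.chartRing X).map R.red

theorem mem_redChart {X : R.W} {g : Fb} :
    g ∈ R.redChart X ↔ ∃ w : R.W, (w : F) ∈ coordRing L (X : F) ∧ R.red w = g :=
  ⟨fun ⟨w, hw, h⟩ => ⟨w, hw, h⟩, fun ⟨w, hw, h⟩ => ⟨w, hw, h⟩⟩

theorem evW_mem_chartRing (X : R.W) (P : A[X]) : R.evW X P ∈ R.chartRing X := by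
  rw [mem_chartRing, R.coe_evW]
  exact aeval_mem_coordRing L _ _

/-- Lifting of functions integral over `k[x]` near the point `x₀`. -/
def LiftsAt (X : R.W) (x₀ : k) : Prop :=
  ∀ g ∈ coordRing k (R.red X), ∃ s : k[X], s.eval x₀ ≠ 0 ∧
    ∃ w : R.W, (w : F) ∈ coordRing L (X : F) ∧ R.red w = aeval (R.red X) s * g

/-- Every function integral over `k[x]` is the reduction of one integral over `L[X]`:
the reduced chart is normal. -/
def Normal (X : R.W) : Prop :=
  ∀ g ∈ coordRing k (R.red X), ∃ w : R.W, (w : F) ∈ coordRing L (X : F) ∧ R.red w = g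

theorem Normal.liftsAt {X : R.W} (h : R.Normal X) (x₀ : k) : R.LiftsAt X x₀ := fun g hg => by
  obtain ⟨w, hw, hwg⟩ := h g hg
  exact ⟨1, by simp, w, hw, by rw [hwg, map_one, one_mul]⟩

theorem aeval_red_mem_redChart (X : R.W) (p : k[X]) : aeval (R.red X) p ∈ R.redChart X := by
  obtain ⟨P, rfl⟩ := Polynomial.map_surjective π R.surjective_π p
  exact ⟨R.evW X P, R.evW_mem_chartRing X P, R.red_evW X P⟩

/-- The polynomials `s` with `s(x) g` in the reduced chart form an ideal. -/
def liftIdeal (X : R.W) (g : Fb) : Ideal k[X] where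
  carrier := {s | aeval (R.red X) s * g ∈ R.redChart X}
  zero_mem' := by
    show aeval (R.red X) (0 : k[X]) * g ∈ R.redChart X
    rw [map_zero, zero_mul]; exact zero_mem _
  add_mem' {a b} ha hb := by
    show aeval (R.red X) (a + b) * g ∈ R.redChart X
    rw [map_add, add_mul]; exact add_mem ha hb
  smul_mem' c {a} ha := by
    show aeval (R.red X) (c * a) * g ∈ R.redChart X
    rw [map_mul, mul_assoc]; exact mul_mem (R.aeval_red_mem_redChart X c) ha

theorem normal_of_liftsAt [IsAlgClosed k] {X : R.W} (h : ∀ x₀ : k, R.LiftsAt X x₀) :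
    R.Normal X := by
  intro g hg
  obtain ⟨d, hd⟩ := (IsPrincipalIdealRing.principal (R.liftIdeal X g)).principal
  have hdu : IsUnit d := by
    by_contra hdu
    have hroot : ∃ x₀, d.eval x₀ = 0 := by
      rcases eq_or_ne d 0 with rfl | hd0
      · exact ⟨0, eval_zero⟩
      · exact IsAlgClosed.exists_root d fun hdeg => hdu (isUnit_iff_degree_eq_zero.mpr hdeg)
    obtain ⟨x₀, hx₀⟩ := hroot
    obtain ⟨s, hs, w, hw, hws⟩ := h x₀ g hg
    have hmem : s ∈ R.liftIdeal X g := R.mem_redChart.mpr ⟨w, hw, hws⟩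
    rw [hd] at hmem
    obtain ⟨e, rfl⟩ := Ideal.mem_span_singleton'.mp hmem
    exact hs (by rw [eval_mul, hx₀, mul_zero])
  have h1 : (1 : k[X]) ∈ R.liftIdeal X g := by
    rw [hd]; exact Ideal.mem_span_singleton.mpr hdu.dvd
  obtain ⟨w, hw, hwg⟩ := R.mem_redChart.mp h1
  exact ⟨w, hw, by rw [hwg, map_one, one_mul]⟩

end ConstRed

/-- Compatibility of two constant reductions along field embeddings. -/
structure IsRedExtension {L k : Type*} [Field L] [Field k] {A : ValuationSubring L}
    {π : A →+* k} {F Fb F' Fb' : Type*} [Field F] [Field Fb] [Field F'] [Field Fb'] [Algebra L F]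
    [Algebra k Fb] [Algebra L F'] [Algebra k Fb'] [Algebra F F'] [Algebra Fb Fb']
    (R : ConstRed A π F Fb) (R' : ConstRed A π F' Fb') : Prop where
  map_mem : ∀ w : R.W, algebraMap F F' (w : F) ∈ R'.W
  red_map : ∀ w : R.W, R'.red ⟨algebraMap F F' (w : F), map_mem w⟩ = algebraMap Fb Fb' (R.red w)

end Fermat.Agent.RED
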