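import Mathlib.AlgebraicGeometry.EllipticCurve.DivisionPolynomial.Basic
import Mathlib.AlgebraicGeometry.EllipticCurve.VariableChange
import Mathlib.Algebra.Polynomial.BigOperators

/-!
# Division polynomials under a change of variables
-/

set_option autoImplicit false

namespace Fermat.Agent.RED.Normal

open Polynomial WeierstrassCurve

variable {R : Type*} [CommRing R] (W : WeierstrassCurve R) (v : VariableChange R)

/-- The weight of `preΨ' n`. -/
def divWt (n : ℕ) : ℕ := n ^ 2 - if Even n then 4 else 1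

theorem divWt_even (a : ℕ) : divWt (2 * (a + 1)) = 4 * a ^ 2 + 8 * a := by
  rw [divWt, if_pos (even_two_mul _), show (2 * (a + 1)) ^ 2 = 4 * a ^ 2 + 8 * a + 4 by ring]
  omega

theorem divWt_odd (a : ℕ) : divWt (2 * a + 1) = 4 * a ^ 2 + 4 * a := by
  rw [divWt, if_neg (by simp), show (2 * a + 1) ^ 2 = 4 * a ^ 2 + 4 * a + 1 by ring]
  omega

theorem eval_Ψ₂Sq_variableChange (x : R) :
    (v • W).Ψ₂Sq.eval ((v.u⁻¹ : Rˣ) ^ 2 * (x - v.r)) = (v.u⁻¹ : Rˣ) ^ 6 * W.Ψ₂Sq.eval x := by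
  simp only [Ψ₂Sq, variableChange_b₂, variableChange_b₄, variableChange_b₆, eval_add, eval_mul,
    eval_C, eval_X, eval_pow]
  ring

theorem eval_Ψ₃_variableChange (x : R) :
    (v • W).Ψ₃.eval ((v.u⁻¹ : Rˣ) ^ 2 * (x - v.r)) = (v.u⁻¹ : Rˣ) ^ 8 * W.Ψ₃.eval x := by
  simp only [Ψ₃, variableChange_b₂, variableChange_b₄, variableChange_b₆, variableChange_b₈,
    eval_add, eval_mul, eval_C, eval_X, eval_pow, eval_ofNat]
  ring

theorem eval_preΨ₄_variableChange (x : R) :
    (v • W).preΨ₄.eval ((v.u⁻¹ : Rˣ) ^ 2 * (x - v.r)) = (v.u⁻¹ : Rˣ) ^ 12 * W.preΨ₄.eval x := by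
  simp only [preΨ₄, variableChange_b₂, variableChange_b₄, variableChange_b₆, variableChange_b₈,
    eval_add, eval_mul, eval_C, eval_X, eval_pow, eval_ofNat]
  linear_combination (((v.u⁻¹ : Rˣ) : R) ^ 12 * (v.r ^ 2 - 2 * x * v.r)) * W.b_relation

theorem eval_preΨ'_variableChange (n : ℕ) (x : R) :
    ((v • W).preΨ' n).eval ((v.u⁻¹ : Rˣ) ^ 2 * (x - v.r)) =
      (v.u⁻¹ : Rˣ) ^ divWt n * (W.preΨ' n).eval x := by
  induction n using normEDSRec with
  | zero => simp
  | one => simp [divWt]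
  | two => simp [divWt]
  | three => simpa [divWt, Nat.even_iff] using eval_Ψ₃_variableChange W v x
  | four => simpa [divWt, show Even 4 by decide] using eval_preΨ₄_variableChange W v x
  | even m h₁ h₂ h₃ h₄ h₅ =>
    simp only [preΨ'_even, eval_sub, eval_mul, eval_pow, h₁, h₂, h₃, h₄, h₅]
    rcases Nat.even_or_odd' m with ⟨a, rfl | rfl⟩
    · rw [divWt_odd a, show 2 * a + 2 = 2 * (a + 1) by ring, divWt_even a,
        show 2 * a + 3 = 2 * (a + 1) + 1 by ring, divWt_odd (a + 1),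
        show 2 * a + 4 = 2 * (a + 1 + 1) by ring, divWt_even (a + 1),
        show 2 * a + 5 = 2 * (a + 2) + 1 by ring, divWt_odd (a + 2),
        show 2 * (2 * (a + 1) + 1) = 2 * (2 * a + 2 + 1) by ring, divWt_even (2 * a + 2)]
      ring
    · rw [show 2 * a + 1 + 1 = 2 * (a + 1) by ring, divWt_even a,
        show 2 * a + 1 + 2 = 2 * (a + 1) + 1 by ring, divWt_odd (a + 1),
        show 2 * a + 1 + 3 = 2 * (a + 1 + 1) by ring, divWt_even (a + 1),
        show 2 * a + 1 + 4 = 2 * (a + 2) + 1 by ring, divWt_odd (a + 2),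
        show 2 * a + 1 + 5 = 2 * (a + 2 + 1) by ring, divWt_even (a + 2),
        show 2 * (2 * (a + 1 + 1)) = 2 * (2 * a + 3 + 1) by ring, divWt_even (2 * a + 3)]
      ring
  | odd m h₁ h₂ h₃ h₄ =>
    simp only [preΨ'_odd, eval_sub, eval_mul, eval_pow, h₁, h₂, h₃, h₄, apply_ite (eval _),
      eval_one, eval_Ψ₂Sq_variableChange]
    rcases Nat.even_or_odd' m with ⟨a, rfl | rfl⟩
    · simp only [even_two_mul, if_true]
      rw [divWt_odd a, show 2 * a + 2 = 2 * (a + 1) by ring, divWt_even a,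
        show 2 * a + 3 = 2 * (a + 1) + 1 by ring, divWt_odd (a + 1),
        show 2 * a + 4 = 2 * (a + 1 + 1) by ring, divWt_even (a + 1), divWt_odd]
      ring
    · simp only [Nat.not_even_two_mul_add_one, if_false]
      rw [show 2 * a + 1 + 1 = 2 * (a + 1) by ring, divWt_even a,
        show 2 * a + 1 + 2 = 2 * (a + 1) + 1 by ring, divWt_odd (a + 1),
        show 2 * a + 1 + 3 = 2 * (a + 1 + 1) by ring, divWt_even (a + 1),
        show 2 * a + 1 + 4 = 2 * (a + 2) + 1 by ring, divWt_odd (a + 2), divWt_odd]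
      ring

/-- Roots of the univariate division polynomials move by the change of variables. -/
theorem eval_preΨ'_mul_variableChange (n : ℕ) (x : R)
    (h : ((W.preΨ' n) * if Even n then W.Ψ₂Sq else 1).eval x = 0) :
    (((v • W).preΨ' n) * if Even n then (v • W).Ψ₂Sq else 1).eval
      ((v.u⁻¹ : Rˣ) ^ 2 * (x - v.r)) = 0 := by
  rw [eval_mul] at h ⊢
  rw [eval_preΨ'_variableChange]
  split_ifs at h ⊢
  · rw [eval_Ψ₂Sq_variableChange]; linear_combination ((v.u⁻¹ : Rˣ) : R) ^ (divWt n + 6) * h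
  · rw [eval_one, mul_one] at h ⊢
    rw [h, mul_zero]

end Fermat.Agent.RED.Normal
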